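/-
Programme MZ (S15, Mazur), chapter SEL (helper8): **the six-term counting lemma** (pure algebra).

For `H0A → H0B → H0C → H1A → H1B → H1C` exact (first map injective) and "Selmer" submodules
`SA ≤ H1A`, `SB ≤ H1B`, `SC ≤ H1C` with `SA = i1⁻¹(SB)` (induced condition on the sub) and
`p1(SB) ≤ SC` (induced condition on the quotient):

  `#SB * #H0A * #H0C ≤ #SA * #SC * #H0B`   (`card_le`),  and `SB` is finite (`finite_mid`).
-/
import Mathlib

set_option autoImplicit false
set_option linter.unusedSectionVars false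
set_option linter.style.haveILetI false

namespace Fermat.Agent.MZ.SEL.SixTerm8

variable {k : Type*} [CommRing k]

/-- `#M = #ker f * #range f`, with no finiteness hypothesis (`Nat.card`). -/
theorem card_eq_ker_mul_range {M N : Type*} [AddCommGroup M] [Module k M] [AddCommGroup N]
    [Module k N] (f : M →ₗ[k] N) :
    Nat.card M = Nat.card (LinearMap.ker f) * Nat.card (LinearMap.range f) := by
  rw [Submodule.card_eq_card_quotient_mul_card (LinearMap.ker f)]
  congr 1
  exact Nat.card_congr f.quotKerEquivRange.toEquiv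

/-- An extension of finite by finite is finite (linear version). -/
theorem finite_of_ker_range {M N : Type*} [AddCommGroup M] [Module k M] [AddCommGroup N]
    [Module k N] (f : M →ₗ[k] N) [Finite (LinearMap.ker f)] [Finite (LinearMap.range f)] :
    Finite M := by
  have h := card_eq_ker_mul_range f
  have h1 : 0 < Nat.card (LinearMap.ker f) := Nat.card_pos
  have h2 : 0 < Nat.card (LinearMap.range f) := Nat.card_pos
  have h3 : 0 < Nat.card M := by rw [h]; exact Nat.mul_pos h1 h2
  exact (Nat.card_pos_iff.mp h3).2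

section Six

variable {H0A H0B H0C H1A H1B H1C : Type*}
  [AddCommGroup H0A] [Module k H0A] [AddCommGroup H0B] [Module k H0B]
  [AddCommGroup H0C] [Module k H0C] [AddCommGroup H1A] [Module k H1A]
  [AddCommGroup H1B] [Module k H1B] [AddCommGroup H1C] [Module k H1C]
  (i0 : H0A →ₗ[k] H0B) (p0 : H0B →ₗ[k] H0C) (δ : H0C →ₗ[k] H1A)
  (i1 : H1A →ₗ[k] H1B) (p1 : H1B →ₗ[k] H1C)
  (hi0 : Function.Injective i0)
  (e1 : LinearMap.ker p0 = LinearMap.range i0)
  (e2 : LinearMap.ker δ = LinearMap.range p0)
  (e3 : LinearMap.ker i1 = LinearMap.range δ)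
  (e4 : LinearMap.ker p1 = LinearMap.range i1)
  (SA : Submodule k H1A) (SB : Submodule k H1B) (SC : Submodule k H1C)
  (hA : SA = SB.comap i1) (hC : SB.map p1 ≤ SC)

/-- `p1` restricted to the Selmer submodules. -/
def resP : SB →ₗ[k] SC :=
  (p1.domRestrict SB).codRestrict SC fun x => hC ⟨x, x.2, rfl⟩

/-- `i1` restricted to the Selmer submodules. -/
def resI : SA →ₗ[k] SB :=
  (i1.domRestrict SA).codRestrict SB fun x => by
    have hx : (x : H1A) ∈ SB.comap i1 := hA ▸ x.2
    exact hx

@[simp] theorem coe_resP (x : SB) : ((resP p1 SB SC hC x : SC) : H1C) = p1 (x : H1B) := rfl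

@[simp] theorem coe_resI (a : SA) : ((resI i1 SA SB hA a : SB) : H1B) = i1 (a : H1A) := rfl

include e4 in
theorem ker_resP : LinearMap.ker (resP p1 SB SC hC) = LinearMap.range (resI i1 SA SB hA) := by
  ext x
  rw [LinearMap.mem_ker, LinearMap.mem_range]
  constructor
  · intro h
    have h1 : p1 (x : H1B) = 0 := by
      have := congrArg (fun y : SC => (y : H1C)) h
      simpa using this
    have h2 : (x : H1B) ∈ LinearMap.range i1 := by rw [← e4]; exact h1
    obtain ⟨a, ha⟩ := h2
    have haS : a ∈ SA := by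
      rw [hA, Submodule.mem_comap, ha]
      exact x.2
    exact ⟨⟨a, haS⟩, Subtype.ext ha⟩
  · rintro ⟨a, rfl⟩
    apply Subtype.ext
    have h2 : i1 (a : H1A) ∈ LinearMap.ker p1 := by rw [e4]; exact ⟨_, rfl⟩
    rw [coe_resP, coe_resI]
    exact h2

include e3 in
theorem card_ker_resI :
    Nat.card (LinearMap.ker (resI i1 SA SB hA)) = Nat.card (LinearMap.range δ) := by
  have hle : LinearMap.range δ ≤ SA := by
    rintro _ ⟨c, rfl⟩
    rw [hA, Submodule.mem_comap]
    have h0 : δ c ∈ LinearMap.ker i1 := by rw [e3]; exact ⟨c, rfl⟩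
    rw [LinearMap.mem_ker.mp h0]
    exact SB.zero_mem
  refine Nat.card_congr
    { toFun := fun x => ⟨(x.1 : H1A), ?_⟩
      invFun := fun y => ⟨⟨(y : H1A), hle y.2⟩, ?_⟩
      left_inv := fun x => rfl
      right_inv := fun y => rfl }
  · have h := x.2
    rw [LinearMap.mem_ker] at h
    have h1 : i1 (x.1 : H1A) = 0 := by
      have h' := congrArg (fun y : SB => (y : H1B)) h
      exact h'
    rw [← e3]
    exact h1
  · rw [LinearMap.mem_ker]
    apply Subtype.ext
    have h0 : (y : H1A) ∈ LinearMap.ker i1 := by rw [e3]; exact y.2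
    rw [coe_resI]
    exact h0

include e4 hA hC in
/-- The middle Selmer module is finite. -/
theorem finite_mid [Finite SA] [Finite SC] : Finite SB := by
  haveI : Finite (LinearMap.ker (resP p1 SB SC hC)) := by
    rw [ker_resP i1 p1 e4 SA SB SC hA hC]
    exact Finite.of_surjective (fun a : SA => (⟨resI i1 SA SB hA a, a, rfl⟩ :
      LinearMap.range (resI i1 SA SB hA))) (by rintro ⟨_, a, rfl⟩; exact ⟨a, rfl⟩)
  haveI : Finite (LinearMap.range (resP p1 SB SC hC)) :=
    Finite.of_injective (fun x => (x : SC)) Subtype.val_injective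
  exact finite_of_ker_range (resP p1 SB SC hC)

include hi0 e1 e2 e3 e4 hA hC in
/-- **The six-term counting inequality.** -/
theorem card_le [Finite SA] [Finite SC] [Finite H0B] :
    Nat.card SB * Nat.card H0A * Nat.card H0C ≤ Nat.card SA * Nat.card SC * Nat.card H0B := by
  by_cases hfin : Finite H0C
  swap
  · rw [not_finite_iff_infinite] at hfin
    rw [Nat.card_eq_zero_of_infinite (α := H0C), Nat.mul_zero]
    exact Nat.zero_le _
  -- `#SB = #range resI * #range resP ≤ #range resI * #SC`
  have h1 : Nat.card SB =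
      Nat.card (LinearMap.range (resI i1 SA SB hA)) *
        Nat.card (LinearMap.range (resP p1 SB SC hC)) := by
    rw [card_eq_ker_mul_range (resP p1 SB SC hC), ker_resP i1 p1 e4 SA SB SC hA hC]
  have h2 : Nat.card (LinearMap.range (resP p1 SB SC hC)) ≤ Nat.card SC :=
    Nat.card_le_card_of_injective (fun x => (x : SC)) Subtype.val_injective
  -- `#SA = #range δ * #range resI`
  have h3 : Nat.card SA =
      Nat.card (LinearMap.range δ) * Nat.card (LinearMap.range (resI i1 SA SB hA)) := by
    rw [card_eq_ker_mul_range (resI i1 SA SB hA), card_ker_resI δ i1 e3 SA SB hA]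
  -- `#H0C = #range p0 * #range δ`
  have h4 : Nat.card H0C = Nat.card (LinearMap.range p0) * Nat.card (LinearMap.range δ) := by
    rw [card_eq_ker_mul_range δ, e2]
  -- `#H0B = #H0A * #range p0`
  have h5 : Nat.card H0B = Nat.card H0A * Nat.card (LinearMap.range p0) := by
    rw [card_eq_ker_mul_range p0, e1]
    congr 1
    exact (Nat.card_congr (LinearEquiv.ofInjective i0 hi0).toEquiv).symm
  rw [h1, h3, h4, h5]
  set a := Nat.card (LinearMap.range (resI i1 SA SB hA))
  set b := Nat.card (LinearMap.range (resP p1 SB SC hC))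
  set c := Nat.card (LinearMap.range δ)
  set d := Nat.card (LinearMap.range p0)
  set e := Nat.card H0A
  set s := Nat.card SC
  calc a * b * e * (d * c) = b * (a * e * d * c) := by ring
    _ ≤ s * (a * e * d * c) := Nat.mul_le_mul_right _ h2
    _ = c * a * s * (e * d) := by ring

end Six

end Fermat.Agent.MZ.SEL.SixTerm8
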