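/-
Programme MZ (S15, Mazur), chapter SEL (helper8): **induced Selmer structures**.

Vocabulary of `TW/DEF/Basic1` (`GQ`, `HS1 S M`, `Hq1 M q`, `resq1`, `Sel S M L`).  For a short exact
sequence `0 → A --φ--> B --ψ--> C → 0` of `GQ`-modules and local conditions `LB q ≤ H¹(ℚ_q, B)`:

* `mapq1 φ hφ q : Hq1 A q →ₗ Hq1 B q` the local coefficient map, `resq1_mapH1` (naturality);
* `indSub φ hφ LB q := (LB q).comap (mapq1 φ hφ q)`, `indQuot ψ hψ LB q := (LB q).map (mapq1 ψ hψ q)`;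
* `sel_indSub : Sel S A (indSub ..) = (Sel S B LB).comap (mapH1 φ hφ)`;
* `map_sel_le : (Sel S B LB).map (mapH1 ψ hψ) ≤ Sel S C (indQuot ..)`;
* `finite_sel_mid`, `card_sel_step` :
  `#Sel(B) * #A^G * #C^G ≤ #Sel(A, indSub) * #Sel(C, indQuot) * #B^G`.
No exactness of local cohomology is used.
-/
import Mathlib
import Fermat.Agent.TW.DEF.Basic1
import Fermat.Agent.MZ.SEL.SixTerm8

set_option autoImplicit false
set_option linter.unusedSectionVars false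
set_option linter.style.haveILetI false

open Fermat.Agent.PT.PRO.LevelCoh28 Fermat.Agent.PT.PRO.LevelCohRes28
open Fermat.Agent.PT.GLUE.Objects21
open Fermat.Agent.TW.DEF.Basic1

namespace Fermat.Agent.MZ.SEL.Induced8

variable {k : Type} [CommRing k] (S : Finset Nat.Primes)

/-! ### Local coefficient maps and naturality of restriction -/

section Maps

variable {A B : Rep.{0} k GQ} (φ : A →ₗ[k] B) (hφ : ∀ g a, φ (A.ρ g a) = B.ρ g (φ a))

/-- The same linear map, between the restrictions to the local Galois group. -/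
def locMap (q : ℕ) [Fact q.Prime] : Mq A q →ₗ[k] Mq B q := φ

include hφ in
theorem locMap_equivariant (q : ℕ) [Fact q.Prime] (τ : Gq q) (a : Mq A q) :
    locMap φ q ((Mq A q).ρ τ a) = (Mq B q).ρ τ (locMap φ q a) := hφ (rq q τ) a

/-- The local coefficient map `H¹(ℚ_q, A) → H¹(ℚ_q, B)`. -/
noncomputable def mapq1 (q : ℕ) [Fact q.Prime] : Hq1 A q →ₗ[k] Hq1 B q :=
  mapH1 (𝓑 := levelLoc q) (locMap φ q) (locMap_equivariant φ hφ q)

theorem mapq1_mk (q : ℕ) [Fact q.Prime] (c : ↥(Z1 (levelLoc q) (Mq A q))) :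
    mapq1 φ hφ q (H1mk (levelLoc q) (Mq A q) c) =
      H1mk (levelLoc q) (Mq B q) (mapZ1 (locMap φ q) (locMap_equivariant φ hφ q) c) := rfl

/-- Restriction commutes with coefficient maps. -/
theorem resq1_mapH1 (q : ℕ) [Fact q.Prime] (x : HS1 S A) :
    resq1 S B q (mapH1 (𝓑 := levelS S) φ hφ x) = mapq1 φ hφ q (resq1 S A q x) := by
  obtain ⟨c, rfl⟩ := H1mk_surjective (levelS S) A x
  rfl

end Maps

section Comp

variable {A B C : Rep.{0} k GQ} (φ : A →ₗ[k] B) (hφ : ∀ g a, φ (A.ρ g a) = B.ρ g (φ a))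
  (ψ : B →ₗ[k] C) (hψ : ∀ g b, ψ (B.ρ g b) = C.ρ g (ψ b))

include hφ hψ in
theorem comp_equivariant' (g : GQ) (a : A) : (ψ ∘ₗ φ) (A.ρ g a) = C.ρ g ((ψ ∘ₗ φ) a) := by
  simp only [LinearMap.comp_apply, hφ, hψ]

theorem mapq1_comp (q : ℕ) [Fact q.Prime] (x : Hq1 A q) :
    mapq1 (ψ ∘ₗ φ) (comp_equivariant' φ hφ ψ hψ) q x = mapq1 ψ hψ q (mapq1 φ hφ q x) := by
  obtain ⟨c, rfl⟩ := H1mk_surjective (levelLoc q) (Mq A q) x
  rfl

theorem mapH1_comp (x : HS1 S A) :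
    mapH1 (𝓑 := levelS S) (ψ ∘ₗ φ) (comp_equivariant' φ hφ ψ hψ) x =
      mapH1 (𝓑 := levelS S) ψ hψ (mapH1 (𝓑 := levelS S) φ hφ x) := by
  obtain ⟨c, rfl⟩ := H1mk_surjective (levelS S) A x
  rfl

end Comp

/-! ### Induced conditions -/

section Induced

variable {A B C : Rep.{0} k GQ} (φ : A →ₗ[k] B) (hφ : ∀ g a, φ (A.ρ g a) = B.ρ g (φ a))
  (ψ : B →ₗ[k] C) (hψ : ∀ g b, ψ (B.ρ g b) = C.ρ g (ψ b))
  (LB : ∀ q : ↥S, Submodule k (Hq1 B ((q : Nat.Primes) : ℕ)))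

/-- The condition induced on a submodule: the preimage. -/
noncomputable def indSub (q : ↥S) : Submodule k (Hq1 A ((q : Nat.Primes) : ℕ)) :=
  (LB q).comap (mapq1 φ hφ ((q : Nat.Primes) : ℕ))

/-- The condition induced on a quotient: the image. -/
noncomputable def indQuot (q : ↥S) : Submodule k (Hq1 C ((q : Nat.Primes) : ℕ)) :=
  (LB q).map (mapq1 ψ hψ ((q : Nat.Primes) : ℕ))

theorem mem_indSub (q : ↥S) (x : Hq1 A ((q : Nat.Primes) : ℕ)) :
    x ∈ indSub S φ hφ LB q ↔ mapq1 φ hφ ((q : Nat.Primes) : ℕ) x ∈ LB q := Iff.rfl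

theorem sel_indSub :
    Sel S A (indSub S φ hφ LB) = (Sel S B LB).comap (mapH1 (𝓑 := levelS S) φ hφ) := by
  ext x
  rw [Submodule.mem_comap, mem_Sel_iff, mem_Sel_iff]
  refine forall_congr' fun q => ?_
  rw [mem_indSub, resq1_mapH1]

theorem map_sel_le :
    (Sel S B LB).map (mapH1 (𝓑 := levelS S) ψ hψ) ≤ Sel S C (indQuot S ψ hψ LB) := by
  rintro _ ⟨x, hx, rfl⟩
  rw [mem_Sel_iff]
  intro q
  rw [resq1_mapH1]
  exact ⟨_, (mem_Sel_iff S B LB x).1 hx q, rfl⟩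

end Induced

/-! ### The counting step -/

section Step

variable {A B C : Rep.{0} k GQ} (φ : A →ₗ[k] B) (hφ : ∀ g a, φ (A.ρ g a) = B.ρ g (φ a))
  (ψ : B →ₗ[k] C) (hψ : ∀ g b, ψ (B.ρ g b) = C.ρ g (ψ b))
  (hinj : Function.Injective φ) (hsurj : Function.Surjective ψ)
  (hex : ∀ b, ψ b = 0 ↔ ∃ a, φ a = b) (hB : IsDiscrete (levelS S).sets B)
  (LB : ∀ q : ↥S, Submodule k (Hq1 B ((q : Nat.Primes) : ℕ)))

/-- `φ` on invariants. -/
noncomputable def inv0 : ↥A.ρ.invariants →ₗ[k] ↥B.ρ.invariants :=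
  (φ.domRestrict A.ρ.invariants).codRestrict B.ρ.invariants fun a g => by
    show B.ρ g (φ (a : A)) = φ (a : A)
    rw [← hφ, a.2 g]

@[simp] theorem coe_inv0 (a : ↥A.ρ.invariants) : ((inv0 φ hφ a : ↥B.ρ.invariants) : B) = φ (a : A) :=
  rfl

include hinj in
theorem inv0_injective : Function.Injective (inv0 φ hφ) := by
  intro a a' h
  apply Subtype.ext
  apply hinj
  have := congrArg (fun y : ↥B.ρ.invariants => (y : B)) h
  simpa using this

include hinj hex in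
theorem ker_inv0 : LinearMap.ker (inv0 ψ hψ) = LinearMap.range (inv0 φ hφ) := by
  ext b
  rw [LinearMap.mem_ker, LinearMap.mem_range]
  constructor
  · intro h
    have h1 : ψ (b : B) = 0 := by
      have := congrArg (fun y : ↥C.ρ.invariants => (y : C)) h
      simpa using this
    obtain ⟨a, ha⟩ := (hex _).1 h1
    have hainv : a ∈ A.ρ.invariants := fun g => by
      apply hinj
      rw [hφ, ha, b.2 g]
    exact ⟨⟨a, hainv⟩, Subtype.ext ha⟩
  · rintro ⟨a, rfl⟩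
    apply Subtype.ext
    rw [coe_inv0, coe_inv0]
    exact (hex _).2 ⟨_, rfl⟩

include hφ hψ hinj hex hB in
theorem ker_delta0 :
    LinearMap.ker (delta0 (𝓑 := levelS S) φ hφ ψ hψ hinj hsurj hex hB) =
      LinearMap.range (inv0 ψ hψ) := by
  ext c
  rw [LinearMap.mem_ker, delta0_eq_zero_iff, LinearMap.mem_range]
  constructor
  · rintro ⟨b, hb, hbc⟩
    exact ⟨⟨b, hb⟩, Subtype.ext hbc⟩
  · rintro ⟨b, rfl⟩
    exact ⟨b, b.2, rfl⟩

include hinj hsurj hex hB in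
/-- The middle Selmer group is finite. -/
theorem finite_sel_mid [Finite ↥(Sel S A (indSub S φ hφ LB))]
    [Finite ↥(Sel S C (indQuot S ψ hψ LB))] : Finite ↥(Sel S B LB) :=
  SixTerm8.finite_mid (mapH1 (𝓑 := levelS S) φ hφ) (mapH1 (𝓑 := levelS S) ψ hψ)
    (ker_mapH1 (𝓑 := levelS S) (A := A) φ hφ ψ hψ hinj hsurj hex hB)
    (Sel S A (indSub S φ hφ LB)) (Sel S B LB) (Sel S C (indQuot S ψ hψ LB))
    (sel_indSub S φ hφ LB) (map_sel_le S ψ hψ LB)

include hinj hsurj hex hB in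
/-- **The counting step**: `#Sel(B) * #A^G * #C^G ≤ #Sel(A) * #Sel(C) * #B^G` for the induced
conditions on `A` and `C`. -/
theorem card_sel_step [Finite ↥(Sel S A (indSub S φ hφ LB))]
    [Finite ↥(Sel S C (indQuot S ψ hψ LB))] [Finite ↥B.ρ.invariants] :
    Nat.card ↥(Sel S B LB) * Nat.card ↥A.ρ.invariants * Nat.card ↥C.ρ.invariants ≤
      Nat.card ↥(Sel S A (indSub S φ hφ LB)) * Nat.card ↥(Sel S C (indQuot S ψ hψ LB)) *
        Nat.card ↥B.ρ.invariants :=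
  SixTerm8.card_le (inv0 φ hφ) (inv0 ψ hψ)
    (delta0 (𝓑 := levelS S) φ hφ ψ hψ hinj hsurj hex hB)
    (mapH1 (𝓑 := levelS S) φ hφ) (mapH1 (𝓑 := levelS S) ψ hψ)
    (inv0_injective φ hφ hinj) (ker_inv0 φ hφ ψ hψ hinj hex)
    (ker_delta0 S φ hφ ψ hψ hinj hsurj hex hB)
    (ker_mapH1_eq_range_delta0 (𝓑 := levelS S) φ hφ ψ hψ hinj hsurj hex hB)
    (ker_mapH1 (𝓑 := levelS S) (A := A) φ hφ ψ hψ hinj hsurj hex hB)
    (Sel S A (indSub S φ hφ LB)) (Sel S B LB) (Sel S C (indQuot S ψ hψ LB))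
    (sel_indSub S φ hφ LB) (map_sel_le S ψ hψ LB)

end Step

end Fermat.Agent.MZ.SEL.Induced8
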