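/-
Programme MZ (S15, Mazur), chapter SEL (helper8): **dévissage of a Selmer group along a chain**.

`ChainData S M m`: reps `G 0, …, G m` with equivariant injections `j i : G i → M` (`G 0` trivial,
`j m` bijective), exact sequences `0 → G i --φ i--> G (i+1) --ψ i--> X i → 0` (`i < m`) compatible with
the `j`'s.  For local conditions `L q ≤ H¹(ℚ_q, M)`:

* `Lsub D L i q := (L q).comap (mapq1 (j i))`  (condition induced on the sub `G i`),
* `Lquot D L i q := (Lsub D L (i+1) q).map (mapq1 (ψ i))`  (condition induced on the constituent `X i`);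
* `card_sel_chain` :
  `#Sel(M, L) * ∏_{i<m} #(X i)^GQ ≤ (∏_{i<m} #Sel(X i, Lquot i)) * #M^GQ`, and `Sel(M, L)` is finite.
-/
import Mathlib
import Fermat.Agent.MZ.SEL.Induced8

set_option autoImplicit false
set_option linter.unusedSectionVars false
set_option linter.style.haveILetI false

open Fermat.Agent.PT.PRO.LevelCoh28 Fermat.Agent.PT.PRO.LevelCohRes28
open Fermat.Agent.PT.GLUE.Objects21
open Fermat.Agent.TW.DEF.Basic1
open Fermat.Agent.MZ.SEL.Induced8

namespace Fermat.Agent.MZ.SEL.Chain8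

variable {k : Type} [CommRing k] (S : Finset Nat.Primes)

/-- A chain of sub-representations of `M` with its constituents. -/
structure ChainData (M : Rep.{0} k GQ) (m : ℕ) where
  /-- the steps of the filtration -/
  G : ℕ → Rep.{0} k GQ
  /-- the constituents -/
  X : ℕ → Rep.{0} k GQ
  /-- the inclusions into `M` -/
  j : ∀ i, G i →ₗ[k] M
  hj : ∀ i g a, j i ((G i).ρ g a) = M.ρ g (j i a)
  j_inj : ∀ i, Function.Injective (j i)
  /-- the inclusions of consecutive steps -/
  φ : ∀ i, G i →ₗ[k] G (i + 1)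
  hφ : ∀ i g a, φ i ((G i).ρ g a) = (G (i + 1)).ρ g (φ i a)
  /-- the projections onto the constituents -/
  ψ : ∀ i, G (i + 1) →ₗ[k] X i
  hψ : ∀ i g b, ψ i ((G (i + 1)).ρ g b) = (X i).ρ g (ψ i b)
  φ_inj : ∀ i, i < m → Function.Injective (φ i)
  ψ_surj : ∀ i, i < m → Function.Surjective (ψ i)
  exact : ∀ i, i < m → ∀ b, ψ i b = 0 ↔ ∃ a, φ i a = b
  comp : ∀ i, i < m → ∀ a, j (i + 1) (φ i a) = j i a
  bot : Subsingleton (G 0)
  top : Function.Surjective (j m)
  disc : ∀ i, IsDiscrete (levelS S).sets (G i)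

variable {S} {M : Rep.{0} k GQ} {m : ℕ} (D : ChainData S M m)
  (L : ∀ q : ↥S, Submodule k (Hq1 M ((q : Nat.Primes) : ℕ)))

/-- The condition induced on the step `G i`. -/
noncomputable def Lsub (i : ℕ) (q : ↥S) : Submodule k (Hq1 (D.G i) ((q : Nat.Primes) : ℕ)) :=
  indSub S (D.j i) (D.hj i) L q

/-- The condition induced on the constituent `X i`. -/
noncomputable def Lquot (i : ℕ) (q : ↥S) : Submodule k (Hq1 (D.X i) ((q : Nat.Primes) : ℕ)) :=
  indQuot S (D.ψ i) (D.hψ i) (Lsub D L (i + 1)) q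

theorem mapq1_j_succ {i : ℕ} (hi : i < m) (q : ℕ) [Fact q.Prime] (x : Hq1 (D.G i) q) :
    mapq1 (D.j (i + 1)) (D.hj (i + 1)) q (mapq1 (D.φ i) (D.hφ i) q x) =
      mapq1 (D.j i) (D.hj i) q x := by
  obtain ⟨c, rfl⟩ := H1mk_surjective (levelLoc q) (Mq (D.G i) q) x
  rw [mapq1_mk, mapq1_mk, mapq1_mk]
  congr 1
  apply Subtype.ext
  funext τ
  exact D.comp i hi _

theorem indSub_Lsub {i : ℕ} (hi : i < m) :
    indSub S (D.φ i) (D.hφ i) (Lsub D L (i + 1)) = Lsub D L i := by
  funext q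
  apply Submodule.ext
  intro x
  show mapq1 (D.j (i + 1)) (D.hj (i + 1)) _ (mapq1 (D.φ i) (D.hφ i) _ x) ∈ L q ↔
    mapq1 (D.j i) (D.hj i) _ x ∈ L q
  rw [mapq1_j_succ D hi]

/-- invariants of a finite module are finite -/
instance finite_invariants (A : Rep.{0} k GQ) [Finite A] : Finite ↥A.ρ.invariants :=
  Finite.of_injective (fun x => (x : A)) Subtype.val_injective

theorem finite_G [Finite M] (i : ℕ) : Finite (D.G i) :=
  Finite.of_injective (D.j i) (D.j_inj i)

theorem card_invariants_pos (A : Rep.{0} k GQ) [Finite A] : 0 < Nat.card ↥A.ρ.invariants :=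
  Nat.card_pos

/-- **Dévissage, inductive form.** -/
theorem card_sel_chain_aux [Finite M]
    (hfin : ∀ i, i < m → Finite ↥(Sel S (D.X i) (Lquot D L i))) :
    ∀ i, i ≤ m → Finite ↥(Sel S (D.G i) (Lsub D L i)) ∧
      Nat.card ↥(Sel S (D.G i) (Lsub D L i)) *
          ∏ t ∈ Finset.range i, Nat.card ↥(D.X t).ρ.invariants ≤
        (∏ t ∈ Finset.range i, Nat.card ↥(Sel S (D.X t) (Lquot D L t))) *
          Nat.card ↥(D.G i).ρ.invariants := by
  intro i
  induction i with
  | zero =>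
    intro _
    haveI := D.bot
    haveI : Subsingleton (HS1 S (D.G 0)) := by
      refine ⟨fun x y => ?_⟩
      obtain ⟨c, rfl⟩ := H1mk_surjective (levelS S) (D.G 0) x
      obtain ⟨c', rfl⟩ := H1mk_surjective (levelS S) (D.G 0) y
      congr 1
      apply Subtype.ext
      funext g
      exact Subsingleton.elim _ _
    haveI : Subsingleton ↥(Sel S (D.G 0) (Lsub D L 0)) :=
      ⟨fun x y => Subtype.ext (Subsingleton.elim _ _)⟩
    haveI : Subsingleton ↥(D.G 0).ρ.invariants :=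
      ⟨fun x y => Subtype.ext (Subsingleton.elim _ _)⟩
    refine ⟨inferInstance, ?_⟩
    have h1 : Nat.card ↥(Sel S (D.G 0) (Lsub D L 0)) = 1 :=
      Nat.card_eq_one_iff_unique.mpr ⟨inferInstance, ⟨0⟩⟩
    have h2 : Nat.card ↥(D.G 0).ρ.invariants = 1 :=
      Nat.card_eq_one_iff_unique.mpr ⟨inferInstance, ⟨0⟩⟩
    rw [Finset.prod_range_zero, Finset.prod_range_zero, h1, h2]
  | succ i ih =>
    intro hi
    have hi' : i < m := hi
    obtain ⟨hfA, hle⟩ := ih hi'.le
    haveI := finite_G D i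
    haveI := finite_G D (i + 1)
    haveI : Finite ↥(Sel S (D.G i) (indSub S (D.φ i) (D.hφ i) (Lsub D L (i + 1)))) := by
      rw [indSub_Lsub D L hi']; exact hfA
    haveI : Finite ↥(Sel S (D.X i) (indQuot S (D.ψ i) (D.hψ i) (Lsub D L (i + 1)))) :=
      hfin i hi'
    have hstep := card_sel_step S (D.φ i) (D.hφ i) (D.ψ i) (D.hψ i) (D.φ_inj i hi')
      (D.ψ_surj i hi') (D.exact i hi') (D.disc (i + 1)) (Lsub D L (i + 1))
    have hfB := finite_sel_mid S (D.φ i) (D.hφ i) (D.ψ i) (D.hψ i) (D.φ_inj i hi')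
      (D.ψ_surj i hi') (D.exact i hi') (D.disc (i + 1)) (Lsub D L (i + 1))
    refine ⟨hfB, ?_⟩
    rw [indSub_Lsub D L hi'] at hstep
    rw [Finset.prod_range_succ, Finset.prod_range_succ]
    have hpos : 0 < Nat.card ↥(D.G i).ρ.invariants := card_invariants_pos _
    set sB := Nat.card ↥(Sel S (D.G (i + 1)) (Lsub D L (i + 1)))
    set sA := Nat.card ↥(Sel S (D.G i) (Lsub D L i))
    set sC := Nat.card ↥(Sel S (D.X i) (Lquot D L i))
    set hA := Nat.card ↥(D.G i).ρ.invariants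
    set hB := Nat.card ↥(D.G (i + 1)).ρ.invariants
    set hC := Nat.card ↥(D.X i).ρ.invariants
    set ph := ∏ t ∈ Finset.range i, Nat.card ↥(D.X t).ρ.invariants
    set ps := ∏ t ∈ Finset.range i, Nat.card ↥(Sel S (D.X t) (Lquot D L t))
    have hstep' : sB * hA * hC ≤ sA * sC * hB := hstep
    have h1 : hA * (sB * (ph * hC)) ≤ hA * (ps * sC * hB) := by
      calc hA * (sB * (ph * hC)) = (sB * hA * hC) * ph := by ring
        _ ≤ (sA * sC * hB) * ph := Nat.mul_le_mul_right _ hstep'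
        _ = (sA * ph) * (sC * hB) := by ring
        _ ≤ (ps * hA) * (sC * hB) := Nat.mul_le_mul_right _ hle
        _ = hA * (ps * sC * hB) := by ring
    exact Nat.le_of_mul_le_mul_left h1 hpos

/-! ### Transport along the bijection `j m` -/

section Transport

variable {A B : Rep.{0} k GQ} (e : A →ₗ[k] B) (he : ∀ g a, e (A.ρ g a) = B.ρ g (e a))
  (hbij : Function.Bijective e)

include hbij in
theorem mapH1_bijective : Function.Bijective (mapH1 (𝓑 := levelS S) e he) := by
  let E : A ≃ₗ[k] B := LinearEquiv.ofBijective e hbij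
  have hE : ∀ a, E a = e a := fun a => rfl
  have hinv : ∀ g b, (E.symm : B →ₗ[k] A) (B.ρ g b) = A.ρ g ((E.symm : B →ₗ[k] A) b) := by
    intro g b
    apply hbij.1
    show e (E.symm (B.ρ g b)) = e (A.ρ g (E.symm b))
    rw [he, ← hE, ← hE, E.apply_symm_apply, E.apply_symm_apply]
  refine Function.bijective_iff_has_inverse.mpr
    ⟨mapH1 (𝓑 := levelS S) (E.symm : B →ₗ[k] A) hinv, fun x => ?_, fun y => ?_⟩
  · obtain ⟨c, rfl⟩ := H1mk_surjective (levelS S) A x
    rw [mapH1_mk, mapH1_mk]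
    congr 1
    apply Subtype.ext
    funext g
    show E.symm (e (c.1 g)) = c.1 g
    rw [← hE, E.symm_apply_apply]
  · obtain ⟨c, rfl⟩ := H1mk_surjective (levelS S) B y
    rw [mapH1_mk, mapH1_mk]
    congr 1
    apply Subtype.ext
    funext g
    show e (E.symm (c.1 g)) = c.1 g
    rw [← hE, E.apply_symm_apply]

include hbij in
theorem card_sel_transport (LB : ∀ q : ↥S, Submodule k (Hq1 B ((q : Nat.Primes) : ℕ))) :
    Nat.card ↥(Sel S A (indSub S e he LB)) = Nat.card ↥(Sel S B LB) := by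
  rw [sel_indSub]
  have hb := mapH1_bijective (S := S) e he hbij
  refine Nat.card_congr (Equiv.ofBijective
    (fun x : ↥((Sel S B LB).comap (mapH1 (𝓑 := levelS S) e he)) =>
      (⟨mapH1 (𝓑 := levelS S) e he x, x.2⟩ : ↥(Sel S B LB))) ⟨?_, ?_⟩)
  · intro x y h
    apply Subtype.ext
    apply hb.1
    exact congrArg (fun z : ↥(Sel S B LB) => (z : HS1 S B)) h
  · intro y
    obtain ⟨x, hx⟩ := hb.2 (y : HS1 S B)
    refine ⟨⟨x, ?_⟩, Subtype.ext hx⟩
    rw [Submodule.mem_comap, hx]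
    exact y.2

include he hbij in
theorem card_invariants_transport :
    Nat.card ↥A.ρ.invariants = Nat.card ↥B.ρ.invariants := by
  refine Nat.card_congr (Equiv.ofBijective (inv0 e he) ⟨inv0_injective e he hbij.1, ?_⟩)
  intro b
  obtain ⟨a, ha⟩ := hbij.2 (b : B)
  have hainv : a ∈ A.ρ.invariants := fun g => by
    apply hbij.1
    rw [he, ha, b.2 g]
  exact ⟨⟨a, hainv⟩, Subtype.ext ha⟩

end Transport

/-- **Dévissage of the Selmer group of `M` along a chain.** -/
theorem card_sel_chain [Finite M]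
    (hfin : ∀ i, i < m → Finite ↥(Sel S (D.X i) (Lquot D L i))) :
    Finite ↥(Sel S M L) ∧
      Nat.card ↥(Sel S M L) * ∏ t ∈ Finset.range m, Nat.card ↥(D.X t).ρ.invariants ≤
        (∏ t ∈ Finset.range m, Nat.card ↥(Sel S (D.X t) (Lquot D L t))) *
          Nat.card ↥M.ρ.invariants := by
  obtain ⟨hf, hle⟩ := card_sel_chain_aux D L hfin m le_rfl
  have hbij : Function.Bijective (D.j m) := ⟨D.j_inj m, D.top⟩
  have h1 := card_sel_transport (S := S) (D.j m) (D.hj m) hbij L
  have h2 := card_invariants_transport (D.j m) (D.hj m) hbij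
  have h1' : Nat.card ↥(Sel S (D.G m) (Lsub D L m)) = Nat.card ↥(Sel S M L) := h1
  refine ⟨?_, ?_⟩
  · have hpos : 0 < Nat.card ↥(Sel S (D.G m) (Lsub D L m)) := Nat.card_pos
    rw [h1'] at hpos
    exact (Nat.card_pos_iff.mp hpos).2
  · rw [← h1', ← h2]
    exact hle

end Fermat.Agent.MZ.SEL.Chain8
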