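/-
Programme MZ (S15, Mazur), chapter SEL (helper8): **`ChainData` of a chain of stable submodules.**

`M : Rep k GQ` discrete for `levelS S`, `C : SubChain M m` a chain `⊥ = F 0 ≤ F 1 ≤ … ≤ F m = ⊤` of
`ρ`-stable submodules.  `C.toChainData S hdisc : ChainData S M m` has `G i =` the sub-representation on
`F i`, `X i = F (i+1) / F i`, `j i`, `φ i` the inclusions, `ψ i` the projection.

Dictionary: `X_trivial`, `X_nsmul` (action on the constituent from congruences in `M`), `card_X`,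
`ψ_eq_zero_iff`.
-/
import Mathlib
import Fermat.Agent.MZ.SEL.Chain8

set_option autoImplicit false
set_option linter.unusedSectionVars false
set_option linter.style.haveILetI false

open Fermat.Agent.PT.PRO.LevelCoh28 Fermat.Agent.PT.PRO.LevelCohRes28
open Fermat.Agent.PT.GLUE.Objects21
open Fermat.Agent.TW.DEF.Basic1
open Fermat.Agent.MZ.SEL.Induced8 Fermat.Agent.MZ.SEL.Chain8

namespace Fermat.Agent.MZ.SEL.ChainOfSub8

variable {k : Type} [CommRing k]

/-- A chain of `ρ`-stable submodules of a representation, from `⊥` to `⊤`. -/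
structure SubChain (M : Rep.{0} k GQ) (m : ℕ) where
  /-- the steps -/
  F : ℕ → Submodule k M
  stable : ∀ i g, F i ≤ (F i).comap (M.ρ g)
  mono : ∀ i, F i ≤ F (i + 1)
  bot : F 0 = ⊥
  top : F m = ⊤

variable {M : Rep.{0} k GQ} {m : ℕ} (C : SubChain M m)

namespace SubChain

/-- the relative step `F i` inside `F (i+1)` -/
def rel (i : ℕ) : Submodule k ↥(C.F (i + 1)) := (C.F i).comap (C.F (i + 1)).subtype

theorem rel_stable (i : ℕ) (g : GQ) :
    C.rel i ≤ (C.rel i).comap (M.ρ.subrepresentation (C.F (i + 1)) (C.stable (i + 1)) g) := by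
  intro x hx
  exact C.stable i g hx

/-- the sub-representation on `F i` -/
noncomputable abbrev G (i : ℕ) : Rep.{0} k GQ :=
  Rep.of (M.ρ.subrepresentation (C.F i) (C.stable i))

/-- the constituent `F (i+1) / F i` -/
noncomputable abbrev X (i : ℕ) : Rep.{0} k GQ :=
  Rep.of ((M.ρ.subrepresentation (C.F (i + 1)) (C.stable (i + 1))).quotient (C.rel i)
    (C.rel_stable i))

/-- the inclusion `F i → M` -/
noncomputable def j (i : ℕ) : C.G i →ₗ[k] M := (C.F i).subtype

/-- the inclusion `F i → F (i+1)` -/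
noncomputable def φ (i : ℕ) : C.G i →ₗ[k] C.G (i + 1) := Submodule.inclusion (C.mono i)

/-- the projection `F (i+1) → F (i+1) / F i` -/
noncomputable def ψ (i : ℕ) : C.G (i + 1) →ₗ[k] C.X i := (C.rel i).mkQ

theorem coe_ρ (i : ℕ) (g : GQ) (a : C.G i) :
    (((C.G i).ρ g a : ↥(C.F i)) : M) = M.ρ g ((a : ↥(C.F i)) : M) := rfl

theorem ψ_ρ (i : ℕ) (g : GQ) (b : C.G (i + 1)) :
    C.ψ i ((C.G (i + 1)).ρ g b) = (C.X i).ρ g (C.ψ i b) := rfl

theorem ψ_eq_zero_iff (i : ℕ) (b : C.G (i + 1)) :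
    C.ψ i b = 0 ↔ ((b : ↥(C.F (i + 1))) : M) ∈ C.F i :=
  Submodule.Quotient.mk_eq_zero _

theorem ψ_surjective (i : ℕ) : Function.Surjective (C.ψ i) := Submodule.mkQ_surjective _

/-- **the `ChainData` of a chain of stable submodules.** -/
noncomputable def toChainData (S : Finset Nat.Primes) (hdisc : IsDiscrete (levelS S).sets M) :
    ChainData S M m where
  G := C.G
  X := C.X
  j := C.j
  hj _ _ _ := rfl
  j_inj _ := Subtype.val_injective
  φ := C.φ
  hφ _ _ _ := rfl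
  ψ := C.ψ
  hψ _ _ _ := rfl
  φ_inj i _ := Submodule.inclusion_injective (C.mono i)
  ψ_surj i _ := C.ψ_surjective i
  exact i _ b := by
    rw [C.ψ_eq_zero_iff]
    constructor
    · intro hb
      exact ⟨⟨(b : ↥(C.F (i + 1))), hb⟩, Subtype.ext rfl⟩
    · rintro ⟨a, rfl⟩
      exact (a : ↥(C.F i)).2
  comp _ _ _ := rfl
  bot := by
    refine ⟨fun a b => Subtype.ext ?_⟩
    have ha : ((a : ↥(C.F 0)) : M) ∈ (⊥ : Submodule k M) := C.bot ▸ (a : ↥(C.F 0)).2
    have hb : ((b : ↥(C.F 0)) : M) ∈ (⊥ : Submodule k M) := C.bot ▸ (b : ↥(C.F 0)).2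
    rw [Submodule.mem_bot] at ha hb
    rw [ha, hb]
  top := by
    intro x
    exact ⟨⟨x, C.top ▸ Submodule.mem_top⟩, rfl⟩
  disc i := by
    intro a
    obtain ⟨U, hU, h⟩ := hdisc ((a : ↥(C.F i)) : M)
    exact ⟨U, hU, fun s hs => Subtype.ext (h s hs)⟩

/-! ### dictionary -/

/-- trivial action on the constituent. -/
theorem X_trivial (i : ℕ) (h : ∀ g : GQ, ∀ v ∈ C.F (i + 1), M.ρ g v - v ∈ C.F i)
    (g : GQ) (x : C.X i) : (C.X i).ρ g x = x := by
  obtain ⟨b, rfl⟩ := C.ψ_surjective i x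
  rw [← C.ψ_ρ, ← sub_eq_zero, ← map_sub, C.ψ_eq_zero_iff]
  exact h g _ (b : ↥(C.F (i + 1))).2

/-- action through a "character" `c : GQ → ℕ` on the constituent. -/
theorem X_nsmul (i : ℕ) (c : GQ → ℕ)
    (h : ∀ g : GQ, ∀ v ∈ C.F (i + 1), M.ρ g v - c g • v ∈ C.F i)
    (g : GQ) (x : C.X i) : (C.X i).ρ g x = c g • x := by
  obtain ⟨b, rfl⟩ := C.ψ_surjective i x
  rw [← C.ψ_ρ, ← map_nsmul, ← sub_eq_zero, ← map_sub, C.ψ_eq_zero_iff]
  exact h g _ (b : ↥(C.F (i + 1))).2

/-- the order of the constituent is the relative index. -/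
theorem card_X (i : ℕ) :
    Nat.card (C.X i) = (C.F i).toAddSubgroup.relIndex (C.F (i + 1)).toAddSubgroup := by
  rw [AddSubgroup.relIndex, AddSubgroup.index_eq_card]
  rfl

end SubChain

end Fermat.Agent.MZ.SEL.ChainOfSub8
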