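/-
Programme MZ (S15, Mazur), chapter SEL (helper8): **Selmer group of a constituent vs. its unramified
part.**

`X : Rep k GQ`, local conditions `LQ q ≤ H¹(ℚ_q, X)` (`q ∈ S`), a distinguished `ℓS ∈ S`.  With
  `K := Sel S X (fun q => LQ q ⊓ (if q = ℓS then ⊤ else H1ur q X))`
(same condition at `ℓS`, unramified part of the condition elsewhere) and bounds
  `[LQ q : LQ q ⊓ H1ur] ≤ idx q` (`q ≠ ℓS`, finite quotients):

  `Finite Sel(X, LQ)` and `#Sel(X, LQ) ≤ #K * ∏_{q ≠ ℓS} idx q`   (`card_sel_le`).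
-/
import Mathlib
import Fermat.Agent.TW.LOC.Defs2
import Fermat.Agent.MZ.SEL.Induced8

set_option autoImplicit false
set_option linter.unusedSectionVars false
set_option linter.style.haveILetI false

open Fermat.Agent.PT.PRO.LevelCoh28 Fermat.Agent.PT.PRO.LevelCohRes28
open Fermat.Agent.PT.GLUE.Objects21
open Fermat.Agent.TW.DEF.Basic1
open Fermat.Agent.TW.LOC.Defs2 (Iq H1ur)
open Fermat.Agent.MZ.SEL.SixTerm8

namespace Fermat.Agent.MZ.SEL.ConstBound8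

variable {k : Type} [CommRing k] (S : Finset Nat.Primes) (ℓS : ↥S)

open Classical in
/-- The local conditions of the "unramified part": unchanged at `ℓS`, intersected with `H1ur`
elsewhere. -/
noncomputable def Lk (X : Rep.{0} k GQ)
    (LQ : ∀ q : ↥S, Submodule k (Hq1 X ((q : Nat.Primes) : ℕ))) (q : ↥S) :
    Submodule k (Hq1 X ((q : Nat.Primes) : ℕ)) :=
  if q = ℓS then LQ q else LQ q ⊓ H1ur ((q : Nat.Primes) : ℕ) (Mq X ((q : Nat.Primes) : ℕ))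

theorem mem_Lk_iff (X : Rep.{0} k GQ) (LQ : ∀ q : ↥S, Submodule k (Hq1 X ((q : Nat.Primes) : ℕ)))
    (q : ↥S) (y : Hq1 X ((q : Nat.Primes) : ℕ)) :
    y ∈ Lk S ℓS X LQ q ↔ y ∈ LQ q ∧
      (q ≠ ℓS → y ∈ H1ur ((q : Nat.Primes) : ℕ) (Mq X ((q : Nat.Primes) : ℕ))) := by
  unfold Lk
  split_ifs with h
  · exact ⟨fun hy => ⟨hy, fun hne => absurd h hne⟩, fun hy => hy.1⟩
  · exact ⟨fun hy => ⟨hy.1, fun _ => hy.2⟩, fun hy => ⟨hy.1, hy.2 h⟩⟩

section Main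

variable (X : Rep.{0} k GQ) (LQ : ∀ q : ↥S, Submodule k (Hq1 X ((q : Nat.Primes) : ℕ)))

/-- the unramified part of `LQ q`, as a submodule of `LQ q` -/
noncomputable def Uq (q : ↥S) : Submodule k ↥(LQ q) :=
  (H1ur ((q : Nat.Primes) : ℕ) (Mq X ((q : Nat.Primes) : ℕ))).comap (LQ q).subtype

/-- the quotient `LQ q / (LQ q ⊓ H1ur)` -/
def Qt (q : ↥S) : Type := ↥(LQ q) ⧸ Uq S X LQ q

noncomputable instance instQtGroup (q : ↥S) : AddCommGroup (Qt S X LQ q) :=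
  inferInstanceAs (AddCommGroup (↥(LQ q) ⧸ Uq S X LQ q))

noncomputable instance instQtModule (q : ↥S) : Module k (Qt S X LQ q) :=
  inferInstanceAs (Module k (↥(LQ q) ⧸ Uq S X LQ q))

/-- the projection -/
noncomputable def toQt (q : ↥S) : ↥(LQ q) →ₗ[k] Qt S X LQ q := (Uq S X LQ q).mkQ

theorem toQt_eq_zero_iff (q : ↥S) (y : ↥(LQ q)) :
    toQt S X LQ q y = 0 ↔
      (y : Hq1 X ((q : Nat.Primes) : ℕ)) ∈
        H1ur ((q : Nat.Primes) : ℕ) (Mq X ((q : Nat.Primes) : ℕ)) :=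
  Submodule.Quotient.mk_eq_zero (Uq S X LQ q)

/-- restriction to `q`, landing in `LQ q` -/
noncomputable def resSel (q : ↥S) : ↥(Sel S X LQ) →ₗ[k] ↥(LQ q) :=
  ((resq1 S X ((q : Nat.Primes) : ℕ)).domRestrict (Sel S X LQ)).codRestrict (LQ q)
    (fun x => (mem_Sel_iff S X LQ x.1).1 x.2 q)

theorem coe_resSel (q : ↥S) (x : ↥(Sel S X LQ)) :
    ((resSel S X LQ q x : ↥(LQ q)) : Hq1 X ((q : Nat.Primes) : ℕ)) =
      resq1 S X ((q : Nat.Primes) : ℕ) (x : HS1 S X) := rfl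

/-- the component at `q` of the defect map -/
noncomputable def defectAt (q : ↥S) : ↥(Sel S X LQ) →ₗ[k] Qt S X LQ q :=
  toQt S X LQ q ∘ₗ resSel S X LQ q

theorem defectAt_eq_zero_iff (q : ↥S) (x : ↥(Sel S X LQ)) :
    defectAt S X LQ q x = 0 ↔
      resq1 S X ((q : Nat.Primes) : ℕ) (x : HS1 S X) ∈
        H1ur ((q : Nat.Primes) : ℕ) (Mq X ((q : Nat.Primes) : ℕ)) :=
  toQt_eq_zero_iff S X LQ q (resSel S X LQ q x)

/-- the defect map -/
noncomputable def defect : ↥(Sel S X LQ) →ₗ[k] (∀ q : {q : ↥S // q ≠ ℓS}, Qt S X LQ q.1) :=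
  LinearMap.pi fun q => defectAt S X LQ q.1

theorem mem_ker_defect (x : ↥(Sel S X LQ)) :
    x ∈ LinearMap.ker (defect S ℓS X LQ) ↔ (x : HS1 S X) ∈ Sel S X (Lk S ℓS X LQ) := by
  rw [LinearMap.mem_ker, mem_Sel_iff]
  constructor
  · intro h q
    rw [mem_Lk_iff]
    refine ⟨(mem_Sel_iff S X LQ x.1).1 x.2 q, fun hq => ?_⟩
    have h1 : defectAt S X LQ q x = 0 := congrFun h ⟨q, hq⟩
    exact (defectAt_eq_zero_iff S X LQ q x).1 h1
  · intro h
    funext q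
    have h1 := (mem_Lk_iff S ℓS X LQ q.1 _).1 (h q.1)
    exact (defectAt_eq_zero_iff S X LQ q.1 x).2 (h1.2 q.2)

/-- **Selmer group of a constituent vs. its unramified part.** -/
theorem card_sel_le [Finite ↥(Sel S X (Lk S ℓS X LQ))] (idx : ↥S → ℕ)
    (hfin : ∀ q : ↥S, q ≠ ℓS → Finite (Qt S X LQ q))
    (hidx : ∀ q : ↥S, q ≠ ℓS → Nat.card (Qt S X LQ q) ≤ idx q) :
    Finite ↥(Sel S X LQ) ∧
      Nat.card ↥(Sel S X LQ) ≤
        Nat.card ↥(Sel S X (Lk S ℓS X LQ)) * ∏ q : {q : ↥S // q ≠ ℓS}, idx q.1 := by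
  classical
  haveI : ∀ q : {q : ↥S // q ≠ ℓS}, Finite (Qt S X LQ q.1) := fun q => hfin q.1 q.2
  -- the kernel of the defect map injects into `K`
  let g : ↥(LinearMap.ker (defect S ℓS X LQ)) → ↥(Sel S X (Lk S ℓS X LQ)) := fun x =>
    ⟨(x.1 : HS1 S X), (mem_ker_defect S ℓS X LQ x.1).1 x.2⟩
  have hg : Function.Injective g := by
    intro x y h
    apply Subtype.ext
    apply Subtype.ext
    exact congrArg (fun z : ↥(Sel S X (Lk S ℓS X LQ)) => (z : HS1 S X)) h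
  haveI : Finite ↥(LinearMap.ker (defect S ℓS X LQ)) := Finite.of_injective g hg
  haveI : Finite ↥(LinearMap.range (defect S ℓS X LQ)) :=
    Finite.of_injective (fun x => (x : ∀ q : {q : ↥S // q ≠ ℓS}, Qt S X LQ q.1))
      Subtype.val_injective
  refine ⟨finite_of_ker_range (defect S ℓS X LQ), ?_⟩
  rw [card_eq_ker_mul_range (defect S ℓS X LQ)]
  refine Nat.mul_le_mul (Nat.card_le_card_of_injective g hg) ?_
  calc Nat.card ↥(LinearMap.range (defect S ℓS X LQ))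
      ≤ Nat.card (∀ q : {q : ↥S // q ≠ ℓS}, Qt S X LQ q.1) :=
        Nat.card_le_card_of_injective (fun x => (x : ∀ q : {q : ↥S // q ≠ ℓS}, Qt S X LQ q.1))
          Subtype.val_injective
    _ = ∏ q : {q : ↥S // q ≠ ℓS}, Nat.card (Qt S X LQ q.1) := Nat.card_pi
    _ ≤ ∏ q : {q : ↥S // q ≠ ℓS}, idx q.1 :=
        Finset.prod_le_prod' fun q _ => hidx q.1 q.2

end Main

end Fermat.Agent.MZ.SEL.ConstBound8
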