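/-
Programme MZ (S15, Mazur), chapter SEL (helper8): **the defect of an induced unramified condition**
(local, at a prime `q` where the condition on `M` is `H1ur`; no inertia cohomology, no model at `q`).

One step: `j : A → M` (the step `F_{i+1}` of the filtration), `ψ : A → X` (its constituent), `F ≤ M`
(the previous step `F_i`) with `j a ∈ F → ψ a = 0`.  With
  `LX := ((H1ur q M).comap (mapq1 j)).map (mapq1 ψ)`      (the condition induced on `X`),
  `Ninv q M T := {n | ∀ τ ∈ Iq q, τ n - n ∈ T}`,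
we prove   `[LX : LX ⊓ H1ur q X] ≤ [Ninv (range j) : Ninv F]`   (`card_quot_le`).
-/
import Mathlib
import Fermat.Agent.TW.LOC.Defs2
import Fermat.Agent.MZ.SEL.Induced8

set_option autoImplicit false
set_option linter.unusedSectionVars false
set_option linter.style.haveILetI false

open CategoryTheory groupCohomology
open Fermat.Agent.PT.PRO.LevelCoh28 Fermat.Agent.PT.PRO.LevelCohRes28
open Fermat.Agent.PT.GLUE.Objects21
open Fermat.Agent.TW.DEF.Basic1
open Fermat.Agent.TW.LOC.Defs2 (Iq H1ur)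
open Fermat.Agent.MZ.SEL.Induced8

namespace Fermat.Agent.MZ.SEL.Defect8

variable {k : Type} [CommRing k] (q : ℕ) [Fact q.Prime]

/-- The elements of `M` whose inertia variation lies in the submodule `T`. -/
def Ninv (M : Rep.{0} k GQ) (T : Submodule k M) : Submodule k M where
  carrier := {n | ∀ τ ∈ Iq q, M.ρ (rq q τ) n - n ∈ T}
  add_mem' := by
    intro a b ha hb τ hτ
    have : M.ρ (rq q τ) (a + b) - (a + b) = (M.ρ (rq q τ) a - a) + (M.ρ (rq q τ) b - b) := by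
      rw [map_add]; abel
    rw [this]
    exact T.add_mem (ha τ hτ) (hb τ hτ)
  zero_mem' := by
    intro τ _
    rw [map_zero, sub_zero]
    exact T.zero_mem
  smul_mem' := by
    intro c a ha τ hτ
    have : M.ρ (rq q τ) (c • a) - c • a = c • (M.ρ (rq q τ) a - a) := by
      rw [map_smul, smul_sub]
    rw [this]
    exact T.smul_mem c (ha τ hτ)

theorem mem_Ninv {M : Rep.{0} k GQ} {T : Submodule k M} {n : M} :
    n ∈ Ninv q M T ↔ ∀ τ ∈ Iq q, M.ρ (rq q τ) n - n ∈ T := Iff.rfl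

theorem Ninv_mono {M : Rep.{0} k GQ} {T T' : Submodule k M} (h : T ≤ T') :
    Ninv q M T ≤ Ninv q M T' := fun _ hn τ hτ => h (hn τ hτ)

section Step

variable {A M X : Rep.{0} k GQ} (j : A →ₗ[k] M) (hj : ∀ g a, j (A.ρ g a) = M.ρ g (j a))
  (ψ : A →ₗ[k] X) (hψ : ∀ g a, ψ (A.ρ g a) = X.ρ g (ψ a))
  (F : Submodule k M) (hF : ∀ a, j a ∈ F → ψ a = 0)

/-- The condition induced on the constituent `X` by the unramified condition on `M`. -/
noncomputable def LX : Submodule k (Hq1 X q) :=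
  ((H1ur q (Mq M q)).comap (mapq1 j hj q)).map (mapq1 ψ hψ q)

/-- `x` is the image of a cocycle `c₁` of `A` with `j ∘ c₁ = d n` on inertia. -/
def Rel (x : Hq1 X q) (n : M) : Prop :=
  ∃ c₁ : ↥(Z1 (levelLoc q) (Mq A q)),
    mapq1 ψ hψ q (H1mk (levelLoc q) (Mq A q) c₁) = x ∧
      ∀ τ ∈ Iq q, j (c₁.1 τ) = M.ρ (rq q τ) n - n

theorem exists_rel {x : Hq1 X q} (hx : x ∈ LX q j hj ψ hψ) : ∃ n, Rel q j ψ hψ x n := by
  obtain ⟨x₁, hx₁, rfl⟩ := hx
  obtain ⟨c₁, rfl⟩ := H1mk_surjective (levelLoc q) (Mq A q) x₁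
  obtain ⟨c, hc, n₀, hn₀⟩ := hx₁
  -- `j ∘ c₁ - c` is a coboundary
  have h0 : H1mk (levelLoc q) (Mq M q)
      (mapZ1 (locMap j q) (locMap_equivariant j hj q) c₁ - c) = 0 := by
    rw [map_sub, sub_eq_zero, hc]
    rfl
  rw [H1mk_eq_zero_iff] at h0
  obtain ⟨n₁, hn₁⟩ := h0
  refine ⟨n₀ + n₁, c₁, rfl, fun τ hτ => ?_⟩
  have h1 := congrFun hn₁ τ
  rw [d₀₁_hom_apply] at h1
  have h2 : ((mapZ1 (locMap j q) (locMap_equivariant j hj q) c₁ - c :
      ↥(Z1 (levelLoc q) (Mq M q))) : Gq q → Mq M q) τ = j (c₁.1 τ) - c.1 τ := rfl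
  rw [h2] at h1
  have h3 := hn₀ τ hτ
  have h4 : j (c₁.1 τ) = c.1 τ + ((Mq M q).ρ τ n₁ - n₁) := by rw [h1]; abel
  rw [h4, h3, map_add]
  show (Mq M q).ρ τ n₀ - n₀ + ((Mq M q).ρ τ n₁ - n₁) = (Mq M q).ρ τ n₀ + (Mq M q).ρ τ n₁ - (n₀ + n₁)
  abel

theorem Rel.mem_Ninv {x : Hq1 X q} {n : M} (h : Rel q j ψ hψ x n) :
    n ∈ Ninv q M (LinearMap.range j) := by
  obtain ⟨c₁, -, hc⟩ := h
  intro τ hτ
  rw [← hc τ hτ]
  exact ⟨_, rfl⟩

theorem Rel.sub {x x' : Hq1 X q} {n n' : M} (h : Rel q j ψ hψ x n) (h' : Rel q j ψ hψ x' n') :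
    Rel q j ψ hψ (x - x') (n - n') := by
  obtain ⟨c₁, rfl, hc⟩ := h
  obtain ⟨c₁', rfl, hc'⟩ := h'
  refine ⟨c₁ - c₁', by rw [map_sub, map_sub], fun τ hτ => ?_⟩
  have h1 : ((c₁ - c₁' : ↥(Z1 (levelLoc q) (Mq A q))) : Gq q → Mq A q) τ = c₁.1 τ - c₁'.1 τ := rfl
  rw [h1, map_sub, hc τ hτ, hc' τ hτ, map_sub]
  abel

include hF in
theorem Rel.mem_H1ur {x : Hq1 X q} {n : M} (h : Rel q j ψ hψ x n) (hn : n ∈ Ninv q M F) :
    x ∈ H1ur q (Mq X q) := by
  obtain ⟨c₁, rfl, hc⟩ := h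
  refine ⟨mapZ1 (locMap ψ q) (locMap_equivariant ψ hψ q) c₁, rfl, 0, fun τ hτ => ?_⟩
  rw [map_zero, sub_zero]
  show ψ (c₁.1 τ) = 0
  apply hF
  rw [hc τ hτ]
  exact hn τ hτ

include hF in
/-- An injection `LX / (LX ⊓ H1ur) ↪ Ninv (range j) / Ninv F`. -/
theorem exists_injective :
    ∃ f : (↥(LX q j hj ψ hψ) ⧸ (H1ur q (Mq X q)).comap (LX q j hj ψ hψ).subtype) →
      (↥(Ninv q M (LinearMap.range j)) ⧸
        (Ninv q M F).comap (Ninv q M (LinearMap.range j)).subtype), Function.Injective f := by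
  classical
  set LXs := LX q j hj ψ hψ with hLXs
  set U := (H1ur q (Mq X q)).comap LXs.subtype with hU
  set N' := Ninv q M (LinearMap.range j) with hN'
  set N₀ := (Ninv q M F).comap N'.subtype with hN₀
  -- choose a witness for each element of `LX`
  have hex : ∀ x : ↥LXs, ∃ n, Rel q j ψ hψ (x : Hq1 X q) n := fun x => exists_rel q j hj ψ hψ x.2
  choose w hw using hex
  let f : (↥LXs ⧸ U) → (↥N' ⧸ N₀) := fun y =>
    Submodule.Quotient.mk ⟨w y.out, (hw y.out).mem_Ninv q j ψ hψ⟩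
  refine ⟨f, ?_⟩
  intro y y' hyy'
  have h1 : (⟨w y.out, (hw y.out).mem_Ninv q j ψ hψ⟩ : ↥N') -
      ⟨w y'.out, (hw y'.out).mem_Ninv q j ψ hψ⟩ ∈ N₀ :=
    (Submodule.Quotient.eq N₀).1 hyy'
  have h2 : w y.out - w y'.out ∈ Ninv q M F := h1
  have h3 := ((hw y.out).sub q j ψ hψ (hw y'.out)).mem_H1ur q j ψ hψ F hF h2
  have h4 : y.out - y'.out ∈ U := h3
  have h5 : (Submodule.Quotient.mk y.out : ↥LXs ⧸ U) = Submodule.Quotient.mk y'.out :=
    (Submodule.Quotient.eq U).2 h4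
  have e1 : (Submodule.Quotient.mk y.out : ↥LXs ⧸ U) = y := Quotient.out_eq' y
  have e2 : (Submodule.Quotient.mk y'.out : ↥LXs ⧸ U) = y' := Quotient.out_eq' y'
  rw [← e1, ← e2, h5]

include hF in
theorem finite_quot [Finite M] :
    Finite (↥(LX q j hj ψ hψ) ⧸ (H1ur q (Mq X q)).comap (LX q j hj ψ hψ).subtype) := by
  obtain ⟨f, hf⟩ := exists_injective q j hj ψ hψ F hF
  haveI : Finite (↥(Ninv q M (LinearMap.range j)) ⧸
      (Ninv q M F).comap (Ninv q M (LinearMap.range j)).subtype) := Quotient.finite _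
  exact Finite.of_injective f hf

include hF in
/-- **The defect bound**: `[LX : LX ⊓ H1ur] ≤ [Ninv (range j) : Ninv F]`. -/
theorem card_quot_le [Finite M] :
    Nat.card (↥(LX q j hj ψ hψ) ⧸ (H1ur q (Mq X q)).comap (LX q j hj ψ hψ).subtype) ≤
      Nat.card (↥(Ninv q M (LinearMap.range j)) ⧸
        (Ninv q M F).comap (Ninv q M (LinearMap.range j)).subtype) := by
  obtain ⟨f, hf⟩ := exists_injective q j hj ψ hψ F hF
  haveI : Finite (↥(Ninv q M (LinearMap.range j)) ⧸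
      (Ninv q M F).comap (Ninv q M (LinearMap.range j)).subtype) := Quotient.finite _
  exact Nat.card_le_card_of_injective f hf

end Step

end Fermat.Agent.MZ.SEL.Defect8
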