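/-
Programme MZ (S15, Mazur), chapter SEL (helper8): **the Selmer bound** (assembly of `Chain8`,
`Defect8`, `ConstBound8`).

`M` a finite `GQ`-module, `D : ChainData S M m` a chain with constituents `X i`, local conditions `L`
with `L q = H1ur` for `q ≠ ℓS`.  With
  `K i := Sel S (X i) (Lk S ℓS (X i) (Lquot D L i))`
(classes of the constituent which are unramified at all `q ≠ ℓS` and satisfy the induced condition at
`ℓS`) and "gains" `t i` with `#K i * t i ≤ #(X i)^GQ`: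

  `#Sel(M, L) * (∏_{i<m} t i) * ∏_{q ≠ ℓS} #M^{I_q} ≤ (#M)^{#(S∖ℓS)} * #M^GQ`   (`card_sel_le`).

(`t i = #X i` for an étale constituent by `EtaleConst8`, `t i = 1` for a multiplicative one.)
-/
import Mathlib
import Fermat.Agent.MZ.SEL.Chain8
import Fermat.Agent.MZ.SEL.Defect8
import Fermat.Agent.MZ.SEL.ConstBound8

set_option autoImplicit false
set_option linter.unusedSectionVars false
set_option linter.style.haveILetI false

open Fermat.Agent.PT.PRO.LevelCoh28 Fermat.Agent.PT.PRO.LevelCohRes28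
open Fermat.Agent.PT.GLUE.Objects21
open Fermat.Agent.TW.DEF.Basic1
open Fermat.Agent.TW.LOC.Defs2 (Iq H1ur)
open Fermat.Agent.MZ.SEL.Induced8 Fermat.Agent.MZ.SEL.Chain8 Fermat.Agent.MZ.SEL.Defect8
open Fermat.Agent.MZ.SEL.ConstBound8

namespace Fermat.Agent.MZ.SEL.SelBound8

variable {k : Type} [CommRing k]

/-- Lagrange for nested submodules. -/
theorem card_eq_mul_card_quot {V : Type*} [AddCommGroup V] [Module k V] {A B : Submodule k V}
    (h : A ≤ B) : Nat.card ↥B = Nat.card ↥A * Nat.card (↥B ⧸ A.comap B.subtype) := by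
  rw [Submodule.card_eq_card_quotient_mul_card (A.comap B.subtype)]
  congr 1
  exact Nat.card_congr (Submodule.comapSubtypeEquivOfLe h).toEquiv

variable {S : Finset Nat.Primes} (ℓS : ↥S) {M : Rep.{0} k GQ} {m : ℕ} (D : ChainData S M m)
  (L : ∀ q : ↥S, Submodule k (Hq1 M ((q : Nat.Primes) : ℕ)))

/-- `N i q`: the elements of `M` whose inertia variation at `q` lies in the `i`-th step. -/
noncomputable def Nq (i : ℕ) (q : ↥S) : Submodule k M :=
  Ninv ((q : Nat.Primes) : ℕ) M (LinearMap.range (D.j i))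

/-- the index `[N (i+1) q : N i q]` -/
noncomputable def idx (i : ℕ) (q : ↥S) : ℕ :=
  Nat.card (↥(Nq D (i + 1) q) ⧸ (Nq D i q).comap (Nq D (i + 1) q).subtype)

theorem range_j_le {i : ℕ} (hi : i < m) :
    LinearMap.range (D.j i) ≤ LinearMap.range (D.j (i + 1)) := by
  rintro _ ⟨a, rfl⟩
  exact ⟨D.φ i a, D.comp i hi a⟩

theorem Nq_le {i : ℕ} (hi : i < m) (q : ↥S) : Nq D i q ≤ Nq D (i + 1) q :=
  Ninv_mono _ (range_j_le D hi)

theorem card_Nq_succ {i : ℕ} (hi : i < m) (q : ↥S) :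
    Nat.card ↥(Nq D (i + 1) q) = Nat.card ↥(Nq D i q) * idx D i q :=
  card_eq_mul_card_quot (Nq_le D hi q)

/-- telescoping product of the indices -/
theorem prod_idx (q : ↥S) :
    ∀ i, i ≤ m → Nat.card ↥(Nq D 0 q) * ∏ t ∈ Finset.range i, idx D t q = Nat.card ↥(Nq D i q) := by
  intro i
  induction i with
  | zero => intro _; rw [Finset.prod_range_zero, mul_one]
  | succ i ih =>
    intro hi
    rw [Finset.prod_range_succ, ← mul_assoc, ih (Nat.le_of_succ_le hi), card_Nq_succ D hi q]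

theorem Nq_top (q : ↥S) : Nq D m q = ⊤ := by
  rw [eq_top_iff]
  intro n _ τ _
  exact LinearMap.range_eq_top.mpr D.top ▸ Submodule.mem_top

theorem Nq_zero (q : ↥S) : Nq D 0 q = Ninv ((q : Nat.Primes) : ℕ) M ⊥ := by
  haveI := D.bot
  have h : LinearMap.range (D.j 0) = ⊥ := by
    rw [eq_bot_iff]
    rintro _ ⟨a, rfl⟩
    rw [Subsingleton.elim a 0, map_zero]
    exact Submodule.zero_mem _
  rw [Nq, h]

theorem prod_idx_top (q : ↥S) :
    Nat.card ↥(Ninv ((q : Nat.Primes) : ℕ) M (⊥ : Submodule k M)) *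
      ∏ t ∈ Finset.range m, idx D t q = Nat.card M := by
  have h := prod_idx D q m le_rfl
  rw [Nq_top, Nq_zero] at h
  rw [h]
  exact Nat.card_congr (Submodule.topEquiv (R := k) (M := M)).toEquiv

/-- the hypothesis of `Defect8` for consecutive steps -/
theorem psi_eq_zero_of_mem {i : ℕ} (hi : i < m) (a : D.G (i + 1))
    (ha : D.j (i + 1) a ∈ LinearMap.range (D.j i)) : D.ψ i a = 0 := by
  obtain ⟨g, hg⟩ := ha
  have h1 : D.j (i + 1) (D.φ i g) = D.j (i + 1) a := by rw [D.comp i hi, hg]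
  have h2 := D.j_inj (i + 1) h1
  exact (D.exact i hi a).2 ⟨g, h2⟩

/-- the defect bound for the constituent `X i` at `q ≠ ℓS` -/
theorem defect_bound [Finite M] (hL : ∀ q : ↥S, q ≠ ℓS →
      L q = H1ur ((q : Nat.Primes) : ℕ) (Mq M ((q : Nat.Primes) : ℕ)))
    {i : ℕ} (hi : i < m) (q : ↥S) (hq : q ≠ ℓS) :
    Finite (Qt S (D.X i) (Lquot D L i) q) ∧
      Nat.card (Qt S (D.X i) (Lquot D L i) q) ≤ idx D i q := by
  have key : ∀ Lq : Submodule k (Hq1 M ((q : Nat.Primes) : ℕ)),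
      Lq = H1ur ((q : Nat.Primes) : ℕ) (Mq M ((q : Nat.Primes) : ℕ)) →
      Finite (↥((Lq.comap (mapq1 (D.j (i + 1)) (D.hj (i + 1)) ((q : Nat.Primes) : ℕ))).map
          (mapq1 (D.ψ i) (D.hψ i) ((q : Nat.Primes) : ℕ))) ⧸
        (H1ur ((q : Nat.Primes) : ℕ) (Mq (D.X i) ((q : Nat.Primes) : ℕ))).comap
          ((Lq.comap (mapq1 (D.j (i + 1)) (D.hj (i + 1)) ((q : Nat.Primes) : ℕ))).map
            (mapq1 (D.ψ i) (D.hψ i) ((q : Nat.Primes) : ℕ))).subtype) ∧
      Nat.card (↥((Lq.comap (mapq1 (D.j (i + 1)) (D.hj (i + 1)) ((q : Nat.Primes) : ℕ))).map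
          (mapq1 (D.ψ i) (D.hψ i) ((q : Nat.Primes) : ℕ))) ⧸
        (H1ur ((q : Nat.Primes) : ℕ) (Mq (D.X i) ((q : Nat.Primes) : ℕ))).comap
          ((Lq.comap (mapq1 (D.j (i + 1)) (D.hj (i + 1)) ((q : Nat.Primes) : ℕ))).map
            (mapq1 (D.ψ i) (D.hψ i) ((q : Nat.Primes) : ℕ))).subtype) ≤ idx D i q := by
    intro Lq hLq
    subst hLq
    exact ⟨finite_quot ((q : Nat.Primes) : ℕ) (D.j (i + 1)) (D.hj (i + 1)) (D.ψ i) (D.hψ i)
        (LinearMap.range (D.j i)) (psi_eq_zero_of_mem D hi),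
      card_quot_le ((q : Nat.Primes) : ℕ) (D.j (i + 1)) (D.hj (i + 1)) (D.ψ i) (D.hψ i)
        (LinearMap.range (D.j i)) (psi_eq_zero_of_mem D hi)⟩
  exact key (L q) (hL q hq)

/-- The group `K i`. -/
noncomputable def K (i : ℕ) : Submodule k (HS1 S (D.X i)) :=
  Sel S (D.X i) (Lk S ℓS (D.X i) (Lquot D L i))

theorem finite_X [Finite M] {i : ℕ} (hi : i < m) : Finite (D.X i) := by
  haveI := finite_G D (i + 1)
  exact Finite.of_surjective (D.ψ i) (D.ψ_surj i hi)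

/-- **The Selmer bound.** -/
theorem card_sel_le [Finite M] (hL : ∀ q : ↥S, q ≠ ℓS →
      L q = H1ur ((q : Nat.Primes) : ℕ) (Mq M ((q : Nat.Primes) : ℕ)))
    (t : ℕ → ℕ)
    (hK : ∀ i, i < m → Finite ↥(K ℓS D L i) ∧
      Nat.card ↥(K ℓS D L i) * t i ≤ Nat.card ↥(D.X i).ρ.invariants) :
    Finite ↥(Sel S M L) ∧
      Nat.card ↥(Sel S M L) * (∏ i ∈ Finset.range m, t i) *
          ∏ q : {q : ↥S // q ≠ ℓS},
            Nat.card ↥(Ninv ((q.1 : Nat.Primes) : ℕ) M (⊥ : Submodule k M)) ≤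
        Nat.card M ^ Fintype.card {q : ↥S // q ≠ ℓS} * Nat.card ↥M.ρ.invariants := by
  classical
  -- constituents
  have hconst : ∀ i, i < m → Finite ↥(Sel S (D.X i) (Lquot D L i)) ∧
      Nat.card ↥(Sel S (D.X i) (Lquot D L i)) ≤
        Nat.card ↥(K ℓS D L i) * ∏ q : {q : ↥S // q ≠ ℓS}, idx D i q.1 := by
    intro i hi
    haveI : Finite ↥(Sel S (D.X i) (Lk S ℓS (D.X i) (Lquot D L i))) := (hK i hi).1
    exact ConstBound8.card_sel_le S ℓS (D.X i) (Lquot D L i) (fun q => idx D i q)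
      (fun q hq => (defect_bound ℓS D L hL hi q hq).1)
      (fun q hq => (defect_bound ℓS D L hL hi q hq).2)
  obtain ⟨hfin, hchain⟩ := card_sel_chain D L (fun i hi => (hconst i hi).1)
  refine ⟨hfin, ?_⟩
  -- abbreviations
  set sM := Nat.card ↥(Sel S M L)
  set hM := Nat.card ↥M.ρ.invariants
  set PX := ∏ i ∈ Finset.range m, Nat.card ↥(D.X i).ρ.invariants
  set PS := ∏ i ∈ Finset.range m, Nat.card ↥(Sel S (D.X i) (Lquot D L i))
  set PT := ∏ i ∈ Finset.range m, t i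
  set PI := ∏ q : {q : ↥S // q ≠ ℓS},
    Nat.card ↥(Ninv ((q.1 : Nat.Primes) : ℕ) M (⊥ : Submodule k M))
  have hchain' : sM * PX ≤ PS * hM := hchain
  -- `PS ≤ (∏ K) * ∏_q ∏_i idx`
  have h1 : PS ≤ (∏ i ∈ Finset.range m, Nat.card ↥(K ℓS D L i)) *
      ∏ q : {q : ↥S // q ≠ ℓS}, ∏ i ∈ Finset.range m, idx D i q.1 := by
    rw [Finset.prod_comm, ← Finset.prod_mul_distrib]
    exact Finset.prod_le_prod' fun i hi => (hconst i (Finset.mem_range.mp hi)).2
  -- `(∏ K) * PT ≤ PX`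
  have h2 : (∏ i ∈ Finset.range m, Nat.card ↥(K ℓS D L i)) * PT ≤ PX := by
    rw [← Finset.prod_mul_distrib]
    exact Finset.prod_le_prod' fun i hi => (hK i (Finset.mem_range.mp hi)).2
  -- `PI * ∏_q ∏_i idx = (#M)^#S'`
  have h3 : PI * ∏ q : {q : ↥S // q ≠ ℓS}, ∏ i ∈ Finset.range m, idx D i q.1 =
      Nat.card M ^ Fintype.card {q : ↥S // q ≠ ℓS} := by
    rw [← Finset.prod_mul_distrib]
    rw [Finset.prod_congr rfl (fun q _ => prod_idx_top D q.1)]
    rw [Finset.prod_const, Finset.card_univ]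
  -- positivity of `PX`
  have hPX : 0 < PX := by
    refine Finset.prod_pos fun i hi => ?_
    haveI := finite_X D (Finset.mem_range.mp hi)
    exact card_invariants_pos _
  set PK := ∏ i ∈ Finset.range m, Nat.card ↥(K ℓS D L i)
  set PD := ∏ q : {q : ↥S // q ≠ ℓS}, ∏ i ∈ Finset.range m, idx D i q.1
  have h4 : PX * (sM * PT * PI) ≤ PX * (Nat.card M ^ Fintype.card {q : ↥S // q ≠ ℓS} * hM) := by
    calc PX * (sM * PT * PI) = (sM * PX) * (PT * PI) := by ring
      _ ≤ (PS * hM) * (PT * PI) := Nat.mul_le_mul_right _ hchain'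
      _ ≤ ((PK * PD) * hM) * (PT * PI) :=
          Nat.mul_le_mul_right _ (Nat.mul_le_mul_right _ h1)
      _ = (PK * PT) * ((PI * PD) * hM) := by ring
      _ ≤ PX * ((PI * PD) * hM) := Nat.mul_le_mul_right _ h2
      _ = PX * (Nat.card M ^ Fintype.card {q : ↥S // q ≠ ℓS} * hM) := by rw [h3]
  exact Nat.le_of_mul_le_mul_left h4 hPX

end Fermat.Agent.MZ.SEL.SelBound8
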