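/-
Programme MZ (S15, Mazur), chapter SEL (helper8): **the dual chain** (F3, item 3 of the duality
trick D5), against an ABSTRACT perfect pairing.

`M M' : Rep ℤ GQ`, `P : PerfPair M M'` a perfect Galois-equivariant pairing `M' × M → ℚ̄ˣ`
(`M' = M^*`; for `M' = dualRep M` take `pair f x := toMul (f x)`).

* `P.annih A`, `P.annihAdd A` : annihilators; `annih_anti`, `annih_bot`, `annih_top`,
  `annih_stable`; **`card_annih : #A^⊥ * #A = #M`** (Mathlib's duality of finite abelian groups);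
  `P.card_eq : #M' = #M`, `P.finite'`;
* **`dualChain P C : SubChain M' m`**, `F' j = (C.F (m - j))^⊥`; for `i + j + 1 = m`:
  (a) `card_dual_X : #(dual step j) = #(step i)`,
  (b) `dual_trivial_of_cyc` : cyclotomic step ⇒ trivial dual step,
  (c) `dual_cyc_of_trivial` : trivial step ⇒ cyclotomic dual step;
* `card_B0_mul_card_annih : #B0 * #B0^⊥ = #M`; `annih_cyc` (trivial action on `M/B0` ⇒ cyclotomic action
  on `B0^⊥`), `annih_et` (cyclotomic action on `B0` ⇒ trivial action on `M'/B0^⊥`).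
-/
import Mathlib
import Fermat.Agent.MZ.SEL.ChainOfSub8
import Fermat.Agent.MZ.SEL.SelBound8

set_option autoImplicit false
set_option linter.unusedSectionVars false
set_option linter.style.haveILetI false

open Fermat.Agent.PT.PRO.LevelCoh28 Fermat.Agent.PT.PRO.LevelCohRes28
open Fermat.Agent.PT.GLUE.Objects21
open Fermat.Agent.TW.DEF.Basic1
open Fermat.Agent.MZ.SEL.ChainOfSub8

attribute [-instance] AddCommGroup.toIntModule

namespace Fermat.Agent.MZ.SEL.DualChain8

local notation "Qbar" => AlgebraicClosure ℚ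

/-- A perfect Galois-equivariant pairing `M' × M → ℚ̄ˣ` (so `M' ≅ M^*`, the Cartier dual). -/
structure PerfPair (M M' : Rep.{0} ℤ GQ) where
  /-- the pairing -/
  pair : M' → M → Qbarˣ
  add_left : ∀ f g x, pair (f + g) x = pair f x * pair g x
  add_right : ∀ f x y, pair f (x + y) = pair f x * pair f y
  inj : ∀ f g, (∀ x, pair f x = pair g x) → f = g
  surj : ∀ χ : Multiplicative M →* Qbarˣ, ∃ f, ∀ x, pair f x = χ (Multiplicative.ofAdd x)
  act : ∀ (σ : GQ) f x,
    ((pair (M'.ρ σ f) (M.ρ σ x) : Qbarˣ) : Qbar) = σ ((pair f x : Qbarˣ) : Qbar)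

variable {M M' : Rep.{0} ℤ GQ} (P : PerfPair M M')

namespace PerfPair

theorem zero_left (x : M) : P.pair 0 x = 1 := by
  have h := P.add_left 0 0 x
  rw [add_zero] at h
  exact (mul_eq_left (a := P.pair 0 x)).mp h.symm

theorem zero_right (f : M') : P.pair f 0 = 1 := by
  have h := P.add_right f 0 0
  rw [add_zero] at h
  exact (mul_eq_left (a := P.pair f 0)).mp h.symm

theorem neg_left (f : M') (x : M) : P.pair (-f) x = (P.pair f x)⁻¹ := by
  have h := P.add_left (-f) f x
  rw [neg_add_cancel, P.zero_left] at h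
  exact eq_inv_of_mul_eq_one_left h.symm

theorem neg_right (f : M') (x : M) : P.pair f (-x) = (P.pair f x)⁻¹ := by
  have h := P.add_right f (-x) x
  rw [neg_add_cancel, P.zero_right] at h
  exact eq_inv_of_mul_eq_one_left h.symm

theorem sub_left (f g : M') (x : M) : P.pair (f - g) x = P.pair f x / P.pair g x := by
  rw [sub_eq_add_neg, P.add_left, P.neg_left, div_eq_mul_inv]

theorem sub_right (f : M') (x y : M) : P.pair f (x - y) = P.pair f x / P.pair f y := by
  rw [sub_eq_add_neg, P.add_right, P.neg_right, div_eq_mul_inv]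

theorem nsmul_left (k : ℕ) (f : M') (x : M) : P.pair (k • f) x = P.pair f x ^ k := by
  induction k with
  | zero => rw [zero_nsmul, pow_zero, P.zero_left]
  | succ k ih => rw [succ_nsmul, P.add_left, ih, pow_succ]

theorem nsmul_right (k : ℕ) (f : M') (x : M) : P.pair f (k • x) = P.pair f x ^ k := by
  induction k with
  | zero => rw [zero_nsmul, pow_zero, P.zero_right]
  | succ k ih => rw [succ_nsmul, P.add_right, ih, pow_succ]

/-- the action on `M'` in terms of the pairing. -/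
theorem act' (σ : GQ) (f : M') (x : M) :
    ((P.pair (M'.ρ σ f) x : Qbarˣ) : Qbar) = σ ((P.pair f (M.ρ σ⁻¹ x) : Qbarˣ) : Qbar) := by
  rw [← P.act σ f (M.ρ σ⁻¹ x), ← Module.End.mul_apply, ← map_mul, mul_inv_cancel, map_one,
    Module.End.one_apply]

/-- the character of `M` attached to `f : M'`. -/
def toChar (f : M') : Multiplicative M →* Qbarˣ where
  toFun x := P.pair f (Multiplicative.toAdd x)
  map_one' := P.zero_right f
  map_mul' x y := P.add_right f _ _

/-- `M' ≃ Hom(M, ℚ̄ˣ)`. -/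
noncomputable def charEquiv : M' ≃ (Multiplicative M →* Qbarˣ) :=
  Equiv.ofBijective P.toChar
    ⟨fun f g h => P.inj f g fun x => DFunLike.congr_fun h (Multiplicative.ofAdd x),
      fun χ => by
        obtain ⟨f, hf⟩ := P.surj χ
        exact ⟨f, MonoidHom.ext fun x => hf (Multiplicative.toAdd x)⟩⟩

/-! ### annihilators -/

/-- the annihilator of a subgroup, as an additive subgroup of `M'`. -/
def annihAdd (A : AddSubgroup M) : AddSubgroup M' where
  carrier := {f | ∀ x ∈ A, P.pair f x = 1}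
  add_mem' := by
    intro f g hf hg x hx
    rw [P.add_left, hf x hx, hg x hx, one_mul]
  zero_mem' := fun x _ => P.zero_left x
  neg_mem' := by
    intro f hf x hx
    rw [P.neg_left, hf x hx, inv_one]

theorem mem_annihAdd {A : AddSubgroup M} {f : M'} :
    f ∈ P.annihAdd A ↔ ∀ x ∈ A, P.pair f x = 1 := Iff.rfl

/-- the annihilator of a submodule, as a submodule of `M'`. -/
def annih (A : Submodule ℤ M) : Submodule ℤ M' where
  carrier := P.annihAdd A.toAddSubgroup
  add_mem' := (P.annihAdd A.toAddSubgroup).add_mem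
  zero_mem' := (P.annihAdd A.toAddSubgroup).zero_mem
  smul_mem' := by
    intro n f hf
    have h := (P.annihAdd A.toAddSubgroup).zsmul_mem hf n
    rwa [← int_smul_eq_zsmul M'.hV2] at h

theorem mem_annih {A : Submodule ℤ M} {f : M'} :
    f ∈ P.annih A ↔ ∀ x ∈ A, P.pair f x = 1 := Iff.rfl

theorem annih_anti {A B : Submodule ℤ M} (h : A ≤ B) : P.annih B ≤ P.annih A :=
  fun _ hf x hx => hf x (h hx)

theorem annih_bot : P.annih (⊥ : Submodule ℤ M) = ⊤ := by
  rw [eq_top_iff]
  intro f _ x hx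
  rw [(Submodule.mem_bot ℤ).1 hx, P.zero_right]

theorem annih_top : P.annih (⊤ : Submodule ℤ M) = ⊥ := by
  rw [eq_bot_iff]
  intro f hf
  rw [Submodule.mem_bot]
  refine P.inj f 0 fun x => ?_
  rw [hf x (Submodule.mem_top (R := ℤ)), P.zero_left]

/-- annihilators of stable submodules are stable. -/
theorem annih_stable {A : Submodule ℤ M} (hA : ∀ g, A ≤ A.comap (M.ρ g)) (g : GQ) :
    P.annih A ≤ (P.annih A).comap (M'.ρ g) := by
  intro f hf x hx
  apply Units.ext
  rw [P.act' g f x, hf _ (hA g⁻¹ hx), Units.val_one, map_one]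

/-- **the order of the annihilator**: `#A^⊥ * #A = #M`. -/
theorem card_annihAdd [Finite M] (A : AddSubgroup M) :
    Nat.card ↥(P.annihAdd A) * Nat.card ↥A = Nat.card M := by
  have : NeZero ((Monoid.exponent (Multiplicative M) : ℕ) : ℚ) :=
    ⟨by exact_mod_cast Monoid.exponent_ne_zero_of_finite⟩
  let H : Subgroup (Multiplicative M) := AddSubgroup.toSubgroup A
  have h1 : Nat.card ↥(P.annihAdd A) =
      Nat.card ↥(MonoidHom.domRestrictHom H Qbarˣ).ker := by
    refine Nat.card_congr (P.charEquiv.subtypeEquiv fun f => ?_)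
    rw [MonoidHom.mem_ker]
    constructor
    · intro hf
      refine MonoidHom.ext fun x => ?_
      exact hf _ x.2
    · intro hf x hx
      exact DFunLike.congr_fun hf (⟨Multiplicative.ofAdd x, hx⟩ : ↥H)
  have h2 : Nat.card ↥H = Nat.card ↥A := rfl
  have h3 : Nat.card (Multiplicative M) = Nat.card M := rfl
  rw [h1, CommGroup.card_domRestrictHom_ker, ← h2, ← h3,
    H.card_eq_card_quotient_mul_card_subgroup]

theorem card_annih [Finite M] (A : Submodule ℤ M) :
    Nat.card ↥(P.annih A) * Nat.card ↥A = Nat.card M :=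
  P.card_annihAdd A.toAddSubgroup

include P in
/-- `M'` is finite, of the same order as `M`. -/
theorem card_eq [Finite M] : Nat.card M' = Nat.card M := by
  have h := P.card_annih (⊥ : Submodule ℤ M)
  rw [P.annih_bot] at h
  have h1 : Nat.card ↥(⊥ : Submodule ℤ M) = 1 :=
    Nat.card_eq_one_iff_unique.mpr ⟨inferInstance, ⟨0⟩⟩
  rw [h1, mul_one] at h
  rw [← h]
  exact (Nat.card_congr (Submodule.topEquiv (R := ℤ) (M := M')).toEquiv).symm

include P in
theorem finite' [Finite M] : Finite M' := by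
  have h : 0 < Nat.card M' := by rw [P.card_eq]; exact Nat.card_pos
  exact (Nat.card_pos_iff.mp h).2

end PerfPair

/-! ### the dual chain -/

section DualChain

variable {m : ℕ} (C : SubChain M m)

/-- **the dual chain**: `F' j = (F (m - j))^⊥`. -/
def dualChain : SubChain M' m where
  F j := P.annih (C.F (m - j))
  stable j g := P.annih_stable (C.stable (m - j)) g
  mono j := by
    apply P.annih_anti
    by_cases hj : j < m
    · have : m - j = (m - (j + 1)) + 1 := by omega
      rw [this]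
      exact C.mono _
    · have h1 : m - j = 0 := by omega
      have h2 : m - (j + 1) = 0 := by omega
      rw [h1, h2]
  bot := by
    show P.annih (C.F (m - 0)) = ⊥
    rw [Nat.sub_zero, C.top, P.annih_top]
  top := by
    show P.annih (C.F (m - m)) = ⊤
    rw [Nat.sub_self, C.bot, P.annih_bot]

theorem dualChain_F (j : ℕ) : (dualChain P C).F j = P.annih (C.F (m - j)) := rfl

/-- indices: step `j` of the dual chain is dual to step `i = m - 1 - j` of `C`. -/
theorem dualChain_F_succ {i j : ℕ} (hij : i + j + 1 = m) :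
    (dualChain P C).F (j + 1) = P.annih (C.F i) ∧ (dualChain P C).F j = P.annih (C.F (i + 1)) := by
  constructor
  · rw [dualChain_F]
    congr 2
    omega
  · rw [dualChain_F]
    congr 2
    omega

/-- **(a)** dual steps have the same order. -/
theorem card_dual_X [Finite M] {i j : ℕ} (hij : i + j + 1 = m) :
    Nat.card ((dualChain P C).X j) = Nat.card (C.X i) := by
  haveI := P.finite'
  obtain ⟨h1, h2⟩ := dualChain_F_succ P C hij
  -- Lagrange on both sides
  have e1 : Nat.card ↥((dualChain P C).F (j + 1)) =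
      Nat.card ↥((dualChain P C).F j) * Nat.card ((dualChain P C).X j) :=
    Fermat.Agent.MZ.SEL.SelBound8.card_eq_mul_card_quot ((dualChain P C).mono j)
  have e2 : Nat.card ↥(C.F (i + 1)) = Nat.card ↥(C.F i) * Nat.card (C.X i) :=
    Fermat.Agent.MZ.SEL.SelBound8.card_eq_mul_card_quot (C.mono i)
  have a1 := P.card_annih (C.F i)
  have a2 := P.card_annih (C.F (i + 1))
  rw [← h1] at a1
  rw [← h2] at a2
  -- `#F'(j) * #X'_j * #F i = #M = #F'(j) * #F i * #X_i`
  have hpos1 : 0 < Nat.card ↥((dualChain P C).F j) := Nat.card_pos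
  have hpos2 : 0 < Nat.card ↥(C.F i) := Nat.card_pos
  have key : (Nat.card ↥((dualChain P C).F j) * Nat.card ↥(C.F i)) *
      Nat.card ((dualChain P C).X j) =
      (Nat.card ↥((dualChain P C).F j) * Nat.card ↥(C.F i)) * Nat.card (C.X i) := by
    calc (Nat.card ↥((dualChain P C).F j) * Nat.card ↥(C.F i)) * Nat.card ((dualChain P C).X j)
        = Nat.card ↥((dualChain P C).F (j + 1)) * Nat.card ↥(C.F i) := by rw [e1]; ring
      _ = Nat.card M := a1
      _ = Nat.card ↥((dualChain P C).F j) * Nat.card ↥(C.F (i + 1)) := a2.symm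
      _ = (Nat.card ↥((dualChain P C).F j) * Nat.card ↥(C.F i)) * Nat.card (C.X i) := by
          rw [e2]; ring
  exact Nat.eq_of_mul_eq_mul_left (Nat.mul_pos hpos1 hpos2) key

/-- values of the pairing on a step killed by `k` are `k`-th roots of unity. -/
theorem pair_pow_eq_one {i : ℕ} (k : ℕ) (hk : ∀ v ∈ C.F (i + 1), k • v ∈ C.F i)
    {f : M'} (hf : f ∈ P.annih (C.F i)) {y : M} (hy : y ∈ C.F (i + 1)) :
    ((P.pair f y : Qbarˣ) : Qbar) ^ k = 1 := by
  rw [← Units.val_pow_eq_pow_val, ← P.nsmul_right, hf _ (hk y hy), Units.val_one]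

/-- **(b)** a cyclotomic step of `C` gives a trivial step of the dual chain. -/
theorem dual_trivial_of_cyc {i j : ℕ} (hij : i + j + 1 = m) (c : GQ → ℕ) (k : ℕ)
    (hc : ∀ (g : GQ) (ζ : Qbar), ζ ^ k = 1 → g ζ = ζ ^ c g)
    (hk : ∀ v ∈ C.F (i + 1), k • v ∈ C.F i)
    (h : ∀ g : GQ, ∀ v ∈ C.F (i + 1), M.ρ g v - c g • v ∈ C.F i) :
    ∀ g : GQ, ∀ f ∈ (dualChain P C).F (j + 1), M'.ρ g f - f ∈ (dualChain P C).F j := by
  obtain ⟨h1, h2⟩ := dualChain_F_succ P C hij
  intro g f hf
  rw [h1] at hf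
  rw [h2]
  intro x hx
  rw [P.sub_left, div_eq_one]
  apply Units.ext
  have hy : M.ρ g⁻¹ x ∈ C.F (i + 1) := C.stable (i + 1) g⁻¹ hx
  have hgy : M.ρ g (M.ρ g⁻¹ x) = x := by
    rw [← Module.End.mul_apply, ← map_mul, mul_inv_cancel, map_one, Module.End.one_apply]
  rw [P.act' g f x, hc g _ (pair_pow_eq_one P C k hk hf hy), ← Units.val_pow_eq_pow_val,
    ← P.nsmul_right]
  congr 1
  have h3 := hf _ (h g _ hy)
  rw [P.sub_right, div_eq_one, hgy] at h3
  exact h3.symm

/-- **(c)** a trivial step of `C` gives a cyclotomic step of the dual chain. -/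
theorem dual_cyc_of_trivial {i j : ℕ} (hij : i + j + 1 = m) (c : GQ → ℕ) (k : ℕ)
    (hc : ∀ (g : GQ) (ζ : Qbar), ζ ^ k = 1 → g ζ = ζ ^ c g)
    (hk : ∀ v ∈ C.F (i + 1), k • v ∈ C.F i)
    (h : ∀ g : GQ, ∀ v ∈ C.F (i + 1), M.ρ g v - v ∈ C.F i) :
    ∀ g : GQ, ∀ f ∈ (dualChain P C).F (j + 1),
      M'.ρ g f - c g • f ∈ (dualChain P C).F j := by
  obtain ⟨h1, h2⟩ := dualChain_F_succ P C hij
  intro g f hf
  rw [h1] at hf
  rw [h2]
  intro x hx
  rw [P.sub_left, div_eq_one]
  apply Units.ext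
  have hy : M.ρ g⁻¹ x ∈ C.F (i + 1) := C.stable (i + 1) g⁻¹ hx
  rw [P.act' g f x, hc g _ (pair_pow_eq_one P C k hk hf hy), ← Units.val_pow_eq_pow_val,
    P.nsmul_left]
  congr 2
  have h3 := hf _ (h g⁻¹ x hx)
  rw [P.sub_right, div_eq_one] at h3
  exact h3

end DualChain

/-! ### the dual of the multiplicative part -/

section DualB0

variable [Finite M] (B0 : AddSubgroup M)

/-- `#B0 * #B0^⊥ = #M`. -/
theorem card_B0_mul_card_annih : Nat.card ↥B0 * Nat.card ↥(P.annihAdd B0) = Nat.card M := by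
  rw [mul_comm]
  exact P.card_annihAdd B0

/-- if the elements of `T` act trivially on `M / B0`, they act on `B0^⊥` through the cyclotomic
exponent `c` (`n` kills `M`). -/
theorem annih_cyc (T : Set GQ) (hT : ∀ τ ∈ T, τ⁻¹ ∈ T) (c : GQ → ℕ) (n : ℕ)
    (hn : ∀ x : M, n • x = 0) (hc : ∀ (g : GQ) (ζ : Qbar), ζ ^ n = 1 → g ζ = ζ ^ c g)
    (het : ∀ τ ∈ T, ∀ b : M, M.ρ τ b - b ∈ B0) (τ : GQ) (hτ : τ ∈ T) (f : M')
    (hf : f ∈ P.annihAdd B0) : M'.ρ τ f = c τ • f := by
  refine P.inj _ _ fun x => ?_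
  apply Units.ext
  have hpow : ((P.pair f (M.ρ τ⁻¹ x) : Qbarˣ) : Qbar) ^ n = 1 := by
    rw [← Units.val_pow_eq_pow_val, ← P.nsmul_right, hn, P.zero_right, Units.val_one]
  rw [P.act' τ f x, hc τ _ hpow, ← Units.val_pow_eq_pow_val, P.nsmul_left]
  congr 2
  have h3 := hf _ (het τ⁻¹ (hT τ hτ) x)
  rw [P.sub_right, div_eq_one] at h3
  exact h3

/-- if the elements of `T` act on `B0` through `c`, they act trivially on `M' / B0^⊥`. -/
theorem annih_et (T : Set GQ) (hT : ∀ τ ∈ T, τ⁻¹ ∈ T) (c : GQ → ℕ) (n : ℕ)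
    (hn : ∀ x : M, n • x = 0) (hc : ∀ (g : GQ) (ζ : Qbar), ζ ^ n = 1 → g ζ = ζ ^ c g)
    (hB0st : ∀ τ ∈ T, ∀ b ∈ B0, M.ρ τ b ∈ B0)
    (hcyc : ∀ τ ∈ T, ∀ b ∈ B0, M.ρ τ b = c τ • b) (τ : GQ) (hτ : τ ∈ T) (f : M') :
    M'.ρ τ f - f ∈ P.annihAdd B0 := by
  intro x hx
  rw [P.sub_left, div_eq_one]
  apply Units.ext
  have hy : M.ρ τ⁻¹ x ∈ B0 := hB0st _ (hT τ hτ) x hx
  have hτy : M.ρ τ (M.ρ τ⁻¹ x) = x := by
    rw [← Module.End.mul_apply, ← map_mul, mul_inv_cancel, map_one, Module.End.one_apply]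
  have hpow : ((P.pair f (M.ρ τ⁻¹ x) : Qbarˣ) : Qbar) ^ n = 1 := by
    rw [← Units.val_pow_eq_pow_val, ← P.nsmul_right, hn, P.zero_right, Units.val_one]
  rw [P.act' τ f x, hc τ _ hpow, ← Units.val_pow_eq_pow_val, ← P.nsmul_right,
    ← hcyc τ hτ _ hy, hτy]

end DualB0

end Fermat.Agent.MZ.SEL.DualChain8
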