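/-
Programme MZ (S15, Mazur), chapter SEL (helper8): **the standard local conditions** of Programme MZ:
`Lstd ℓS B0 q = Lord ℓ (Mq M ℓ) B0` at `q = ℓS` (ordinary + peu ramifié, `LOCL/OrdPeu4`) and `H1ur`
at the other primes of `S`; `Lstd_self`, `Lstd_of_ne`, `mem_sel_Lstd_iff`.
-/
import Mathlib
import Fermat.Agent.TW.DEF.Basic1
import Fermat.Agent.MZ.LOCL.OrdPeu4

set_option autoImplicit false
set_option linter.unusedSectionVars false

open Fermat.Agent.PT.PRO.LevelCoh28 Fermat.Agent.PT.PRO.LevelCohRes28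
open Fermat.Agent.PT.GLUE.Objects21
open Fermat.Agent.TW.DEF.Basic1
open Fermat.Agent.TW.LOC.Defs2 (Iq H1ur)
open Fermat.Agent.MZ.LOCL.OrdPeu4

attribute [-instance] AddCommGroup.toIntModule

namespace Fermat.Agent.MZ.SEL.LocalCond8

variable {S : Finset Nat.Primes} (ℓS : ↥S) {M : Rep.{0} ℤ GQ}
  (B0 : AddSubgroup (Mq M ((ℓS : Nat.Primes) : ℕ)))

open Classical in
/-- the standard local conditions: `Lord` at `ℓS`, unramified elsewhere. -/
noncomputable def Lstd (q : ↥S) : Submodule ℤ (Hq1 M ((q : Nat.Primes) : ℕ)) :=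
  if h : q = ℓS then h ▸ Lord ((ℓS : Nat.Primes) : ℕ) (Mq M ((ℓS : Nat.Primes) : ℕ)) B0
  else H1ur ((q : Nat.Primes) : ℕ) (Mq M ((q : Nat.Primes) : ℕ))

theorem Lstd_self :
    Lstd ℓS B0 ℓS = Lord ((ℓS : Nat.Primes) : ℕ) (Mq M ((ℓS : Nat.Primes) : ℕ)) B0 := by
  unfold Lstd
  rw [dif_pos rfl]

theorem Lstd_of_ne (q : ↥S) (hq : q ≠ ℓS) :
    Lstd ℓS B0 q = H1ur ((q : Nat.Primes) : ℕ) (Mq M ((q : Nat.Primes) : ℕ)) := by
  unfold Lstd
  rw [dif_neg hq]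

theorem mem_sel_Lstd_iff (x : HS1 S M) :
    x ∈ Sel S M (Lstd ℓS B0) ↔
      resq1 S M ((ℓS : Nat.Primes) : ℕ) x ∈
          Lord ((ℓS : Nat.Primes) : ℕ) (Mq M ((ℓS : Nat.Primes) : ℕ)) B0 ∧
        ∀ q : ↥S, q ≠ ℓS → resq1 S M ((q : Nat.Primes) : ℕ) x ∈
          H1ur ((q : Nat.Primes) : ℕ) (Mq M ((q : Nat.Primes) : ℕ)) := by
  rw [mem_Sel_iff]
  constructor
  · intro h
    refine ⟨?_, fun q hq => ?_⟩
    · have := h ℓS
      rwa [Lstd_self] at this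
    · have := h q
      rwa [Lstd_of_ne ℓS B0 q hq] at this
  · rintro ⟨h1, h2⟩ q
    by_cases hq : q = ℓS
    · subst hq
      rw [Lstd_self]
      exact h1
    · rw [Lstd_of_ne ℓS B0 q hq]
      exact h2 q hq

end Fermat.Agent.MZ.SEL.LocalCond8
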