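/-
Programme MZ (S15, Mazur), chapter SEL (helper8): **constituent value (E0), étale type.**

`X` a `GQ`-module with TRIVIAL action.  A class in `H¹(G_S, X)` which is unramified (`H1ur`) at every
prime of `S` is zero (it is a homomorphism `GQ → X` trivial on all inertia groups: Minkowski, in the
form `S13.UnramBridge.eq_top_of_forall_exists_inertia_le`, + `DecompSurj4.map_Iq`).
-/
import Mathlib
import Fermat.Agent.TW.DEF.Basic1
import Fermat.Agent.TW.LOC.DecompSurj4
import Fermat.Agent.S13.UnramBridge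

set_option autoImplicit false
set_option linter.unusedSectionVars false
set_option linter.style.haveILetI false

open CategoryTheory groupCohomology
open Fermat.Agent.PT.PRO.LevelCoh28 Fermat.Agent.PT.PRO.LevelCohRes28
open Fermat.Agent.PT.GLUE.Objects21
open Fermat.Agent.TW.DEF.Basic1
open Fermat.Agent.TW.LOC.Defs2 (Iq H1ur)

namespace Fermat.Agent.MZ.SEL.EtaleConst8

variable {k : Type} [CommRing k] (S : Finset Nat.Primes)

/-- A level cocycle with values in a trivial module is a homomorphism. -/
theorem cocycle_mul {X : Rep.{0} k GQ} (hX : ∀ g x, X.ρ g x = x) (c : ↥(Z1 (levelS S) X))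
    (g h : GQ) : c.1 (g * h) = c.1 g + c.1 h := by
  have h1 := (mem_cocycles₁_iff c.1).1 c.2.1 g h
  rw [h1, hX, add_comm]

/-- **(E0)** a class with trivial coefficients, unramified at all primes of `S` (and, being a class of
`G_S`, outside `S`), vanishes. -/
theorem eq_zero_of_forall_mem_H1ur {X : Rep.{0} k GQ} (hX : ∀ g x, X.ρ g x = x) (x : HS1 S X)
    (hx : ∀ q : ↥S, resq1 S X ((q : Nat.Primes) : ℕ) x ∈
      H1ur ((q : Nat.Primes) : ℕ) (Mq X ((q : Nat.Primes) : ℕ))) : x = 0 := by
  obtain ⟨c, rfl⟩ := H1mk_surjective (levelS S) X x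
  have hmul := cocycle_mul S hX c
  have h1 : c.1 1 = 0 := by
    have := hmul 1 1
    rw [mul_one] at this
    exact left_eq_add.mp this
  have hinv : ∀ g, c.1 g⁻¹ = - c.1 g := by
    intro g
    have := hmul g⁻¹ g
    rw [inv_mul_cancel, h1] at this
    exact eq_neg_of_add_eq_zero_left this.symm
  -- the kernel of `c`
  let N : Subgroup GQ :=
    { carrier := {g | c.1 g = 0}
      mul_mem' := by
        intro a b ha hb
        show c.1 (a * b) = 0
        rw [hmul, ha, hb, add_zero]
      one_mem' := h1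
      inv_mem' := by
        intro a ha
        show c.1 a⁻¹ = 0
        rw [hinv, ha, neg_zero] }
  haveI : N.Normal := by
    refine ⟨fun n hn g => ?_⟩
    show c.1 (g * n * g⁻¹) = 0
    rw [hmul, hmul, hinv, hn]
    abel
  -- `c` is constant on the cosets of a level subgroup
  obtain ⟨U, ⟨F, hF, rfl⟩, hU⟩ := c.2.2
  haveI := hF.1
  have hFN : F.fixingSubgroup ≤ N := by
    intro s hs
    show c.1 s = 0
    have := hU 1 s hs
    rw [one_mul] at this
    rw [this, h1]
  have hN : N = ⊤ := by
    refine Fermat.Agent.S13.UnramBridge.eq_top_of_forall_exists_inertia_le N F hFN ?_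
    intro q hq
    haveI : Fact q.Prime := ⟨hq⟩
    refine ⟨padicPlace q, Fermat.Agent.TW.LOC.TameProfinite4.liesOverPrime_padicPlace (q := q), ?_⟩
    by_cases hqS : (⟨q, hq⟩ : Nat.Primes) ∈ S
    · -- unramified at `q ∈ S` by hypothesis
      have hxq := hx ⟨⟨q, hq⟩, hqS⟩
      obtain ⟨c', hc', m, hm⟩ := hxq
      have h0 : H1mk (levelLoc q) (Mq X q) (c' - resZ1 S X q c) = 0 := by
        rw [map_sub, sub_eq_zero, hc']
        rfl
      rw [H1mk_eq_zero_iff] at h0
      obtain ⟨n, hn⟩ := h0
      rw [← Fermat.Agent.TW.LOC.DecompSurj4.map_Iq q]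
      rintro _ ⟨τ, hτ, rfl⟩
      show c.1 (rq q τ) = 0
      have h2 := congrFun hn τ
      rw [d₀₁_hom_apply] at h2
      have h3 : ((c' - resZ1 S X q c : ↥(Z1 (levelLoc q) (Mq X q))) : Gq q → Mq X q) τ =
          c'.1 τ - c.1 (rq q τ) := rfl
      rw [h3] at h2
      have h4 : (Mq X q).ρ τ n = n := hX (rq q τ) n
      have h5 : c'.1 τ = 0 := by
        have h6 := hm τ hτ
        have h7 : (Mq X q).ρ τ m = m := hX (rq q τ) m
        rw [h7, sub_self] at h6
        exact h6
      rw [h4, sub_self, h5, zero_sub] at h2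
      exact neg_eq_zero.mp h2.symm
    · -- unramified outside `S` because `c` is a level cocycle for `levelS S`
      exact (hF.2 ⟨q, hq⟩ hqS (padicPlace q)
        (Fermat.Agent.TW.LOC.TameProfinite4.liesOverPrime_padicPlace (q := q))).trans hFN
  rw [H1mk_eq_zero_iff]
  refine ⟨0, ?_⟩
  funext g
  have hg : g ∈ N := hN ▸ Subgroup.mem_top g
  rw [map_zero]
  exact hg.symm

end Fermat.Agent.MZ.SEL.EtaleConst8
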