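/-
Programme MZ (S15, Mazur), chapter SEL (helper8): **the bounds for the groups `K i`** of `SelBound8`
(input `hK` of `SelBound8.card_sel_le`).

* étale constituent: `X i` with trivial action, and the induced condition at `ℓS` is unramified
  (Claim L-ét of `LOCL/OrdPeu4`) ⇒ `K i = ⊥` and `#K i * #X i ≤ #(X i)^GQ` (gain `t i = #X i`);
* multiplicative constituent: `Finite (K i) ∧ #K i ≤ #(X i)^GQ` ⇒ gain `t i = 1`.
-/
import Mathlib
import Fermat.Agent.MZ.SEL.SelBound8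
import Fermat.Agent.MZ.SEL.EtaleConst8

set_option autoImplicit false
set_option linter.unusedSectionVars false
set_option linter.style.haveILetI false

open Fermat.Agent.PT.PRO.LevelCoh28 Fermat.Agent.PT.PRO.LevelCohRes28
open Fermat.Agent.PT.GLUE.Objects21
open Fermat.Agent.TW.DEF.Basic1
open Fermat.Agent.TW.LOC.Defs2 (Iq H1ur)
open Fermat.Agent.MZ.SEL.Induced8 Fermat.Agent.MZ.SEL.Chain8
open Fermat.Agent.MZ.SEL.ConstBound8 Fermat.Agent.MZ.SEL.SelBound8

namespace Fermat.Agent.MZ.SEL.KBounds8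

variable {k : Type} [CommRing k] {S : Finset Nat.Primes} (ℓS : ↥S)

/-- Generic form: trivial action, condition at `ℓS` inside the unramified classes ⇒ the "unramified
part" Selmer group vanishes. -/
theorem sel_Lk_eq_bot (X : Rep.{0} k GQ) (hX : ∀ g x, X.ρ g x = x)
    (LQ : ∀ q : ↥S, Submodule k (Hq1 X ((q : Nat.Primes) : ℕ)))
    (hℓ : LQ ℓS ≤ H1ur ((ℓS : Nat.Primes) : ℕ) (Mq X ((ℓS : Nat.Primes) : ℕ))) :
    Sel S X (Lk S ℓS X LQ) = ⊥ := by
  rw [eq_bot_iff]
  intro x hx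
  rw [Submodule.mem_bot]
  refine EtaleConst8.eq_zero_of_forall_mem_H1ur S hX x fun q => ?_
  have h1 := (mem_Lk_iff S ℓS X LQ q _).1 ((mem_Sel_iff S X _ x).1 hx q)
  by_cases hq : q = ℓS
  · subst hq
    exact hℓ h1.1
  · exact h1.2 hq

theorem card_invariants_of_trivial (X : Rep.{0} k GQ) (hX : ∀ g x, X.ρ g x = x) :
    Nat.card ↥X.ρ.invariants = Nat.card X := by
  have h : X.ρ.invariants = ⊤ := by
    rw [eq_top_iff]
    intro x _ g
    exact hX g x
  rw [h]
  exact Nat.card_congr (Submodule.topEquiv (R := k) (M := X)).toEquiv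

variable {M : Rep.{0} k GQ} {m : ℕ} (D : ChainData S M m)
  (L : ∀ q : ↥S, Submodule k (Hq1 M ((q : Nat.Primes) : ℕ)))

/-- **étale constituent**: gain `t i = #X i`. -/
theorem K_etale (i : ℕ) (hX : ∀ g x, (D.X i).ρ g x = x)
    (hℓ : Lquot D L i ℓS ≤
      H1ur ((ℓS : Nat.Primes) : ℕ) (Mq (D.X i) ((ℓS : Nat.Primes) : ℕ))) :
    Finite ↥(K ℓS D L i) ∧
      Nat.card ↥(K ℓS D L i) * Nat.card (D.X i) ≤ Nat.card ↥(D.X i).ρ.invariants := by
  have h : K ℓS D L i = ⊥ := sel_Lk_eq_bot ℓS (D.X i) hX (Lquot D L i) hℓ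
  rw [h, card_invariants_of_trivial _ hX]
  refine ⟨inferInstance, ?_⟩
  have h1 : Nat.card ↥(⊥ : Submodule k (HS1 S (D.X i))) = 1 :=
    Nat.card_eq_one_iff_unique.mpr ⟨inferInstance, ⟨0⟩⟩
  rw [h1, one_mul]

/-- **multiplicative constituent**: gain `t i = 1`.  The hypothesis is about the (a priori larger)
group cut out by any conditions `LQ'` containing `Lk` (e.g. unramified outside `ℓS` and "units" at
`ℓS`). -/
theorem K_mult (i : ℕ)
    (LQ' : ∀ q : ↥S, Submodule k (Hq1 (D.X i) ((q : Nat.Primes) : ℕ)))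
    (hle : ∀ q, Lk S ℓS (D.X i) (Lquot D L i) q ≤ LQ' q)
    (hfin : Finite ↥(Sel S (D.X i) LQ'))
    (hcard : Nat.card ↥(Sel S (D.X i) LQ') ≤ Nat.card ↥(D.X i).ρ.invariants) :
    Finite ↥(K ℓS D L i) ∧
      Nat.card ↥(K ℓS D L i) * 1 ≤ Nat.card ↥(D.X i).ρ.invariants := by
  have hsub : K ℓS D L i ≤ Sel S (D.X i) LQ' := Sel_mono S (D.X i) hle
  haveI : Finite ↥(K ℓS D L i) :=
    Finite.of_injective (Submodule.inclusion hsub) (Submodule.inclusion_injective hsub)
  refine ⟨inferInstance, ?_⟩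
  rw [mul_one]
  exact (Nat.card_le_card_of_injective (Submodule.inclusion hsub)
    (Submodule.inclusion_injective hsub)).trans hcard

end Fermat.Agent.MZ.SEL.KBounds8
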