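/-
Programme MZ (S15, Mazur), chapter SEL (helper8): **arithmetic input of the multiplicative
constituent** (`MultConst8`).

* `nat_eq_pow_of_dvd_factorization`, `rat_eq_pow_of_dvd_padicValRat` : a nonzero rational all of whose
  `q`-adic valuations are divisible by `n` is `± bⁿ`;
* `exists_zpow_norm_of_fixed` : a nonzero element of `ℚ̄_q` fixed by the inertia group has norm in
  `q^ℤ` (from `UnramFixed4.norm_le_norm_q_of_fixed`);
* `norm_padicEmbedding_rat`, `dvd_padicValRat_of_pow` : if `βⁿ = a ∈ ℚˣ` and `‖β‖_q ∈ q^ℤ` then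
  `n ∣ v_q(a)`.
-/
import Mathlib
import Fermat.Agent.TW.LOC.UnramFixed4
import Fermat.Agent.TW.LOC.DecompSurj4

set_option autoImplicit false
set_option linter.unusedSectionVars false

open Fermat.Agent.PT.GLUE.Objects21
open Fermat.Agent.TW.LOC.Defs2

namespace Fermat.Agent.MZ.SEL.KummerRat8

theorem nat_eq_pow_of_dvd_factorization {n m : ℕ} (hm : m ≠ 0)
    (h : ∀ q : ℕ, q.Prime → n ∣ m.factorization q) : ∃ b : ℕ, b ≠ 0 ∧ m = b ^ n := by
  refine ⟨∏ q ∈ m.primeFactors, q ^ (m.factorization q / n), ?_, ?_⟩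
  · refine Finset.prod_ne_zero_iff.mpr fun q hq => pow_ne_zero _ ?_
    exact (Nat.prime_of_mem_primeFactors hq).ne_zero
  · conv_lhs => rw [← Nat.prod_factorization_pow_eq_self hm]
    rw [Finsupp.prod, Nat.support_factorization, ← Finset.prod_pow]
    refine Finset.prod_congr rfl fun q hq => ?_
    rw [← pow_mul, Nat.div_mul_cancel (h q (Nat.prime_of_mem_primeFactors hq))]

/-- a nonzero rational all of whose valuations are divisible by `n` is `± bⁿ`. -/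
theorem rat_eq_pow_of_dvd_padicValRat {n : ℕ} (a : ℚ) (ha : a ≠ 0)
    (h : ∀ q : ℕ, q.Prime → (n : ℤ) ∣ padicValRat q a) :
    ∃ b : ℚ, b ≠ 0 ∧ (a = b ^ n ∨ a = - b ^ n) := by
  have hnum : a.num ≠ 0 := Rat.num_ne_zero.mpr ha
  have hden : a.den ≠ 0 := a.den_ne_zero
  have hcop : Nat.Coprime a.num.natAbs a.den := a.reduced
  have key : ∀ q : ℕ, q.Prime → n ∣ a.num.natAbs.factorization q ∧ n ∣ a.den.factorization q := by
    intro q hq
    have h1 := h q hq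
    rw [padicValRat_def, padicValInt] at h1
    rw [← Nat.factorization_def _ hq, ← Nat.factorization_def _ hq] at h1
    by_cases hqd : q ∣ a.den
    · have hqn : ¬ q ∣ a.num.natAbs := fun hqn =>
        hq.one_lt.ne' (Nat.eq_one_of_dvd_coprimes hcop hqn hqd)
      have h0 : a.num.natAbs.factorization q = 0 := Nat.factorization_eq_zero_of_not_dvd hqn
      rw [h0] at h1 ⊢
      refine ⟨dvd_zero _, ?_⟩
      rw [Nat.cast_zero, zero_sub, dvd_neg] at h1
      exact_mod_cast h1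
    · have h0 : a.den.factorization q = 0 := Nat.factorization_eq_zero_of_not_dvd hqd
      rw [h0] at h1 ⊢
      refine ⟨?_, dvd_zero _⟩
      rw [Nat.cast_zero, sub_zero] at h1
      exact_mod_cast h1
  obtain ⟨b1, hb1, e1⟩ := nat_eq_pow_of_dvd_factorization (n := n)
    (Int.natAbs_ne_zero.mpr hnum) fun q hq => (key q hq).1
  obtain ⟨b2, hb2, e2⟩ := nat_eq_pow_of_dvd_factorization (n := n) hden fun q hq => (key q hq).2
  refine ⟨(b1 : ℚ) / b2, div_ne_zero (by exact_mod_cast hb1) (by exact_mod_cast hb2), ?_⟩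
  have ha' : a = (a.num : ℚ) / (a.den : ℚ) := (Rat.num_div_den a).symm
  have hden' : (a.den : ℚ) = (b2 : ℚ) ^ n := by exact_mod_cast e2
  have e1' : ((a.num.natAbs : ℤ) : ℚ) = (b1 : ℚ) ^ n := by
    rw [Int.cast_natCast, e1, Nat.cast_pow]
  rcases Int.natAbs_eq a.num with hs | hs
  · left
    have hnum' : (a.num : ℚ) = (b1 : ℚ) ^ n := by
      rw [hs]
      exact e1'
    rw [div_pow, ← hnum', ← hden']
    exact ha'
  · right
    have hnum' : (a.num : ℚ) = - (b1 : ℚ) ^ n := by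
      rw [hs, Int.cast_neg, e1']
    rw [div_pow, ← hden', ← neg_div, ← hnum']
    exact ha'

variable (q : ℕ) [Fact q.Prime]

/-- an inertia-fixed nonzero element of `ℚ̄_q` has norm in `q^ℤ`. -/
theorem exists_zpow_norm_of_fixed (γ : PadicAlgCl q) (hγ : γ ≠ 0)
    (hfix : ∀ τ ∈ Iq q, τ γ = γ) : ∃ k : ℤ, ‖γ‖ = (q : ℝ) ^ k := by
  have hq1 : (1 : ℝ) < q := by exact_mod_cast (Fact.out : q.Prime).one_lt
  have hq0 : (0 : ℝ) < q := by linarith
  obtain ⟨n, hn1, hn2⟩ := exists_mem_Ioc_zpow (norm_pos_iff.mpr hγ) hq1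
  have hnq := Fermat.Agent.TW.LOC.DecompSurj4.norm_natCast_q (q := q)
  set γ' : PadicAlgCl q := γ * ((q : ℕ) : PadicAlgCl q) ^ (n + 1) with hγ'
  have hnorm : ‖γ'‖ = ‖γ‖ * ((q : ℝ) ^ (n + 1))⁻¹ := by
    rw [hγ', norm_mul, norm_zpow, hnq, inv_zpow]
  have hfix' : ∀ τ ∈ Iq q, τ γ' = γ' := by
    intro τ hτ
    rw [hγ', map_mul, map_zpow₀, map_natCast, hfix τ hτ]
  have hpos : (0 : ℝ) < (q : ℝ) ^ (n + 1) := zpow_pos hq0 _
  refine ⟨n + 1, ?_⟩
  by_contra hne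
  have hlt : ‖γ‖ < (q : ℝ) ^ (n + 1) := lt_of_le_of_ne hn2 hne
  have h1 : ‖γ'‖ < 1 := by
    rw [hnorm, ← div_eq_mul_inv, div_lt_one hpos]
    exact hlt
  have h2 := Fermat.Agent.TW.LOC.UnramFixed4.norm_le_norm_q_of_fixed q γ' hfix' h1
  rw [hnq, hnorm, ← div_eq_mul_inv, div_le_iff₀ hpos, zpow_add_one₀ hq0.ne',
    mul_comm ((q : ℝ) ^ n), inv_mul_cancel_left₀ hq0.ne'] at h2
  exact absurd hn1 (not_lt.mpr h2)

theorem norm_padicEmbedding_rat (a : ℚ) (ha : a ≠ 0) :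
    ‖padicEmbedding q (algebraMap ℚ (AlgebraicClosure ℚ) a)‖ = (q : ℝ) ^ (-padicValRat q a) := by
  rw [AlgHom.commutes]
  have h1 : algebraMap ℚ (PadicAlgCl q) a = ((a : ℚ_[q]) : PadicAlgCl q) := by
    rw [IsScalarTower.algebraMap_apply ℚ ℚ_[q] (PadicAlgCl q)]
    rfl
  rw [h1, PadicAlgCl.norm_extends, Padic.eq_padicNorm, padicNorm.eq_zpow_of_nonzero ha]
  push_cast
  rfl

/-- if `βⁿ = a ∈ ℚˣ` and `‖β‖_q ∈ q^ℤ` then `n ∣ v_q(a)`. -/
theorem dvd_padicValRat_of_pow (a : ℚ) (ha : a ≠ 0) (n : ℕ) (β : AlgebraicClosure ℚ)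
    (hβ : β ^ n = algebraMap ℚ (AlgebraicClosure ℚ) a) (k : ℤ)
    (hk : ‖padicEmbedding q β‖ = (q : ℝ) ^ k) : (n : ℤ) ∣ padicValRat q a := by
  have hq1 : (1 : ℝ) < q := by exact_mod_cast (Fact.out : q.Prime).one_lt
  have hq0 : (0 : ℝ) < q := by linarith
  have h1 := norm_padicEmbedding_rat q a ha
  rw [← hβ, map_pow, norm_pow, hk, ← zpow_natCast, ← zpow_mul] at h1
  have h2 := zpow_right_injective₀ hq0 hq1.ne' h1
  refine ⟨-k, ?_⟩
  have : padicValRat q a = -(k * n) := by rw [h2, neg_neg]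
  rw [this]
  ring

end Fermat.Agent.MZ.SEL.KummerRat8
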