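/-
Programme MZ (S15, Mazur), chapter SEL (helper8): **constituent value (E2), multiplicative type**
(global Kummer theory over `ℚ`, coefficients `ℤ`, `ℓ = 2` included).

`X : Rep ℤ GQ` finite with a global character `C : GlobChar X` (an injective Galois-equivariant
homomorphism `ι : X → ℚ̄ˣ`, so `X ≅ μ_n`, `n = #X`).  For local conditions `LQ` with
`LQ q ≤ H1ur` (`q ≠ ℓS`) and `LQ ℓS ≤ HunitI ℓS X (ιloc C ℓS)` (the "unit classes" of `LOCL/OrdPeu4`):

  `Finite Sel(X, LQ)` and `#Sel(X, LQ) ≤ #X^GQ`   (`card_sel_le`).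

Proof: Hilbert 90 (`InfGalois13.hilbert90_level`) gives `β ∈ ℚ̄ˣ` with `ι(c g) = g β / β`; `a = βⁿ ∈ ℚˣ`;
the local conditions (and `G_S`-level outside `S`) give `‖β‖_q ∈ q^ℤ` for every prime `q`
(`KummerRat8.exists_zpow_norm_of_fixed`), so `n ∣ v_q(a)` for all `q`, `a = ± bⁿ`, and one may take
`βⁿ = ± 1`; `βⁿ = 1` gives the zero class, two classes with `βⁿ = -1` coincide, and such a nonzero class
exists only if `-1 ∈ μ_n`, which gives a nonzero invariant.

* `K_mult` : the corresponding input of `SelBound8.card_sel_le` (gain `t i = 1`);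
* `exists_globChar` : the character for `X` of prime order `ℓ` with cyclotomic action.
-/
import Mathlib
import Fermat.Agent.TW.DEF.Basic1
import Fermat.Agent.TW.LOC.DecompSurj4
import Fermat.Agent.S13.UnramBridge
import Fermat.Agent.PT.BR.InfGalois13
import Fermat.Agent.MZ.LOCL.OrdPeu4
import Fermat.Agent.MZ.SEL.KummerRat8
import Fermat.Agent.MZ.SEL.SelBound8

set_option autoImplicit false
set_option linter.unusedSectionVars false
set_option linter.style.haveILetI false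

open CategoryTheory groupCohomology
open Fermat.Agent.PT.PRO.LevelCoh28 Fermat.Agent.PT.PRO.LevelCohRes28
open Fermat.Agent.PT.GLUE.Objects21
open Fermat.Agent.TW.DEF.Basic1
open Fermat.Agent.TW.LOC.Defs2 (Iq H1ur)
open Fermat.Agent.MZ.LOCL.OrdPeu4
open Fermat.Agent.MZ.SEL.KummerRat8
open Fermat.Agent.MZ.SEL.Induced8 Fermat.Agent.MZ.SEL.Chain8
open Fermat.Agent.MZ.SEL.ConstBound8 Fermat.Agent.MZ.SEL.SelBound8

attribute [-instance] AddCommGroup.toIntModule

namespace Fermat.Agent.MZ.SEL.MultConst8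

local notation "Qbar" => AlgebraicClosure ℚ

/-- A global multiplicative character of a `GQ`-module: an injective, Galois-equivariant
homomorphism `X → ℚ̄ˣ` (so `X ≅ μ_n` as a Galois module, `n = #X`). -/
structure GlobChar (X : Rep.{0} ℤ GQ) where
  /-- the character -/
  ι : X → Qbar
  map_zero : ι 0 = 1
  map_add : ∀ a b, ι (a + b) = ι a * ι b
  inj : Function.Injective ι
  equiv : ∀ g x, ι (X.ρ g x) = g (ι x)

variable {X : Rep.{0} ℤ GQ} (C : GlobChar X)

namespace GlobChar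

theorem ne_zero (x : X) : C.ι x ≠ 0 := by
  intro h
  have h1 := C.map_add x (-x)
  rw [add_neg_cancel, C.map_zero, h, zero_mul] at h1
  exact one_ne_zero h1

theorem map_nsmul (k : ℕ) (x : X) : C.ι (k • x) = C.ι x ^ k := by
  induction k with
  | zero => rw [zero_smul, pow_zero, C.map_zero]
  | succ k ih => rw [succ_nsmul, C.map_add, ih, pow_succ]

theorem map_sub (a b : X) : C.ι (a - b) * C.ι b = C.ι a := by
  rw [← C.map_add, sub_add_cancel]

theorem pow_card [Finite X] (x : X) : C.ι x ^ Nat.card X = 1 := by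
  rw [← C.map_nsmul, card_nsmul_eq_zero', C.map_zero]

end GlobChar

variable (q : ℕ) [Fact q.Prime]

/-- the local character at `q`. -/
noncomputable def ιloc : Mq X q → PadicAlgCl q := fun x => padicEmbedding q (C.ι x)

theorem isChar_ιloc : IsChar q (⊤ : AddSubgroup (Mq X q)) (ιloc C q) :=
  ⟨by show padicEmbedding q (C.ι 0) = 1; rw [C.map_zero, map_one],
    fun a _ b _ => by
      show padicEmbedding q (C.ι (a + b)) = padicEmbedding q (C.ι a) * padicEmbedding q (C.ι b)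
      rw [C.map_add, map_mul]⟩

theorem ιloc_equiv (τ : Gq q) (x : Mq X q) : ιloc C q ((Mq X q).ρ τ x) = τ (ιloc C q x) := by
  show padicEmbedding q (C.ι (X.ρ (rq q τ) x)) = τ (padicEmbedding q (C.ι x))
  rw [C.equiv, padicEmbedding_localGaloisToGlobal]

theorem norm_ιloc [Finite X] (x : Mq X q) : ‖ιloc C q x‖ = 1 := by
  have h : ‖ιloc C q x‖ ^ Nat.card X = 1 := by
    rw [← norm_pow]
    show ‖padicEmbedding q (C.ι x) ^ Nat.card X‖ = 1
    rw [← map_pow, C.pow_card, map_one, norm_one]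
  exact (pow_eq_one_iff_of_nonneg (norm_nonneg _) Nat.card_pos.ne').mp h


/-! ### Hilbert 90: the Kummer generator of a cocycle -/

section H90

variable (S : Finset Nat.Primes) [Finite X]

/-- **Hilbert 90**: every level cocycle with values in `X ≅ μ_n` is `g ↦ g β / β`. -/
theorem exists_kummer (c : ↥(Z1 (levelS S) X)) :
    ∃ β : Qbar, β ≠ 0 ∧ ∀ g : GQ, g β = C.ι (c.1 g) * β := by
  obtain ⟨U, ⟨F, hF, rfl⟩, hU⟩ := c.2.2
  haveI := hF.1
  haveI : Finite (Set.range C.ι) := Set.finite_range C.ι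
  haveI : FiniteDimensional ℚ (IntermediateField.adjoin ℚ (Set.range C.ι)) :=
    IntermediateField.finiteDimensional_adjoin fun x _ =>
      (Algebra.IsAlgebraic.isAlgebraic x).isIntegral
  let E : IntermediateField ℚ Qbar := F ⊔ IntermediateField.adjoin ℚ (Set.range C.ι)
  haveI : FiniteDimensional ℚ E := IntermediateField.finiteDimensional_sup _ _
  let f : GQ → Qbarˣ := fun g => Units.mk0 (C.ι (c.1 g)) (C.ne_zero _)
  obtain ⟨β, hβ⟩ := Fermat.Agent.PT.BR.InfGalois13.hilbert90_level (⊤ : Subgroup GQ) E f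
    (fun g s hs => by
      apply Units.ext
      show C.ι (c.1 (g * s)) = C.ι (c.1 g)
      rw [hU g s (IntermediateField.fixingSubgroup_antitone le_sup_left hs)])
    (fun g => by
      show C.ι (c.1 g) ∈ E
      exact (le_sup_right : IntermediateField.adjoin ℚ (Set.range C.ι) ≤ E)
        (IntermediateField.subset_adjoin ℚ _ ⟨_, rfl⟩))
    (fun n _ n' _ => by
      apply Units.ext
      show C.ι (c.1 (n * n')) = n (C.ι (c.1 n')) * C.ι (c.1 n)
      rw [(mem_cocycles₁_iff c.1).1 c.2.1 n n', C.map_add, C.equiv])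
  refine ⟨(β : Qbar), β.ne_zero, fun g => ?_⟩
  have h1 := hβ g (Subgroup.mem_top g)
  have h2 : f g * β = g • β := by rw [h1, div_mul_cancel]
  have h3 := congrArg (fun u : Qbarˣ => (u : Qbar)) h2
  exact h3.symm

end H90

/-! ### local analysis -/

section Local

variable (S : Finset Nat.Primes) [Finite X]

theorem cocycle_one (c : ↥(Z1 (levelS S) X)) : c.1 1 = 0 := by
  have h := (mem_cocycles₁_iff c.1).1 c.2.1 1 1
  rw [mul_one, map_one, Module.End.one_apply] at h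
  exact left_eq_add.mp h

/-- outside `S` a level cocycle of `G_S` vanishes on inertia. -/
theorem cocycle_inertia_eq_zero (c : ↥(Z1 (levelS S) X))
    (hq : (⟨q, Fact.out⟩ : Nat.Primes) ∉ S) (τ : Gq q) (hτ : τ ∈ Iq q) : c.1 (rq q τ) = 0 := by
  obtain ⟨U, ⟨F, hF, rfl⟩, hU⟩ := c.2.2
  have h1 : rq q τ ∈ F.fixingSubgroup :=
    hF.2 ⟨q, Fact.out⟩ hq (padicPlace q)
      (Fermat.Agent.TW.LOC.TameProfinite4.liesOverPrime_padicPlace (q := q)) hτ
  have h2 := hU 1 (rq q τ) h1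
  rw [one_mul] at h2
  rw [h2, cocycle_one]

/-- the unit-radical condition outside `S`. -/
theorem unitRad_of_not_mem (c : ↥(Z1 (levelS S) X))
    (hq : (⟨q, Fact.out⟩ : Nat.Primes) ∉ S) :
    UnitRad q (fun τ => ιloc C q (c.1 (rq q τ))) := by
  refine UnitRad.congr (f := fun _ => 1) (fun τ hτ => ?_) UnitRad.one
  show (1 : PadicAlgCl q) = ιloc C q (c.1 (rq q τ))
  rw [cocycle_inertia_eq_zero (S := S) (q := q) c hq τ hτ]
  exact (isChar_ιloc C q).1.symm

/-- the unit-radical condition from unramifiedness. -/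
theorem unitRad_of_mem_H1ur (c : ↥(Z1 (levelS S) X))
    (h : resq1 S X q (H1mk (levelS S) X c) ∈ H1ur q (Mq X q)) :
    UnitRad q (fun τ => ιloc C q (c.1 (rq q τ))) := by
  obtain ⟨c', hc', m, hm⟩ := h
  obtain ⟨b, hb⟩ := exists_coboundary (c := resZ1 S X q c) (c' := c') hc'.symm
  refine ⟨ιloc C q (m + b), norm_ιloc C q _, fun τ hτ => ?_⟩
  show τ (ιloc C q (m + b)) = ιloc C q (c.1 (rq q τ)) * ιloc C q (m + b)
  rw [← ιloc_equiv, ← (isChar_ιloc C q).2 _ (AddSubgroup.mem_top _) _ (AddSubgroup.mem_top _)]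
  congr 1
  have h1 : c.1 (rq q τ) = c'.1 τ + ((Mq X q).ρ τ b - b) := hb τ
  rw [h1, hm τ hτ, map_add]
  abel

/-- the unit-radical condition from the unit classes. -/
theorem unitRad_of_res_mem_HunitI (c : ↥(Z1 (levelS S) X))
    (h : resq1 S X q (H1mk (levelS S) X c) ∈
      HunitI q (Mq X q) (ιloc C q) (isChar_ιloc C q)) :
    UnitRad q (fun τ => ιloc C q (c.1 (rq q τ))) :=
  Fermat.Agent.MZ.LOCL.OrdPeu4.unitRad_of_mem_HunitI (isChar_ιloc C q) (fun τ _ x => ιloc_equiv C q τ x)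
    (norm_ιloc C q) (resZ1 S X q c) h

/-- unit radical + Kummer generator ⇒ the norm of the generator is in `q^ℤ`. -/
theorem exists_zpow_norm (c : ↥(Z1 (levelS S) X)) (β : Qbar) (hβ0 : β ≠ 0)
    (hβ : ∀ g : GQ, g β = C.ι (c.1 g) * β)
    (h : UnitRad q (fun τ => ιloc C q (c.1 (rq q τ)))) :
    ∃ k : ℤ, ‖padicEmbedding q β‖ = (q : ℝ) ^ k := by
  obtain ⟨u, hu1, hu⟩ := h
  have hu0 : u ≠ 0 := by
    intro h0
    rw [h0, norm_zero] at hu1
    exact zero_ne_one hu1
  have hB0 : padicEmbedding q β ≠ 0 := by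
    rw [Ne, map_eq_zero]
    exact hβ0
  obtain ⟨k, hk⟩ := exists_zpow_norm_of_fixed q (padicEmbedding q β / u)
    (div_ne_zero hB0 hu0) (fun τ hτ => by
      have h1 : τ (padicEmbedding q β) = ιloc C q (c.1 (rq q τ)) * padicEmbedding q β := by
        rw [← padicEmbedding_localGaloisToGlobal, hβ, map_mul]
        rfl
      have h2 : ιloc C q (c.1 (rq q τ)) ≠ 0 :=
        (isChar_ιloc C q).ne_zero (AddSubgroup.mem_top _)
      rw [map_div₀, h1, hu τ hτ, mul_div_mul_left _ _ h2])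
  refine ⟨k, ?_⟩
  rw [← hk, norm_div, hu1, div_one]

end Local

/-! ### global analysis -/

section Global

variable (S : Finset Nat.Primes) [Finite X]

/-- the image of the character is the group of `n`-th roots of unity. -/
theorem mem_range_of_pow_eq_one (β : Qbar) (h : β ^ Nat.card X = 1) : ∃ y : X, C.ι y = β := by
  have hn : 0 < Nat.card X := Nat.card_pos
  have hsub : Set.range C.ι ⊆ ((Polynomial.nthRootsFinset (Nat.card X) (1 : Qbar) :
      Finset Qbar) : Set Qbar) := by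
    rintro _ ⟨y, rfl⟩
    rw [Finset.mem_coe, Polynomial.mem_nthRootsFinset hn]
    exact C.pow_card y
  have hcard : ((Polynomial.nthRootsFinset (Nat.card X) (1 : Qbar) : Finset Qbar) :
      Set Qbar).ncard ≤ (Set.range C.ι).ncard := by
    rw [Set.ncard_coe_finset, ← Set.image_univ, Set.ncard_image_of_injective _ C.inj,
      Set.ncard_univ]
    exact (Multiset.toFinset_card_le _).trans (Polynomial.card_nthRoots _ _)
  have heq := Set.eq_of_subset_of_ncard_le hsub hcard (Finset.finite_toSet _)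
  have hβ : β ∈ Set.range C.ι := by
    rw [heq, Finset.mem_coe, Polynomial.mem_nthRootsFinset hn]
    exact h
  exact hβ

/-- a cocycle with a Kummer generator which is an `n`-th root of unity is a coboundary. -/
theorem H1mk_eq_zero_of_pow_eq_one (c : ↥(Z1 (levelS S) X)) (β : Qbar)
    (h1 : β ^ Nat.card X = 1) (hβ : ∀ g : GQ, g β = C.ι (c.1 g) * β) :
    H1mk (levelS S) X c = 0 := by
  obtain ⟨y, rfl⟩ := mem_range_of_pow_eq_one C β h1
  rw [H1mk_eq_zero_iff]
  refine ⟨y, ?_⟩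
  funext g
  rw [d₀₁_hom_apply]
  have h2 := hβ g
  rw [← C.equiv, ← C.map_add] at h2
  have h3 := C.inj h2
  rw [h3]
  abel

/-- normalised Kummer generator: `βⁿ = ±1`. -/
theorem exists_kummer_pm (c : ↥(Z1 (levelS S) X))
    (hloc : ∀ q : Nat.Primes,
      UnitRad (q : ℕ) (fun τ => ιloc C (q : ℕ) (c.1 (rq (q : ℕ) τ)))) :
    ∃ β : Qbar, (β ^ Nat.card X = 1 ∨ β ^ Nat.card X = -1) ∧
      ∀ g : GQ, g β = C.ι (c.1 g) * β := by
  obtain ⟨β₀, hβ₀, hβ⟩ := exists_kummer C S c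
  have hfix : ∀ g : GQ, g (β₀ ^ Nat.card X) = β₀ ^ Nat.card X := by
    intro g
    rw [map_pow, hβ, mul_pow, C.pow_card, one_mul]
  obtain ⟨a, ha⟩ := (InfiniteGalois.mem_range_algebraMap_iff_fixed (k := ℚ) (K := Qbar)
    (β₀ ^ Nat.card X)).mpr hfix
  have ha0 : a ≠ 0 := by
    rintro rfl
    rw [map_zero] at ha
    exact pow_ne_zero _ hβ₀ ha.symm
  obtain ⟨b, hb0, hb⟩ := rat_eq_pow_of_dvd_padicValRat (n := Nat.card X) a ha0 (by
    intro q hq
    haveI : Fact q.Prime := ⟨hq⟩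
    obtain ⟨k, hk⟩ := exists_zpow_norm C q S c β₀ hβ₀ hβ (hloc ⟨q, hq⟩)
    exact dvd_padicValRat_of_pow q a ha0 _ β₀ ha.symm k hk)
  have hbQ : algebraMap ℚ Qbar b ≠ 0 := by
    rw [Ne, map_eq_zero]
    exact hb0
  refine ⟨β₀ / algebraMap ℚ Qbar b, ?_, fun g => ?_⟩
  · rw [div_pow, ← ha, ← map_pow]
    rcases hb with hb | hb
    · left
      rw [hb, div_self]
      rw [Ne, map_eq_zero]
      exact pow_ne_zero _ hb0
    · right
      rw [hb, map_neg, neg_div, div_self]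
      rw [Ne, map_eq_zero]
      exact pow_ne_zero _ hb0
  · rw [map_div₀, hβ, AlgEquiv.commutes, mul_div_assoc]

/-- the classes with a Kummer generator `β`, `βⁿ = -1`. -/
def Pm (x : HS1 S X) : Prop :=
  ∃ c : ↥(Z1 (levelS S) X), H1mk (levelS S) X c = x ∧
    ∃ β : Qbar, β ^ Nat.card X = -1 ∧ ∀ g : GQ, g β = C.ι (c.1 g) * β

theorem Pm.eq {x x' : HS1 S X} (h : Pm C S x) (h' : Pm C S x') : x = x' := by
  obtain ⟨c, rfl, β, hβ1, hβ⟩ := h
  obtain ⟨c', rfl, β', hβ1', hβ'⟩ := h'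
  have hβ'0 : β' ≠ 0 := by
    rintro rfl
    rw [zero_pow Nat.card_pos.ne'] at hβ1'
    exact absurd hβ1' (by norm_num)
  rw [← sub_eq_zero, ← map_sub]
  refine H1mk_eq_zero_of_pow_eq_one C S (c - c') (β / β') ?_ fun g => ?_
  · rw [div_pow, hβ1, hβ1', div_self (by norm_num)]
  · have h1 : (c - c' : ↥(Z1 (levelS S) X)).1 g = c.1 g - c'.1 g := rfl
    have h2 : C.ι (c'.1 g) ≠ 0 := C.ne_zero _
    rw [map_div₀, hβ, hβ', h1, ← C.map_sub (c.1 g) (c'.1 g), mul_assoc, mul_div_assoc,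
      mul_div_mul_left _ _ h2]

/-- a nonzero class in `Pm` forces a nonzero invariant element (`-1 ∈ μ_n`). -/
theorem Pm.two_le_card {x : HS1 S X} (h : Pm C S x) (hx : x ≠ 0) :
    2 ≤ Nat.card ↥X.ρ.invariants := by
  obtain ⟨c, rfl, β, hβ1, hβ⟩ := h
  have heven : Even (Nat.card X) := by
    by_contra hodd
    rw [Nat.not_even_iff_odd] at hodd
    apply hx
    refine H1mk_eq_zero_of_pow_eq_one C S c (-β) ?_ fun g => ?_
    · rw [hodd.neg_pow, hβ1, neg_neg]
    · rw [map_neg, hβ, mul_neg]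
  obtain ⟨y, hy⟩ := mem_range_of_pow_eq_one C (-1 : Qbar) heven.neg_one_pow
  have hy0 : y ≠ 0 := by
    rintro rfl
    rw [C.map_zero] at hy
    norm_num at hy
  have hyinv : y ∈ X.ρ.invariants := by
    intro g
    apply C.inj
    rw [C.equiv, hy, map_neg, map_one]
  haveI : Finite ↥X.ρ.invariants := Finite.of_injective (fun x => (x : X)) Subtype.val_injective
  haveI : Nontrivial ↥X.ρ.invariants :=
    ⟨⟨⟨y, hyinv⟩, 0, fun h => hy0 (congrArg Subtype.val h)⟩⟩
  exact Finite.one_lt_card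

/-- **(E2)** the Selmer group of `X ≅ μ_n` with conditions "unramified" outside `ℓS` and "unit
classes" at `ℓS` has at most `#X^GQ` elements. -/
theorem card_sel_le (ℓS : ↥S)
    (LQ : ∀ q : ↥S, Submodule ℤ (Hq1 X ((q : Nat.Primes) : ℕ)))
    (hur : ∀ q : ↥S, q ≠ ℓS →
      LQ q ≤ H1ur ((q : Nat.Primes) : ℕ) (Mq X ((q : Nat.Primes) : ℕ)))
    (hℓ : LQ ℓS ≤ HunitI ((ℓS : Nat.Primes) : ℕ) (Mq X ((ℓS : Nat.Primes) : ℕ))
      (ιloc C ((ℓS : Nat.Primes) : ℕ)) (isChar_ιloc C ((ℓS : Nat.Primes) : ℕ))) :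
    Finite ↥(Sel S X LQ) ∧ Nat.card ↥(Sel S X LQ) ≤ Nat.card ↥X.ρ.invariants := by
  classical
  -- every Selmer class is `0` or in `Pm`
  have key : ∀ x ∈ Sel S X LQ, x = 0 ∨ Pm C S x := by
    intro x hx
    obtain ⟨c, rfl⟩ := H1mk_surjective (levelS S) X x
    rw [mem_Sel_iff] at hx
    have hloc : ∀ q : Nat.Primes,
        UnitRad (q : ℕ) (fun τ => ιloc C (q : ℕ) (c.1 (rq (q : ℕ) τ))) := by
      intro q
      by_cases hqS : q ∈ S
      · by_cases hqℓ : (⟨q, hqS⟩ : ↥S) = ℓS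
        · subst hqℓ
          exact unitRad_of_res_mem_HunitI C (q : ℕ) S c (hℓ (hx ⟨q, hqS⟩))
        · exact unitRad_of_mem_H1ur C (q : ℕ) S c (hur ⟨q, hqS⟩ hqℓ (hx ⟨q, hqS⟩))
      · exact unitRad_of_not_mem C (q : ℕ) S c hqS
    obtain ⟨β, hβ1 | hβ1, hβ⟩ := exists_kummer_pm C S c hloc
    · exact Or.inl (H1mk_eq_zero_of_pow_eq_one C S c β hβ1 hβ)
    · exact Or.inr ⟨c, rfl, β, hβ1, hβ⟩
  haveI : Finite ↥X.ρ.invariants := Finite.of_injective (fun x => (x : X)) Subtype.val_injective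
  by_cases hex : ∃ x : ↥(Sel S X LQ), x ≠ 0
  · obtain ⟨x₁, hx₁⟩ := hex
    have hx₁' : (x₁ : HS1 S X) ≠ 0 := fun h => hx₁ (Subtype.ext h)
    have hP₁ : Pm C S (x₁ : HS1 S X) := (key _ x₁.2).resolve_left hx₁'
    have hsurj : Function.Surjective (fun b : Bool => if b then x₁ else (0 : ↥(Sel S X LQ))) := by
      intro x
      by_cases hx0 : x = 0
      · exact ⟨false, by simp [hx0]⟩
      · have hx0' : (x : HS1 S X) ≠ 0 := fun h => hx0 (Subtype.ext h)
        have hP : Pm C S (x : HS1 S X) := (key _ x.2).resolve_left hx0'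
        exact ⟨true, by simpa using Subtype.ext (hP₁.eq C S hP)⟩
    haveI : Finite ↥(Sel S X LQ) := Finite.of_surjective _ hsurj
    refine ⟨inferInstance, ?_⟩
    have h2 := Nat.card_le_card_of_surjective _ hsurj
    have h3 : Nat.card Bool = 2 := by rw [Nat.card_eq_fintype_card, Fintype.card_bool]
    rw [h3] at h2
    exact h2.trans (hP₁.two_le_card C S hx₁')
  · push Not at hex
    haveI : Subsingleton ↥(Sel S X LQ) := ⟨fun a b => by rw [hex a, hex b]⟩
    refine ⟨inferInstance, ?_⟩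
    exact (Finite.card_le_one_iff_subsingleton.mpr inferInstance).trans Nat.card_pos

/-- **multiplicative constituent**: the input `hK` of `SelBound8.card_sel_le` with gain `t i = 1`,
from Claim L-mult (`LOCL/OrdPeu4.claimL_mult`). -/
theorem K_mult {M : Rep.{0} ℤ GQ} {m : ℕ} (D : ChainData S M m)
    (L : ∀ q : ↥S, Submodule ℤ (Hq1 M ((q : Nat.Primes) : ℕ))) (ℓS : ↥S) (i : ℕ)
    [Finite (D.X i)] (C : GlobChar (D.X i))
    (hℓ : Lquot D L i ℓS ≤
      HunitI ((ℓS : Nat.Primes) : ℕ) (Mq (D.X i) ((ℓS : Nat.Primes) : ℕ))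
        (ιloc C ((ℓS : Nat.Primes) : ℕ)) (isChar_ιloc C ((ℓS : Nat.Primes) : ℕ))) :
    Finite ↥(K ℓS D L i) ∧
      Nat.card ↥(K ℓS D L i) * 1 ≤ Nat.card ↥(D.X i).ρ.invariants := by
  rw [mul_one]
  refine card_sel_le C S ℓS (Lk S ℓS (D.X i) (Lquot D L i)) (fun q hq y hy => ?_)
    (fun y hy => ?_)
  · exact ((mem_Lk_iff S ℓS (D.X i) (Lquot D L i) q y).1 hy).2 hq
  · exact hℓ ((mem_Lk_iff S ℓS (D.X i) (Lquot D L i) ℓS y).1 hy).1

end Global

/-! ### construction of the character for a module of prime order with cyclotomic action -/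

section Construct

variable {Y : Type} [AddCommGroup Y] {ℓ : ℕ} [Fact ℓ.Prime]

theorem zsmul_eq_iff (hcard : Nat.card Y = ℓ) {ζ : Qbar} (hζ : IsPrimitiveRoot ζ ℓ) {x₀ : Y}
    (hx₀ : ∀ x : Y, x ∈ AddSubgroup.zmultiples x₀) (k k' : ℤ) :
    k • x₀ = k' • x₀ ↔ ζ ^ k = ζ ^ k' := by
  have hζ0 : ζ ≠ 0 := hζ.ne_zero (Fact.out : ℓ.Prime).ne_zero
  have hord : addOrderOf x₀ = ℓ := by
    rw [← hcard, ← Nat.card_zmultiples]
    have : AddSubgroup.zmultiples x₀ = ⊤ := by
      rw [eq_top_iff]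
      intro x _
      exact hx₀ x
    rw [this]
    exact Nat.card_congr (AddSubgroup.topEquiv (G := Y)).toEquiv
  have h1 : k • x₀ = k' • x₀ ↔ (ℓ : ℤ) ∣ k - k' := by
    rw [← sub_eq_zero, sub_eq_add_neg, ← sub_zsmul, ← hord]
    exact addOrderOf_dvd_iff_zsmul_eq_zero.symm
  have h2 : ζ ^ k = ζ ^ k' ↔ (ℓ : ℤ) ∣ k - k' := by
    rw [← hζ.zpow_eq_one_iff_dvd, zpow_sub₀ hζ0, div_eq_one_iff_eq (zpow_ne_zero _ hζ0)]
  rw [h1, h2]

/-- existence of the character: `X` of prime order `ℓ` on which `GQ` acts through the cyclotomic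
character (`g ζ = ζ ^ χ g`, `g x = χ g • x`). -/
theorem exists_globChar (X : Rep.{0} ℤ GQ) (hcard : Nat.card X = ℓ) {ζ : Qbar}
    (hζ : IsPrimitiveRoot ζ ℓ) (χ : GQ → ℕ) (hχζ : ∀ g : GQ, g ζ = ζ ^ χ g)
    (hχX : ∀ (g : GQ) (x : X), X.ρ g x = χ g • x) : Nonempty (GlobChar X) := by
  classical
  haveI : IsAddCyclic X := isAddCyclic_of_prime_card hcard
  obtain ⟨x₀, hx₀⟩ := IsAddCyclic.exists_generator (α := X)
  have hk : ∀ x : X, ∃ k : ℤ, k • x₀ = x := fun x => AddSubgroup.mem_zmultiples_iff.mp (hx₀ x)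
  choose kk hkk using hk
  have hiff := zsmul_eq_iff hcard hζ hx₀
  have hζ0 : ζ ≠ 0 := hζ.ne_zero (Fact.out : ℓ.Prime).ne_zero
  refine ⟨{ ι := fun x => ζ ^ kk x
            map_zero := ?_
            map_add := ?_
            inj := ?_
            equiv := ?_ }⟩
  · have h1 : kk 0 • x₀ = (0 : ℤ) • x₀ := by rw [hkk, zero_zsmul]
    rw [(hiff _ _).mp h1, zpow_zero]
  · intro a b
    have h1 : kk (a + b) • x₀ = (kk a + kk b) • x₀ := by rw [hkk, add_zsmul, hkk, hkk]
    show ζ ^ kk (a + b) = ζ ^ kk a * ζ ^ kk b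
    rw [(hiff _ _).mp h1, zpow_add₀ hζ0]
  · intro a b hab
    have h1 := (hiff _ _).mpr hab
    rw [hkk, hkk] at h1
    exact h1
  · intro g x
    show ζ ^ kk (X.ρ g x) = g (ζ ^ kk x)
    have h1 : kk (X.ρ g x) • x₀ = ((χ g : ℤ) * kk x) • x₀ := by
      rw [hkk, hχX, mul_zsmul, hkk, natCast_zsmul]
    rw [(hiff _ _).mp h1, map_zpow₀, hχζ, zpow_mul, zpow_natCast]

end Construct

end Fermat.Agent.MZ.SEL.MultConst8
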