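/-
Programme MZ (S15, Mazur), chapter SEL (helper8): **the final algebra of the descent**
("`#(M_P / ℓ^r)` bounded in `r` ⇒ the `P`-part of `M` has rank `0`"), with no completions,
localisations or idempotents.

`R` a commutative ring, `N` an `R`-module which is finitely generated as an abelian group, `P` a prime
ideal of `R` containing the prime number `ℓ`, `B : ℕ`.

* `rank_zero_of_pigeonhole` : if for every `r` there is `ε ∉ P` such that every `z : N` has a
  multiple `a • z`, `0 < a ≤ B`, with `ε • (a • z) ∈ ℓ^r • N`, then for every `z : N` there are `t ∉ P`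
  and `n > 0` with `n • (t • z) = 0`.
* `rank_zero_of_maps` : the same conclusion from additive maps `κ r : N →+ H r` whose images have at
  most `B` elements and whose kernels satisfy `κ r z = 0 → ε r • z ∈ ℓ^r • N` (`ε r ∉ P`).
-/
import Mathlib

set_option autoImplicit false
set_option linter.unusedSectionVars false
set_option linter.style.haveILetI false

namespace Fermat.Agent.MZ.SEL.RankZero8

/-- A finitely generated subgroup all of whose elements have a positive multiple in `W` has a uniform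
such multiple. -/
theorem exists_nat_smul_mem {N : Type*} [AddCommGroup N] [Module.Finite ℤ N]
    (T W : Submodule ℤ N) (h : ∀ y ∈ T, ∃ n : ℕ, 0 < n ∧ n • y ∈ W) :
    ∃ E : ℕ, 0 < E ∧ ∀ y ∈ T, E • y ∈ W := by
  classical
  haveI : IsNoetherian ℤ N := isNoetherian_of_isNoetherianRing_of_finite ℤ N
  obtain ⟨s, hs⟩ : T.FG := IsNoetherian.noetherian T
  have hsT : ∀ y ∈ s, y ∈ T := fun y hy => hs ▸ Submodule.subset_span hy
  let n : N → ℕ := fun y => if hy : y ∈ T then (h y hy).choose else 1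
  have hn_pos : ∀ y, 0 < n y := by
    intro y
    by_cases hy : y ∈ T
    · simp only [n, dif_pos hy]; exact (h y hy).choose_spec.1
    · simp only [n, dif_neg hy]; exact Nat.one_pos
  have hn_mem : ∀ y ∈ T, n y • y ∈ W := by
    intro y hy
    simp only [n, dif_pos hy]; exact (h y hy).choose_spec.2
  refine ⟨∏ y ∈ s, n y, Finset.prod_pos fun y _ => hn_pos y, ?_⟩
  intro y hy
  rw [← hs] at hy
  induction hy using Submodule.span_induction with
  | mem x hx =>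
    have hdvd : n x ∣ ∏ y ∈ s, n y := Finset.dvd_prod_of_mem n hx
    obtain ⟨d, hd⟩ := hdvd
    rw [hd, mul_comm, mul_smul]
    exact W.smul_of_tower_mem d (hn_mem x (hsT x hx))
  | zero => rw [smul_zero]; exact W.zero_mem
  | add x y _ _ hx hy => rw [smul_add]; exact W.add_mem hx hy
  | smul a x _ hx => rw [smul_comm]; exact W.smul_mem a hx

section Main

variable {R N : Type*} [CommRing R] [AddCommGroup N] [Module R N] [Module.Finite ℤ N]
  (P : Ideal R) [hP : P.IsPrime] (ℓ : ℕ) (hℓ : ℓ.Prime) (hℓP : (ℓ : R) ∈ P)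

include hP hℓ hℓP in
/-- An integer prime to `ℓ` is not in `P`. -/
theorem natCast_not_mem {g : ℕ} (hg : ¬ ℓ ∣ g) : (g : R) ∉ P := by
  intro hgP
  have hcop : Nat.Coprime g ℓ := ((Nat.Prime.coprime_iff_not_dvd hℓ).2 hg).symm
  have h1 : ((Nat.gcd g ℓ : ℕ) : ℤ) = g * Nat.gcdA g ℓ + ℓ * Nat.gcdB g ℓ := Nat.gcd_eq_gcd_ab g ℓ
  rw [hcop] at h1
  have h2 : (1 : R) = (g : R) * ((Nat.gcdA g ℓ : ℤ) : R) + (ℓ : R) * ((Nat.gcdB g ℓ : ℤ) : R) := by
    have := congrArg (fun x : ℤ => (x : R)) h1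
    push_cast at this
    exact this
  apply hP.ne_top
  rw [Ideal.eq_top_iff_one, h2]
  exact P.add_mem (P.mul_mem_right _ hgP) (P.mul_mem_right _ hℓP)

include hP hℓ hℓP in
/-- **Rank zero from the pigeonhole form of boundedness.** -/
theorem rank_zero_of_pigeonhole (B : ℕ)
    (h : ∀ r : ℕ, ∃ ε : R, ε ∉ P ∧ ∀ z : N, ∃ a : ℕ, 0 < a ∧ a ≤ B ∧
      ∃ w : N, ε • (a • z) = (ℓ ^ r) • w) :
    ∀ z : N, ∃ t : R, t ∉ P ∧ ∃ n : ℕ, 0 < n ∧ n • (t • z) = 0 := by
  intro z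
  -- the torsion subgroup and a uniform exponent `e₀`
  let Tor : Submodule ℤ N :=
    { carrier := {x | ∃ n : ℕ, 0 < n ∧ n • x = 0}
      add_mem' := by
        rintro x y ⟨n, hn, hx⟩ ⟨n', hn', hy⟩
        refine ⟨n * n', Nat.mul_pos hn hn', ?_⟩
        have e1 : (n * n') • x = 0 := by rw [mul_comm, mul_smul, hx, smul_zero]
        have e2 : (n * n') • y = 0 := by rw [mul_smul, hy, smul_zero]
        rw [smul_add, e1, e2, add_zero]
      zero_mem' := ⟨1, Nat.one_pos, smul_zero _⟩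
      smul_mem' := by
        rintro a x ⟨n, hn, hx⟩
        exact ⟨n, hn, by rw [smul_comm, hx, smul_zero]⟩ }
  obtain ⟨e₀, he₀, hTor⟩ := exists_nat_smul_mem Tor ⊥
    (fun y hy => by
      obtain ⟨n, hn, hy⟩ := hy
      exact ⟨n, hn, by rw [hy]; exact (⊥ : Submodule ℤ N).zero_mem⟩)
  have hTor' : ∀ y : N, (∃ n : ℕ, 0 < n ∧ n • y = 0) → e₀ • y = 0 := fun y hy =>
    (Submodule.mem_bot ℤ).1 (hTor y hy)
  -- the cyclic `R`-module `W = R z`, as a subgroup, and its saturation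
  let W : Submodule ℤ N :=
    { carrier := {x | ∃ u : R, u • z = x}
      add_mem' := by
        rintro _ _ ⟨u, rfl⟩ ⟨u', rfl⟩
        exact ⟨u + u', add_smul _ _ _⟩
      zero_mem' := ⟨0, zero_smul _ _⟩
      smul_mem' := by
        rintro a _ ⟨u, rfl⟩
        refine ⟨(a : R) * u, ?_⟩
        rw [mul_smul, Int.cast_smul_eq_zsmul] }
  let Sat : Submodule ℤ N :=
    { carrier := {y | ∃ n : ℕ, 0 < n ∧ n • y ∈ W}
      add_mem' := by
        rintro x y ⟨n, hn, hx⟩ ⟨n', hn', hy⟩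
        refine ⟨n * n', Nat.mul_pos hn hn', ?_⟩
        rw [smul_add]
        refine W.add_mem ?_ ?_
        · rw [mul_comm, mul_smul]; exact W.smul_of_tower_mem n' hx
        · rw [mul_smul]; exact W.smul_of_tower_mem n hy
      zero_mem' := ⟨1, Nat.one_pos, by rw [smul_zero]; exact W.zero_mem⟩
      smul_mem' := by
        rintro a x ⟨n, hn, hx⟩
        exact ⟨n, hn, by rw [smul_comm]; exact W.smul_mem a hx⟩ }
  obtain ⟨E, hE, hSat⟩ := exists_nat_smul_mem Sat W (fun y hy => hy)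
  -- `E e₀ = ℓ^c g`, `g` prime to `ℓ`
  obtain ⟨c, g, hg, hEe⟩ := Nat.exists_eq_pow_mul_and_not_dvd (Nat.mul_pos hE he₀).ne' ℓ
    hℓ.ne_one
  -- choose `r`
  obtain ⟨ε, hε, hz⟩ := h (B + c + 1)
  obtain ⟨a, ha, haB, w, hw⟩ := hz z
  obtain ⟨s, a', ha', has⟩ := Nat.exists_eq_pow_mul_and_not_dvd ha.ne' ℓ hℓ.ne_one
  have hsB : s ≤ B := by
    have h1 : ℓ ^ s ≤ a := by
      rw [has]; exact Nat.le_mul_of_pos_right _ (Nat.pos_of_ne_zero fun h0 => ha' (h0 ▸ dvd_zero _))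
    have h2 : s < ℓ ^ s := Nat.lt_pow_self hℓ.one_lt
    omega
  obtain ⟨t, ht⟩ : ∃ t : R, t = (a' : R) * ε := ⟨_, rfl⟩
  have htP : t ∉ P := fun h0 =>
    (hP.mem_or_mem (ht ▸ h0)).elim (natCast_not_mem P ℓ hℓ hℓP ha') hε
  obtain ⟨k, hk⟩ : ∃ k : ℕ, k = B + c + 1 - s := ⟨_, rfl⟩
  have hkc : c < k := by omega
  have hrk : B + c + 1 = s + k := by omega
  -- `ℓ^s • (t z - ℓ^k w) = 0`
  have h1 : (ℓ ^ s) • (t • z - (ℓ ^ k) • w) = 0 := by
    have h2 : (ℓ ^ s) • (t • z) = ε • (a • z) := by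
      rw [ht, has, mul_smul, Nat.cast_smul_eq_nsmul, ← mul_smul]
      exact smul_comm _ _ _
    rw [smul_sub, h2, hw, hrk, pow_add, mul_smul, sub_self]
  have h3 : e₀ • (t • z) = e₀ • ((ℓ ^ k) • w) := by
    have := hTor' _ ⟨ℓ ^ s, Nat.pos_of_ne_zero (pow_ne_zero _ hℓ.ne_zero), h1⟩
    rw [smul_sub, sub_eq_zero] at this
    exact this
  -- `e₀ w ∈ Sat`
  have h4 : e₀ • w ∈ Sat := by
    refine ⟨ℓ ^ k, Nat.pos_of_ne_zero (pow_ne_zero _ hℓ.ne_zero), ?_⟩
    rw [smul_comm, ← h3]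
    refine ⟨(e₀ : R) * t, ?_⟩
    rw [mul_smul, Nat.cast_smul_eq_nsmul]
  obtain ⟨u, hu⟩ := hSat _ h4
  -- `ℓ^c • ((g t - ℓ^(k-c) u) z) = 0`
  refine ⟨(g : R) * t - ((ℓ ^ (k - c) : ℕ) : R) * u, ?_, ℓ ^ c,
    Nat.pos_of_ne_zero (pow_ne_zero _ hℓ.ne_zero), ?_⟩
  · intro h0
    have h5 : ((ℓ ^ (k - c) : ℕ) : R) * u ∈ P := by
      refine P.mul_mem_right _ ?_
      have : k - c = (k - c - 1) + 1 := by omega
      rw [this, pow_succ, Nat.cast_mul]
      exact P.mul_mem_left _ hℓP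
    have h6 : (g : R) * t ∈ P := by
      have := P.add_mem h0 h5
      rwa [sub_add_cancel] at this
    exact (hP.mem_or_mem h6).elim (natCast_not_mem P ℓ hℓ hℓP hg) htP
  · have e1 : ((g : R) * t - ((ℓ ^ (k - c) : ℕ) : R) * u) • z =
        g • (t • z) - (ℓ ^ (k - c)) • (u • z) := by
      rw [sub_smul, mul_smul, mul_smul, Nat.cast_smul_eq_nsmul, Nat.cast_smul_eq_nsmul]
    rw [e1, smul_sub, hu]
    -- `ℓ^c g t z = E e₀ t z = ℓ^k E e₀ w`
    have h7 : (ℓ ^ c) • (g • (t • z)) = (E * e₀) • (t • z) := by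
      rw [← mul_smul, ← hEe]
    have h8 : (ℓ ^ c) • ((ℓ ^ (k - c)) • (E • (e₀ • w))) = (ℓ ^ k) • (E • (e₀ • w)) := by
      rw [← mul_smul, ← pow_add]
      congr 2
      omega
    rw [h7, h8, mul_smul, h3, smul_comm e₀ (ℓ ^ k), smul_comm E (ℓ ^ k), sub_self]

include hP hℓ hℓP in
/-- **Rank zero from maps with small images** (the form delivered by the descent). -/
theorem rank_zero_of_maps (B : ℕ) {H : ℕ → Type*} [∀ r, AddCommGroup (H r)]
    (ε : ℕ → R) (hε : ∀ r, ε r ∉ P) (κ : ∀ r, N →+ H r)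
    (hcard : ∀ r, ∃ s : Finset (H r), s.card ≤ B ∧ ∀ z, κ r z ∈ s)
    (hker : ∀ r z, κ r z = 0 → ∃ w : N, ε r • z = (ℓ ^ r) • w) :
    ∀ z : N, ∃ t : R, t ∉ P ∧ ∃ n : ℕ, 0 < n ∧ n • (t • z) = 0 := by
  classical
  refine rank_zero_of_pigeonhole P ℓ hℓ hℓP B (fun r => ⟨ε r, hε r, fun z => ?_⟩)
  obtain ⟨s, hs, hmem⟩ := hcard r
  -- pigeonhole on `0 • z, 1 • z, …, B • z`
  have hmap : ∀ i ∈ Finset.range (B + 1), κ r (i • z) ∈ s := fun i _ => hmem _
  have hlt : s.card < (Finset.range (B + 1)).card := by rw [Finset.card_range]; omega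
  obtain ⟨i, hi, i', hi', hne, heq⟩ := Finset.exists_ne_map_eq_of_card_lt_of_maps_to hlt hmap
  rw [Finset.mem_range] at hi hi'
  wlog hlt' : i < i' generalizing i i'
  · exact this i' hi' i hi hne.symm heq.symm (lt_of_le_of_ne (not_lt.mp hlt') hne.symm)
  refine ⟨i' - i, by omega, by omega, ?_⟩
  refine hker r _ ?_
  have h1 : (i' - i) • z = i' • z - i • z := by
    rw [eq_sub_iff_add_eq, ← add_smul]
    congr 1
    omega
  rw [h1, map_sub, heq, sub_self]

end Main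

end Fermat.Agent.MZ.SEL.RankZero8
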