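/-
Programme MZ (S15, Mazur), chapter SEL (helper8): **the glue "bounded Selmer groups ⇒ (F)"** and the
**numeric end of the Selmer bound** (two primes `S = {p, ℓ}`, duality trick D5).

* `rank_zero_of_selmer` : `N` an `R`-module, f.g. over `ℤ`; for every `r` a group `H r`
  (`= H¹(G_S, G_r)`) with a finite subgroup `T r` (`= Sel`) of at most `C` elements, a map
  `κ r : N →+ H r` with `κ r (m₀ • z) ∈ T r` (`m₀` kills the local obstruction at `p`) and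
  `κ r z = 0 → ε r • z ∈ ℓ^r • N` (`ε r ∉ P`).  Then `∀ z, ∃ t ∉ P, ∃ n > 0, n • t • z = 0`.
* `card_sel_le_two` : `SelBound8.card_sel_le` for `S` consisting of `ℓS` and one more prime `pS`:
  `#Sel(M, L) * (∏_{i<m} t i) * #M^{I_p} ≤ #M * #M^GQ`.
* `card_sel_le_dual` : duality trick: from the bounds for two modules `G`, `G'` (`= G^*`) and the count
  `#G * #G' ≤ (∏ t) * (∏ t') * (#G^{I_p} * #G'^{I_p})`:  `#Sel(G, L) ≤ #G^GQ * #G'^GQ`.
-/
import Mathlib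
import Fermat.Agent.MZ.SEL.RankZero8
import Fermat.Agent.MZ.SEL.SelBound8

set_option autoImplicit false
set_option linter.unusedSectionVars false
set_option linter.style.haveILetI false

open Fermat.Agent.PT.PRO.LevelCoh28 Fermat.Agent.PT.PRO.LevelCohRes28
open Fermat.Agent.PT.GLUE.Objects21
open Fermat.Agent.TW.DEF.Basic1
open Fermat.Agent.TW.LOC.Defs2 (Iq H1ur)
open Fermat.Agent.MZ.SEL.Induced8 Fermat.Agent.MZ.SEL.Chain8 Fermat.Agent.MZ.SEL.Defect8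
open Fermat.Agent.MZ.SEL.ConstBound8 Fermat.Agent.MZ.SEL.SelBound8

namespace Fermat.Agent.MZ.SEL.RankZeroGlue8

section Glue

variable {R N : Type*} [CommRing R] [AddCommGroup N] [Module R N] [Module.Finite ℤ N]
  (P : Ideal R) [hP : P.IsPrime] (ℓ : ℕ) (hℓ : ℓ.Prime) (hℓP : (ℓ : R) ∈ P)

include hP hℓ hℓP in
/-- **Bounded Selmer groups ⇒ (F).** -/
theorem rank_zero_of_selmer (C m₀ : ℕ) (hm₀ : 0 < m₀) {H : ℕ → Type*} [∀ r, AddCommGroup (H r)]
    (ε : ℕ → R) (hε : ∀ r, ε r ∉ P) (κ : ∀ r, N →+ H r)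
    (T : ∀ r, AddSubgroup (H r)) (hfin : ∀ r, Finite ↥(T r)) (hcard : ∀ r, Nat.card ↥(T r) ≤ C)
    (hmem : ∀ r z, κ r (m₀ • z) ∈ T r)
    (hker : ∀ r z, κ r z = 0 → ∃ w : N, ε r • z = (ℓ ^ r) • w) :
    ∀ z : N, ∃ t : R, t ∉ P ∧ ∃ n : ℕ, 0 < n ∧ n • (t • z) = 0 := by
  classical
  refine RankZero8.rank_zero_of_pigeonhole P ℓ hℓ hℓP (C * m₀)
    (fun r => ⟨ε r, hε r, fun z => ?_⟩)
  haveI := hfin r
  -- pigeonhole on `i • m₀ • z`, `i ≤ C`
  let f : Fin (C + 1) → ↥(T r) := fun i => ⟨κ r ((i : ℕ) • (m₀ • z)), by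
    rw [smul_comm]
    exact hmem r _⟩
  have hninj : ¬ Function.Injective f := by
    intro hinj
    have h1 := Nat.card_le_card_of_injective f hinj
    rw [Nat.card_eq_fintype_card, Fintype.card_fin] at h1
    have := hcard r
    omega
  rw [Function.not_injective_iff] at hninj
  obtain ⟨i, i', heq, hne⟩ := hninj
  have heq' : κ r ((i : ℕ) • (m₀ • z)) = κ r ((i' : ℕ) • (m₀ • z)) := congrArg Subtype.val heq
  have hne' : (i : ℕ) ≠ (i' : ℕ) := fun h => hne (Fin.ext h)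
  have key : ∀ a b : ℕ, a < b → b ≤ C → κ r (a • (m₀ • z)) = κ r (b • (m₀ • z)) →
      ∃ a' : ℕ, 0 < a' ∧ a' ≤ C * m₀ ∧ ∃ w : N, ε r • (a' • z) = (ℓ ^ r) • w := by
    intro a b hab hbC hκ
    refine ⟨(b - a) * m₀, Nat.mul_pos (by omega) hm₀,
      Nat.mul_le_mul_right _ (by omega), ?_⟩
    refine hker r _ ?_
    have h1 : ((b - a) * m₀) • z = b • (m₀ • z) - a • (m₀ • z) := by
      rw [eq_sub_iff_add_eq, mul_smul, ← add_smul]
      congr 1
      omega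
    rw [h1, map_sub, hκ, sub_self]
  rcases lt_or_gt_of_ne hne' with h | h
  · exact key _ _ h (by have := i'.2; omega) heq'
  · exact key _ _ h (by have := i.2; omega) heq'.symm

end Glue

section Numeric

variable {k : Type} [CommRing k] {S : Finset Nat.Primes} (ℓS pS : ↥S)

/-- the Selmer bound for `S = {ℓS, pS}`. -/
theorem card_sel_le_two (hne : pS ≠ ℓS) (hS : ∀ q : ↥S, q = ℓS ∨ q = pS)
    {M : Rep.{0} k GQ} {m : ℕ} (D : ChainData S M m)
    (L : ∀ q : ↥S, Submodule k (Hq1 M ((q : Nat.Primes) : ℕ))) [Finite M]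
    (hL : ∀ q : ↥S, q ≠ ℓS →
      L q = H1ur ((q : Nat.Primes) : ℕ) (Mq M ((q : Nat.Primes) : ℕ)))
    (t : ℕ → ℕ)
    (hK : ∀ i, i < m → Finite ↥(K ℓS D L i) ∧
      Nat.card ↥(K ℓS D L i) * t i ≤ Nat.card ↥(D.X i).ρ.invariants) :
    Finite ↥(Sel S M L) ∧
      Nat.card ↥(Sel S M L) * (∏ i ∈ Finset.range m, t i) *
          Nat.card ↥(Ninv ((pS : Nat.Primes) : ℕ) M (⊥ : Submodule k M)) ≤
        Nat.card M * Nat.card ↥M.ρ.invariants := by
  classical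
  obtain ⟨hfin, h⟩ := SelBound8.card_sel_le ℓS D L hL t hK
  refine ⟨hfin, ?_⟩
  letI : Unique {q : ↥S // q ≠ ℓS} :=
    { default := ⟨pS, hne⟩
      uniq := fun q => Subtype.ext ((hS q.1).resolve_left q.2) }
  rw [Fintype.prod_unique, Fintype.card_unique, pow_one] at h
  exact h

/-- **duality trick**: the two Selmer bounds for `G` and `G'` and the count give
`#Sel(G) ≤ #G^GQ * #G'^GQ`. -/
theorem card_sel_le_dual (hne : pS ≠ ℓS) (hS : ∀ q : ↥S, q = ℓS ∨ q = pS)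
    {G G' : Rep.{0} k GQ} {m m' : ℕ} (D : ChainData S G m) (D' : ChainData S G' m')
    (L : ∀ q : ↥S, Submodule k (Hq1 G ((q : Nat.Primes) : ℕ)))
    (L' : ∀ q : ↥S, Submodule k (Hq1 G' ((q : Nat.Primes) : ℕ))) [Finite G] [Finite G']
    (hL : ∀ q : ↥S, q ≠ ℓS →
      L q = H1ur ((q : Nat.Primes) : ℕ) (Mq G ((q : Nat.Primes) : ℕ)))
    (hL' : ∀ q : ↥S, q ≠ ℓS →
      L' q = H1ur ((q : Nat.Primes) : ℕ) (Mq G' ((q : Nat.Primes) : ℕ)))
    (t t' : ℕ → ℕ)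
    (hK : ∀ i, i < m → Finite ↥(K ℓS D L i) ∧
      Nat.card ↥(K ℓS D L i) * t i ≤ Nat.card ↥(D.X i).ρ.invariants)
    (hK' : ∀ i, i < m' → Finite ↥(K ℓS D' L' i) ∧
      Nat.card ↥(K ℓS D' L' i) * t' i ≤ Nat.card ↥(D'.X i).ρ.invariants)
    (hcount : Nat.card G * Nat.card G' ≤
      (∏ i ∈ Finset.range m, t i) * (∏ i ∈ Finset.range m', t' i) *
        (Nat.card ↥(Ninv ((pS : Nat.Primes) : ℕ) G (⊥ : Submodule k G)) *
          Nat.card ↥(Ninv ((pS : Nat.Primes) : ℕ) G' (⊥ : Submodule k G')))) :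
    Finite ↥(Sel S G L) ∧
      Nat.card ↥(Sel S G L) ≤ Nat.card ↥G.ρ.invariants * Nat.card ↥G'.ρ.invariants := by
  obtain ⟨hfin, h1⟩ := card_sel_le_two ℓS pS hne hS D L hL t hK
  obtain ⟨hfin', h2⟩ := card_sel_le_two ℓS pS hne hS D' L' hL' t' hK'
  refine ⟨hfin, ?_⟩
  haveI := hfin'
  set sG := Nat.card ↥(Sel S G L)
  set sD := Nat.card ↥(Sel S G' L')
  set TG := ∏ i ∈ Finset.range m, t i
  set TD := ∏ i ∈ Finset.range m', t' i
  set iG := Nat.card ↥(Ninv ((pS : Nat.Primes) : ℕ) G (⊥ : Submodule k G))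
  set iD := Nat.card ↥(Ninv ((pS : Nat.Primes) : ℕ) G' (⊥ : Submodule k G'))
  set nG := Nat.card G
  set nD := Nat.card G'
  set hG := Nat.card ↥G.ρ.invariants
  set hD := Nat.card ↥G'.ρ.invariants
  have hsD : 0 < sD := Nat.card_pos
  have hnG : 0 < nG := Nat.card_pos
  have hnD : 0 < nD := Nat.card_pos
  have hpos : 0 < TG * TD * (iG * iD) := lt_of_lt_of_le (Nat.mul_pos hnG hnD) hcount
  have h3 : (TG * TD * (iG * iD)) * (sG * sD) ≤ (TG * TD * (iG * iD)) * (hG * hD) := by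
    calc (TG * TD * (iG * iD)) * (sG * sD) = (sG * TG * iG) * (sD * TD * iD) := by ring
      _ ≤ (nG * hG) * (nD * hD) := Nat.mul_le_mul h1 h2
      _ = (nG * nD) * (hG * hD) := by ring
      _ ≤ (TG * TD * (iG * iD)) * (hG * hD) := Nat.mul_le_mul_right _ hcount
  have h4 : sG * sD ≤ hG * hD := Nat.le_of_mul_le_mul_left h3 hpos
  calc sG = sG * 1 := (mul_one _).symm
    _ ≤ sG * sD := Nat.mul_le_mul_left _ hsD
    _ ≤ hG * hD := h4

end Numeric

end Fermat.Agent.MZ.SEL.RankZeroGlue8
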