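/-
Programme MZ (S15, Mazur), chapter SEL (helper8): **the Selmer bound, final form** (coefficients `ℤ`,
`S = {ℓS, pS}`).

* `Lquot_le_H1ur`, `Lquot_le_HunitI` : Claim L of `LOCL/OrdPeu4` transported to the induced conditions
  `Chain8.Lquot` (with `L ℓS = Lord ℓ (Mq M ℓ) B0` and `OrdPeu ℓ (Mq M ℓ) B0`);
* `hK_of_steps` : for a chain of stable submodules `C : SubChain M m` each of whose steps is EITHER of
  étale type (`E i`: trivial action on `F (i+1) / F i` and `F (i+1) ∩ B0 ⊆ F i`) OR carries a global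
  multiplicative character (`GlobChar (C.X i)`): the input `hK` of `SelBound8.card_sel_le` with
  gains `t i = if E i then #X i else 1`;
* `card_sel_le_final` : `#Sel(M, L) * (∏_{i<m} t i) * #M^{I_p} ≤ #M * #M^GQ`;
* `card_sel_le_final_dual` : duality trick, `#Sel(G, L) ≤ #G^GQ * #G'^GQ`.
-/
import Mathlib
import Fermat.Agent.MZ.LOCL.OrdPeu4
import Fermat.Agent.MZ.SEL.KBounds8
import Fermat.Agent.MZ.SEL.MultConst8
import Fermat.Agent.MZ.SEL.ChainOfSub8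
import Fermat.Agent.MZ.SEL.RankZeroGlue8

set_option autoImplicit false
set_option linter.unusedSectionVars false
set_option linter.style.haveILetI false

open Fermat.Agent.PT.PRO.LevelCoh28 Fermat.Agent.PT.PRO.LevelCohRes28
open Fermat.Agent.PT.GLUE.Objects21
open Fermat.Agent.TW.DEF.Basic1
open Fermat.Agent.TW.LOC.Defs2 (Iq H1ur)
open Fermat.Agent.MZ.LOCL.OrdPeu4
open Fermat.Agent.MZ.SEL.Induced8 Fermat.Agent.MZ.SEL.Chain8 Fermat.Agent.MZ.SEL.Defect8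
open Fermat.Agent.MZ.SEL.ConstBound8 Fermat.Agent.MZ.SEL.SelBound8
open Fermat.Agent.MZ.SEL.MultConst8 Fermat.Agent.MZ.SEL.ChainOfSub8

attribute [-instance] AddCommGroup.toIntModule

namespace Fermat.Agent.MZ.SEL.SelFinal8

variable {S : Finset Nat.Primes} (ℓS pS : ↥S)

/-! ### Claim L for the induced conditions -/

section ClaimL

variable {M : Rep.{0} ℤ GQ} {m : ℕ} (D : ChainData S M m)
  (L : ∀ q : ↥S, Submodule ℤ (Hq1 M ((q : Nat.Primes) : ℕ)))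
  (B0 : AddSubgroup (Mq M ((ℓS : Nat.Primes) : ℕ)))

/-- **Claim L-ét** for `Lquot`. -/
theorem Lquot_le_H1ur (hLℓ : L ℓS = Lord ((ℓS : Nat.Primes) : ℕ) (Mq M ((ℓS : Nat.Primes) : ℕ)) B0)
    (hOrd : OrdPeu ((ℓS : Nat.Primes) : ℕ) (Mq M ((ℓS : Nat.Primes) : ℕ)) B0) (i : ℕ)
    (het : ∀ a : D.G (i + 1), D.j (i + 1) a ∈ B0 → D.ψ i a = 0) :
    Lquot D L i ℓS ≤
      H1ur ((ℓS : Nat.Primes) : ℕ) (Mq (D.X i) ((ℓS : Nat.Primes) : ℕ)) := by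
  show ((L ℓS).comap (mapq1 (D.j (i + 1)) (D.hj (i + 1)) ((ℓS : Nat.Primes) : ℕ))).map
    (mapq1 (D.ψ i) (D.hψ i) ((ℓS : Nat.Primes) : ℕ)) ≤ _
  rw [hLℓ]
  exact claimL_et (locMap (D.j (i + 1)) ((ℓS : Nat.Primes) : ℕ))
    (locMap_equivariant (D.j (i + 1)) (D.hj (i + 1)) ((ℓS : Nat.Primes) : ℕ))
    (locMap (D.ψ i) ((ℓS : Nat.Primes) : ℕ))
    (locMap_equivariant (D.ψ i) (D.hψ i) ((ℓS : Nat.Primes) : ℕ)) hOrd het

/-- **Claim L-mult** for `Lquot`. -/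
theorem Lquot_le_HunitI (hLℓ : L ℓS = Lord ((ℓS : Nat.Primes) : ℕ) (Mq M ((ℓS : Nat.Primes) : ℕ)) B0)
    (hOrd : OrdPeu ((ℓS : Nat.Primes) : ℕ) (Mq M ((ℓS : Nat.Primes) : ℕ)) B0) (i : ℕ)
    (ι : Mq (D.X i) ((ℓS : Nat.Primes) : ℕ) → PadicAlgCl ((ℓS : Nat.Primes) : ℕ))
    (hι : IsChar ((ℓS : Nat.Primes) : ℕ) ⊤ ι) :
    Lquot D L i ℓS ≤
      HunitI ((ℓS : Nat.Primes) : ℕ) (Mq (D.X i) ((ℓS : Nat.Primes) : ℕ)) ι hι := by
  show ((L ℓS).comap (mapq1 (D.j (i + 1)) (D.hj (i + 1)) ((ℓS : Nat.Primes) : ℕ))).map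
    (mapq1 (D.ψ i) (D.hψ i) ((ℓS : Nat.Primes) : ℕ)) ≤ _
  rw [hLℓ]
  exact claimL_mult (locMap (D.j (i + 1)) ((ℓS : Nat.Primes) : ℕ))
    (locMap_equivariant (D.j (i + 1)) (D.hj (i + 1)) ((ℓS : Nat.Primes) : ℕ))
    (locMap (D.ψ i) ((ℓS : Nat.Primes) : ℕ))
    (locMap_equivariant (D.ψ i) (D.hψ i) ((ℓS : Nat.Primes) : ℕ)) hOrd (D.j_inj (i + 1)) ι hι

end ClaimL

/-! ### the steps of a chain of submodules -/

section Steps

variable {M : Rep.{0} ℤ GQ} {m : ℕ} (C : SubChain M m)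
  (hdisc : IsDiscrete (levelS S).sets M)
  (L : ∀ q : ↥S, Submodule ℤ (Hq1 M ((q : Nat.Primes) : ℕ)))
  (B0 : AddSubgroup (Mq M ((ℓS : Nat.Primes) : ℕ)))
  (E : ℕ → Prop) [DecidablePred E]

/-- the gains -/
noncomputable def gain (i : ℕ) : ℕ := if E i then Nat.card (C.X i) else 1

/-- **the input `hK` of the Selmer bound from the types of the steps.** -/
theorem hK_of_steps [Finite M]
    (hLℓ : L ℓS = Lord ((ℓS : Nat.Primes) : ℕ) (Mq M ((ℓS : Nat.Primes) : ℕ)) B0)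
    (hOrd : OrdPeu ((ℓS : Nat.Primes) : ℕ) (Mq M ((ℓS : Nat.Primes) : ℕ)) B0)
    (hE : ∀ i, i < m → E i →
      (∀ g : GQ, ∀ v ∈ C.F (i + 1), M.ρ g v - v ∈ C.F i) ∧
        ∀ v ∈ C.F (i + 1), v ∈ B0 → v ∈ C.F i)
    (hnE : ∀ i, i < m → ¬ E i → Nonempty (GlobChar (C.X i)))
    (i : ℕ) (hi : i < m) :
    Finite ↥(K ℓS (C.toChainData S hdisc) L i) ∧
      Nat.card ↥(K ℓS (C.toChainData S hdisc) L i) * gain C E i ≤
        Nat.card ↥((C.toChainData S hdisc).X i).ρ.invariants := by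
  unfold gain
  split_ifs with h
  · obtain ⟨htriv, het⟩ := hE i hi h
    refine KBounds8.K_etale ℓS (C.toChainData S hdisc) L i (C.X_trivial i htriv) ?_
    refine Lquot_le_H1ur ℓS (C.toChainData S hdisc) L B0 hLℓ hOrd i fun a ha => ?_
    exact (C.ψ_eq_zero_iff i a).mpr (het _ (a : ↥(C.F (i + 1))).2 ha)
  · obtain ⟨GC⟩ := hnE i hi h
    haveI : Finite ((C.toChainData S hdisc).X i) := finite_X (C.toChainData S hdisc) hi
    exact MultConst8.K_mult S (C.toChainData S hdisc) L ℓS i GC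
      (Lquot_le_HunitI ℓS (C.toChainData S hdisc) L B0 hLℓ hOrd i _ _)

include hdisc in
/-- **the Selmer bound, final form.** -/
theorem card_sel_le_final [Finite M] (hne : pS ≠ ℓS) (hS : ∀ q : ↥S, q = ℓS ∨ q = pS)
    (hLℓ : L ℓS = Lord ((ℓS : Nat.Primes) : ℕ) (Mq M ((ℓS : Nat.Primes) : ℕ)) B0)
    (hL : ∀ q : ↥S, q ≠ ℓS →
      L q = H1ur ((q : Nat.Primes) : ℕ) (Mq M ((q : Nat.Primes) : ℕ)))
    (hOrd : OrdPeu ((ℓS : Nat.Primes) : ℕ) (Mq M ((ℓS : Nat.Primes) : ℕ)) B0)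
    (hE : ∀ i, i < m → E i →
      (∀ g : GQ, ∀ v ∈ C.F (i + 1), M.ρ g v - v ∈ C.F i) ∧
        ∀ v ∈ C.F (i + 1), v ∈ B0 → v ∈ C.F i)
    (hnE : ∀ i, i < m → ¬ E i → Nonempty (GlobChar (C.X i))) :
    Finite ↥(Sel S M L) ∧
      Nat.card ↥(Sel S M L) * (∏ i ∈ Finset.range m, gain C E i) *
          Nat.card ↥(Ninv ((pS : Nat.Primes) : ℕ) M (⊥ : Submodule ℤ M)) ≤
        Nat.card M * Nat.card ↥M.ρ.invariants :=
  RankZeroGlue8.card_sel_le_two ℓS pS hne hS (C.toChainData S hdisc) L hL (gain C E)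
    (hK_of_steps ℓS C hdisc L B0 E hLℓ hOrd hE hnE)

end Steps

/-! ### duality trick -/

section Dual

variable {G G' : Rep.{0} ℤ GQ} {m m' : ℕ} (C : SubChain G m) (C' : SubChain G' m')
  (hdisc : IsDiscrete (levelS S).sets G) (hdisc' : IsDiscrete (levelS S).sets G')
  (L : ∀ q : ↥S, Submodule ℤ (Hq1 G ((q : Nat.Primes) : ℕ)))
  (L' : ∀ q : ↥S, Submodule ℤ (Hq1 G' ((q : Nat.Primes) : ℕ)))
  (B0 : AddSubgroup (Mq G ((ℓS : Nat.Primes) : ℕ)))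
  (B0' : AddSubgroup (Mq G' ((ℓS : Nat.Primes) : ℕ)))
  (E E' : ℕ → Prop) [DecidablePred E] [DecidablePred E']

include hdisc hdisc' in
/-- **the Selmer bound with the duality trick**: `#Sel(G, L) ≤ #G^GQ * #G'^GQ`. -/
theorem card_sel_le_final_dual [Finite G] [Finite G'] (hne : pS ≠ ℓS)
    (hS : ∀ q : ↥S, q = ℓS ∨ q = pS)
    (hLℓ : L ℓS = Lord ((ℓS : Nat.Primes) : ℕ) (Mq G ((ℓS : Nat.Primes) : ℕ)) B0)
    (hL : ∀ q : ↥S, q ≠ ℓS →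
      L q = H1ur ((q : Nat.Primes) : ℕ) (Mq G ((q : Nat.Primes) : ℕ)))
    (hOrd : OrdPeu ((ℓS : Nat.Primes) : ℕ) (Mq G ((ℓS : Nat.Primes) : ℕ)) B0)
    (hE : ∀ i, i < m → E i →
      (∀ g : GQ, ∀ v ∈ C.F (i + 1), G.ρ g v - v ∈ C.F i) ∧
        ∀ v ∈ C.F (i + 1), v ∈ B0 → v ∈ C.F i)
    (hnE : ∀ i, i < m → ¬ E i → Nonempty (GlobChar (C.X i)))
    (hLℓ' : L' ℓS = Lord ((ℓS : Nat.Primes) : ℕ) (Mq G' ((ℓS : Nat.Primes) : ℕ)) B0')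
    (hL' : ∀ q : ↥S, q ≠ ℓS →
      L' q = H1ur ((q : Nat.Primes) : ℕ) (Mq G' ((q : Nat.Primes) : ℕ)))
    (hOrd' : OrdPeu ((ℓS : Nat.Primes) : ℕ) (Mq G' ((ℓS : Nat.Primes) : ℕ)) B0')
    (hE' : ∀ i, i < m' → E' i →
      (∀ g : GQ, ∀ v ∈ C'.F (i + 1), G'.ρ g v - v ∈ C'.F i) ∧
        ∀ v ∈ C'.F (i + 1), v ∈ B0' → v ∈ C'.F i)
    (hnE' : ∀ i, i < m' → ¬ E' i → Nonempty (GlobChar (C'.X i)))
    (hcount : Nat.card G * Nat.card G' ≤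
      (∏ i ∈ Finset.range m, gain C E i) * (∏ i ∈ Finset.range m', gain C' E' i) *
        (Nat.card ↥(Ninv ((pS : Nat.Primes) : ℕ) G (⊥ : Submodule ℤ G)) *
          Nat.card ↥(Ninv ((pS : Nat.Primes) : ℕ) G' (⊥ : Submodule ℤ G')))) :
    Finite ↥(Sel S G L) ∧
      Nat.card ↥(Sel S G L) ≤ Nat.card ↥G.ρ.invariants * Nat.card ↥G'.ρ.invariants :=
  RankZeroGlue8.card_sel_le_dual ℓS pS hne hS (C.toChainData S hdisc) (C'.toChainData S hdisc')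
    L L' hL hL' (gain C E) (gain C' E')
    (hK_of_steps ℓS C hdisc L B0 E hLℓ hOrd hE hnE)
    (hK_of_steps ℓS C' hdisc' L' B0' E' hLℓ' hOrd' hE' hnE') hcount

end Dual

end Fermat.Agent.MZ.SEL.SelFinal8
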