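/-
Programme MZ (S15, Mazur), chapter SEL (helper8): **classification of the steps of a chain and the
Selmer bound in closed form** (coefficients `ℤ`).

`M : Rep ℤ GQ`, `C : SubChain M m` with ALL steps of prime order `ℓ` and of global type "trivial" or
"cyclotomic" (`c : GQ → ℕ`, `g ζ = ζ ^ c g` on `ℓ`-th roots of unity) — the output of CONST —, and a
subgroup `B0` (the multiplicative part at `ℓ`) such that inertia at `ℓ` acts trivially on `M / B0`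
(`het0`), through `c` on `B0` modulo the chain (`hB0`), and `c` is not `≡ 1 mod ℓ` on inertia if
`ℓ ≠ 2` (`hτ`).  With `Et C B0 i := (F (i+1) ∩ B0 ⊆ F i)` ("étale-type step"):

* `trivial_of_Et` : an étale-type step has trivial global action;
* `globChar_of_not_Et` : the other steps carry a global multiplicative character
  (`MultConst8.GlobChar`), `ℓ = 2` included;
* `card_B0_mul_prod` : `#B0 * ∏_{i<m} gainEt C B0 i = #M`;
* **`card_sel_le_types`** : `Finite Sel(M, L)` and `#Sel(M, L) * #M^{I_p} ≤ #M^GQ * #B0`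
  (`L = Lord` at `ℓ`, unramified at `p`; `S = {ℓ, p}`);
* **`card_sel_le_dual_types`** : for two such modules `M`, `M'` (`M' = M^*`) with
  `#B0 * #B0' = #M` and `#M ≤ #M^{I_p} * #M'^{I_p}`:  `#Sel(M, L) ≤ #M^GQ * #M'^GQ`.
-/
import Mathlib
import Fermat.Agent.MZ.SEL.SelFinal8

set_option autoImplicit false
set_option linter.unusedSectionVars false
set_option linter.style.haveILetI false

open Fermat.Agent.PT.PRO.LevelCoh28 Fermat.Agent.PT.PRO.LevelCohRes28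
open Fermat.Agent.PT.GLUE.Objects21
open Fermat.Agent.TW.DEF.Basic1
open Fermat.Agent.TW.LOC.Defs2 (Iq H1ur)
open Fermat.Agent.MZ.LOCL.OrdPeu4
open Fermat.Agent.MZ.SEL.Induced8 Fermat.Agent.MZ.SEL.Chain8 Fermat.Agent.MZ.SEL.Defect8
open Fermat.Agent.MZ.SEL.ConstBound8 Fermat.Agent.MZ.SEL.SelBound8
open Fermat.Agent.MZ.SEL.MultConst8 Fermat.Agent.MZ.SEL.ChainOfSub8

attribute [-instance] AddCommGroup.toIntModule

namespace Fermat.Agent.MZ.SEL.StepTypes8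

local notation "Qbar" => AlgebraicClosure ℚ

/-- Bézout: `c • v - v ∈ H`, `ℓ • v ∈ H`, `c ≢ 1 mod ℓ` ⇒ `v ∈ H`. -/
theorem mem_of_sub_mem {A : Type*} [AddCommGroup A] (H : AddSubgroup A) (v : A) (c ℓ : ℕ)
    (hℓ : ℓ.Prime) (hc : ¬ c ≡ 1 [MOD ℓ]) (h1 : c • v - v ∈ H) (h2 : ℓ • v ∈ H) : v ∈ H := by
  have hndvd : ¬ (ℓ : ℤ) ∣ (c : ℤ) - 1 := by
    intro h
    apply hc
    rw [Nat.modEq_iff_dvd]
    have : (1 : ℤ) - (c : ℤ) = -((c : ℤ) - 1) := by ring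
    rw [Nat.cast_one, this, dvd_neg]
    exact h
  have hcop : IsCoprime (ℓ : ℤ) ((c : ℤ) - 1) :=
    ((Nat.prime_iff_prime_int.mp hℓ).coprime_iff_not_dvd).2 hndvd
  obtain ⟨a, b, hab⟩ := hcop
  have h3 : ((c : ℤ) - 1) • v = c • v - v := by
    rw [sub_zsmul, natCast_zsmul, one_zsmul, sub_eq_add_neg]
  have h4 : v = a • (ℓ • v) + b • (c • v - v) := by
    rw [← h3, ← natCast_zsmul v ℓ, ← mul_zsmul, ← mul_zsmul, ← add_zsmul, hab, one_zsmul]
  rw [h4]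
  exact H.add_mem (H.zsmul_mem h2 a) (H.zsmul_mem h1 b)

section Steps

variable {M : Rep.{0} ℤ GQ} {m : ℕ} (C : SubChain M m) (B0 : AddSubgroup M)
  (ℓ : ℕ) [Fact ℓ.Prime]

/-- étale-type step: `F (i+1) ∩ B0 ⊆ F i`. -/
def Et (i : ℕ) : Prop := ∀ v ∈ C.F (i + 1), v ∈ B0 → v ∈ C.F i

variable {C} {ℓ}

/-- a step of order `ℓ` is killed by `ℓ`. -/
theorem nsmul_mem_of_card {i : ℕ} (hcard : Nat.card (C.X i) = ℓ) (v : M) (hv : v ∈ C.F (i + 1)) :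
    ℓ • v ∈ C.F i := by
  have h1 : ℓ • C.ψ i ⟨v, hv⟩ = 0 := by
    rw [← hcard]
    exact card_nsmul_eq_zero'
  rw [← map_nsmul, C.ψ_eq_zero_iff] at h1
  exact h1

/-- a step of order `ℓ` is not trivial. -/
theorem exists_not_mem_of_card {i : ℕ} (hcard : Nat.card (C.X i) = ℓ) :
    ¬ ∀ v ∈ C.F (i + 1), v ∈ C.F i := by
  intro h
  haveI : Subsingleton (C.X i) := by
    refine ⟨fun a b => ?_⟩
    obtain ⟨a', rfl⟩ := C.ψ_surjective i a
    obtain ⟨b', rfl⟩ := C.ψ_surjective i b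
    rw [(C.ψ_eq_zero_iff i a').2 (h _ (a' : ↥(C.F (i + 1))).2),
      (C.ψ_eq_zero_iff i b').2 (h _ (b' : ↥(C.F (i + 1))).2)]
  have h1 : Nat.card (C.X i) = 1 := Nat.card_of_subsingleton (0 : C.X i)
  rw [hcard] at h1
  exact (Fact.out : ℓ.Prime).one_lt.ne' h1

variable (c : GQ → ℕ)

/-- the cyclotomic exponent is odd when `ℓ = 2`. -/
theorem odd_of_two (hc : ∀ (g : GQ) (ζ : Qbar), ζ ^ ℓ = 1 → g ζ = ζ ^ c g) (h2 : ℓ = 2) (g : GQ) :
    Odd (c g) := by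
  have h1 := hc g (-1) (by rw [h2]; norm_num)
  rw [map_neg, map_one] at h1
  by_contra hodd
  rw [Nat.not_odd_iff_even] at hodd
  rw [hodd.neg_one_pow] at h1
  norm_num at h1

section Classify

variable (hcard : ∀ i, i < m → Nat.card (C.X i) = ℓ)
  (htype : ∀ i, i < m → (∀ g : GQ, ∀ v ∈ C.F (i + 1), M.ρ g v - v ∈ C.F i) ∨
    (∀ g : GQ, ∀ v ∈ C.F (i + 1), M.ρ g v - c g • v ∈ C.F i))
  (hc : ∀ (g : GQ) (ζ : Qbar), ζ ^ ℓ = 1 → g ζ = ζ ^ c g)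
  (het0 : ∀ τ ∈ Iq ℓ, ∀ b : M, M.ρ (rq ℓ τ) b - b ∈ B0)
  (hB0 : ∀ τ ∈ Iq ℓ, ∀ i, i < m → ∀ x ∈ C.F (i + 1), x ∈ B0 →
    M.ρ (rq ℓ τ) x - c (rq ℓ τ) • x ∈ C.F i)
  (hτ : ℓ ≠ 2 → ∃ τ ∈ Iq ℓ, ¬ c (rq ℓ τ) ≡ 1 [MOD ℓ])

include hcard htype hc het0 hτ in
/-- **an étale-type step has trivial global action.** -/
theorem trivial_of_Et (i : ℕ) (hi : i < m) (hEt : Et C B0 i) :
    ∀ g : GQ, ∀ v ∈ C.F (i + 1), M.ρ g v - v ∈ C.F i := by
  rcases htype i hi with h | h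
  · exact h
  by_cases h2 : ℓ = 2
  · intro g v hv
    obtain ⟨k, hk⟩ := odd_of_two c hc h2 g
    have h3 : ℓ • v ∈ C.F i := nsmul_mem_of_card (hcard i hi) v hv
    have h4 : c g • v - v = k • (ℓ • v) := by
      rw [hk, h2, add_nsmul, one_nsmul, add_sub_cancel_right, mul_comm, mul_nsmul']
    have h5 : M.ρ g v - v = (M.ρ g v - c g • v) + (c g • v - v) := by abel
    rw [h5, h4]
    exact (C.F i).add_mem (h g v hv) ((C.F i).toAddSubgroup.nsmul_mem h3 k)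
  · obtain ⟨τ, hτI, hτc⟩ := hτ h2
    exfalso
    apply exists_not_mem_of_card (hcard i hi)
    intro v hv
    refine mem_of_sub_mem (C.F i).toAddSubgroup v (c (rq ℓ τ)) ℓ Fact.out hτc ?_
      (nsmul_mem_of_card (hcard i hi) v hv)
    have a1 : M.ρ (rq ℓ τ) v - v ∈ C.F i :=
      hEt _ ((C.F (i + 1)).sub_mem (C.stable (i + 1) _ hv) hv) (het0 τ hτI v)
    have a2 : M.ρ (rq ℓ τ) v - c (rq ℓ τ) • v ∈ C.F i := h (rq ℓ τ) v hv
    have h5 : c (rq ℓ τ) • v - v = (M.ρ (rq ℓ τ) v - v) - (M.ρ (rq ℓ τ) v - c (rq ℓ τ) • v) := by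
      abel
    rw [h5]
    exact (C.F i).sub_mem a1 a2

include hcard htype hc hB0 hτ in
/-- **a step which is not of étale type carries a global multiplicative character.** -/
theorem globChar_of_not_Et (i : ℕ) (hi : i < m) (hnEt : ¬ Et C B0 i) :
    Nonempty (GlobChar (C.X i)) := by
  unfold Et at hnEt
  push Not at hnEt
  obtain ⟨v, hv, hvB, hvF⟩ := hnEt
  have hℓ0 : (ℓ : Qbar) ≠ 0 := by exact_mod_cast (Fact.out : ℓ.Prime).ne_zero
  haveI : NeZero (ℓ : Qbar) := ⟨hℓ0⟩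
  rcases htype i hi with h | h
  · by_cases h2 : ℓ = 2
    · subst h2
      exact exists_globChar (C.X i) (hcard i hi) (ζ := -1)
        (IsPrimitiveRoot.neg_one 0 (by norm_num)) (fun _ => 1)
        (fun g => by rw [map_neg, map_one, pow_one])
        (fun g x => by rw [one_smul]; exact C.X_trivial i h g x)
    · obtain ⟨τ, hτI, hτc⟩ := hτ h2
      exfalso
      apply hvF
      refine mem_of_sub_mem (C.F i).toAddSubgroup v (c (rq ℓ τ)) ℓ Fact.out hτc ?_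
        (nsmul_mem_of_card (hcard i hi) v hv)
      have a1 : M.ρ (rq ℓ τ) v - v ∈ C.F i := h _ v hv
      have a2 : M.ρ (rq ℓ τ) v - c (rq ℓ τ) • v ∈ C.F i := hB0 τ hτI i hi v hv hvB
      have h5 : c (rq ℓ τ) • v - v =
          (M.ρ (rq ℓ τ) v - v) - (M.ρ (rq ℓ τ) v - c (rq ℓ τ) • v) := by abel
      rw [h5]
      exact (C.F i).sub_mem a1 a2
  · obtain ⟨ζ, hζ⟩ := HasEnoughRootsOfUnity.exists_primitiveRoot Qbar ℓ
    exact exists_globChar (C.X i) (hcard i hi) hζ c (fun g => hc g ζ hζ.pow_eq_one)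
      (C.X_nsmul i c h)

end Classify

/-! ### the product formula `(∏ gains) * #B0 = #M` -/

section Count

open Classical in
/-- the gain of step `i`: its order if it is of étale type, `1` otherwise. -/
noncomputable def gainEt (C : SubChain M m) (B0 : AddSubgroup M) (i : ℕ) : ℕ :=
  if Et C B0 i then Nat.card (C.X i) else 1

theorem card_F_succ (i : ℕ) :
    Nat.card ↥(C.F (i + 1)) = Nat.card ↥(C.F i) * Nat.card (C.X i) :=
  Fermat.Agent.MZ.SEL.SelBound8.card_eq_mul_card_quot (C.mono i)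

/-- the part of `B0` in `F i`. -/
def Bi (C : SubChain M m) (B0 : AddSubgroup M) (i : ℕ) : AddSubgroup M :=
  B0 ⊓ (C.F i).toAddSubgroup

/-- the restriction of `ψ i` to `B0 ∩ F (i+1)`. -/
noncomputable def psiB (C : SubChain M m) (B0 : AddSubgroup M) (i : ℕ) :
    ↥(Bi C B0 (i + 1)) →+ C.X i where
  toFun x := C.ψ i ⟨(x : M), x.2.2⟩
  map_zero' := map_zero (C.ψ i)
  map_add' x y := map_add (C.ψ i) ⟨(x : M), x.2.2⟩ ⟨(y : M), y.2.2⟩

theorem card_ker_psiB (i : ℕ) :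
    Nat.card ↥(psiB C B0 i).ker = Nat.card ↥(Bi C B0 i) := by
  refine Nat.card_congr
    { toFun := fun x => ⟨((x : ↥(Bi C B0 (i + 1))) : M), (x : ↥(Bi C B0 (i + 1))).2.1,
        (C.ψ_eq_zero_iff i _).1 x.2⟩
      invFun := fun x => ⟨⟨(x : M), x.2.1, C.mono i x.2.2⟩, (C.ψ_eq_zero_iff i _).2 x.2.2⟩
      left_inv := fun x => rfl
      right_inv := fun x => rfl }

theorem card_Bi_succ (i : ℕ) :
    Nat.card ↥(Bi C B0 (i + 1)) = Nat.card ↥(Bi C B0 i) * Nat.card ↥(psiB C B0 i).range := by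
  rw [AddSubgroup.card_eq_card_quotient_mul_card_addSubgroup (psiB C B0 i).ker,
    card_ker_psiB, mul_comm]
  congr 1
  exact Nat.card_congr (QuotientAddGroup.quotientKerEquivRange (psiB C B0 i)).toEquiv

theorem range_psiB_of_Et (i : ℕ) (h : Et C B0 i) : Nat.card ↥(psiB C B0 i).range = 1 := by
  have : (psiB C B0 i).range = ⊥ := by
    rw [eq_bot_iff]
    rintro _ ⟨x, rfl⟩
    rw [AddSubgroup.mem_bot]
    exact (C.ψ_eq_zero_iff i _).2 (h _ x.2.2 x.2.1)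
  rw [this]
  exact Nat.card_eq_one_iff_unique.mpr ⟨inferInstance, ⟨0⟩⟩

theorem range_psiB_of_not_Et (i : ℕ) (hcard : Nat.card (C.X i) = ℓ) (h : ¬ Et C B0 i) :
    Nat.card ↥(psiB C B0 i).range = Nat.card (C.X i) := by
  unfold Et at h
  push Not at h
  obtain ⟨v, hv, hvB, hvF⟩ := h
  haveI : Fact (Nat.card (C.X i)).Prime := ⟨hcard ▸ (Fact.out : ℓ.Prime)⟩
  rcases AddSubgroup.eq_bot_or_eq_top_of_prime_card (psiB C B0 i).range with h0 | h0
  · exfalso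
    apply hvF
    have h1 : psiB C B0 i ⟨v, hvB, hv⟩ ∈ (psiB C B0 i).range := ⟨_, rfl⟩
    rw [h0, AddSubgroup.mem_bot] at h1
    exact (C.ψ_eq_zero_iff i _).1 h1
  · rw [h0]
    exact Nat.card_congr (AddSubgroup.topEquiv (G := C.X i)).toEquiv

/-- telescoping: `#(B0 ∩ F i) * ∏_{t<i} gain t = #F i`. -/
theorem card_Bi_mul_prod (hcard : ∀ i, i < m → Nat.card (C.X i) = ℓ) :
    ∀ i, i ≤ m → Nat.card ↥(Bi C B0 i) * ∏ t ∈ Finset.range i, gainEt C B0 t =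
      Nat.card ↥(C.F i) := by
  intro i
  induction i with
  | zero =>
    intro _
    rw [Finset.prod_range_zero, mul_one]
    have h1 : Nat.card ↥(C.F 0) = 1 := by
      rw [C.bot]
      exact Nat.card_eq_one_iff_unique.mpr ⟨inferInstance, ⟨0⟩⟩
    have h2 : Bi C B0 0 = ⊥ := by
      rw [eq_bot_iff]
      intro x hx
      have : x ∈ C.F 0 := hx.2
      rw [C.bot, Submodule.mem_bot] at this
      rw [AddSubgroup.mem_bot]
      exact this
    rw [h1, h2]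
    exact Nat.card_eq_one_iff_unique.mpr ⟨inferInstance, ⟨0⟩⟩
  | succ i ih =>
    intro hi
    have hi' : i < m := hi
    rw [Finset.prod_range_succ, card_F_succ, ← ih hi'.le, card_Bi_succ]
    unfold gainEt
    split_ifs with h
    · rw [range_psiB_of_Et (B0 := B0) i h]
      ring
    · rw [range_psiB_of_not_Et (B0 := B0) i (hcard i hi') h]
      ring

/-- **the product formula**: `#B0 * ∏_{i<m} gain i = #M`. -/
theorem card_B0_mul_prod (hcard : ∀ i, i < m → Nat.card (C.X i) = ℓ) :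
    Nat.card ↥B0 * ∏ t ∈ Finset.range m, gainEt C B0 t = Nat.card M := by
  have h := card_Bi_mul_prod (B0 := B0) hcard m le_rfl
  have h1 : Bi C B0 m = B0 := by
    apply le_antisymm inf_le_left
    intro x hx
    exact ⟨hx, by show x ∈ C.F m; rw [C.top]; exact Submodule.mem_top⟩
  have h2 : Nat.card ↥(C.F m) = Nat.card M := by
    rw [C.top]
    exact Nat.card_congr (Submodule.topEquiv (R := ℤ) (M := M)).toEquiv
  rw [h1, h2] at h
  exact h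

end Count

end Steps

/-! ### the Selmer bound in closed form -/

section Final

variable {S : Finset Nat.Primes} (ℓS pS : ↥S)

/-- the hypotheses on a module with its chain, collected. -/
structure TypeData (M : Rep.{0} ℤ GQ) (m : ℕ) (C : SubChain M m)
    (B0 : AddSubgroup (Mq M ((ℓS : Nat.Primes) : ℕ))) (c : GQ → ℕ) : Prop where
  card : ∀ i, i < m → Nat.card (C.X i) = ((ℓS : Nat.Primes) : ℕ)
  type : ∀ i, i < m → (∀ g : GQ, ∀ v ∈ C.F (i + 1), M.ρ g v - v ∈ C.F i) ∨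
    (∀ g : GQ, ∀ v ∈ C.F (i + 1), M.ρ g v - c g • v ∈ C.F i)
  cyc : ∀ τ ∈ Iq ((ℓS : Nat.Primes) : ℕ), ∀ i, i < m → ∀ x ∈ C.F (i + 1), x ∈ B0 →
    M.ρ (rq ((ℓS : Nat.Primes) : ℕ) τ) x - c (rq ((ℓS : Nat.Primes) : ℕ) τ) • x ∈ C.F i
  ord : OrdPeu ((ℓS : Nat.Primes) : ℕ) (Mq M ((ℓS : Nat.Primes) : ℕ)) B0

variable {M : Rep.{0} ℤ GQ} {m : ℕ} (C : SubChain M m)
  (hdisc : IsDiscrete (levelS S).sets M)
  (L : ∀ q : ↥S, Submodule ℤ (Hq1 M ((q : Nat.Primes) : ℕ)))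
  (B0 : AddSubgroup (Mq M ((ℓS : Nat.Primes) : ℕ))) (c : GQ → ℕ)

include hdisc in
/-- **the Selmer bound in closed form**: `#Sel(M, L) * #M^{I_p} ≤ #M^GQ * #B0`. -/
theorem card_sel_le_types [Finite M] (hne : pS ≠ ℓS) (hS : ∀ q : ↥S, q = ℓS ∨ q = pS)
    (hLℓ : L ℓS = Lord ((ℓS : Nat.Primes) : ℕ) (Mq M ((ℓS : Nat.Primes) : ℕ)) B0)
    (hL : ∀ q : ↥S, q ≠ ℓS →
      L q = H1ur ((q : Nat.Primes) : ℕ) (Mq M ((q : Nat.Primes) : ℕ)))
    (hc : ∀ (g : GQ) (ζ : Qbar), ζ ^ ((ℓS : Nat.Primes) : ℕ) = 1 → g ζ = ζ ^ c g)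
    (hτ : ((ℓS : Nat.Primes) : ℕ) ≠ 2 → ∃ τ ∈ Iq ((ℓS : Nat.Primes) : ℕ),
      ¬ c (rq ((ℓS : Nat.Primes) : ℕ) τ) ≡ 1 [MOD ((ℓS : Nat.Primes) : ℕ)])
    (T : TypeData ℓS M m C B0 c) :
    Finite ↥(Sel S M L) ∧
      Nat.card ↥(Sel S M L) *
          Nat.card ↥(Ninv ((pS : Nat.Primes) : ℕ) M (⊥ : Submodule ℤ M)) ≤
        Nat.card ↥M.ρ.invariants * Nat.card ↥B0 := by
  classical
  have het0 : ∀ τ ∈ Iq ((ℓS : Nat.Primes) : ℕ), ∀ b : M,
      M.ρ (rq ((ℓS : Nat.Primes) : ℕ) τ) b - b ∈ B0 := fun τ hτI b => T.ord.et τ hτI b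
  obtain ⟨hfin, h⟩ := SelFinal8.card_sel_le_final ℓS pS C hdisc L B0 (Et C B0) hne hS hLℓ hL T.ord
    (fun i hi hE => ⟨trivial_of_Et (B0 := B0) c T.card T.type hc het0 hτ i hi hE, hE⟩)
    (fun i hi hnE => globChar_of_not_Et (B0 := B0) c T.card T.type hc T.cyc hτ i hi hnE)
  refine ⟨hfin, ?_⟩
  have hprod : Nat.card ↥B0 * ∏ t ∈ Finset.range m, SelFinal8.gain C (Et C B0) t = Nat.card M := by
    have := card_B0_mul_prod (C := C) (B0 := B0) T.card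
    rw [← this]
    congr 1
  have hM : 0 < Nat.card M := Nat.card_pos
  set sM := Nat.card ↥(Sel S M L)
  set PG := ∏ t ∈ Finset.range m, SelFinal8.gain C (Et C B0) t
  set iM := Nat.card ↥(Ninv ((pS : Nat.Primes) : ℕ) M (⊥ : Submodule ℤ M))
  set hG := Nat.card ↥M.ρ.invariants
  set b := Nat.card ↥B0
  have h1 : Nat.card M * (sM * iM) ≤ Nat.card M * (hG * b) := by
    calc Nat.card M * (sM * iM) = (sM * PG * iM) * b := by rw [← hprod]; ring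
      _ ≤ (Nat.card M * hG) * b := Nat.mul_le_mul_right _ h
      _ = Nat.card M * (hG * b) := by ring
  exact Nat.le_of_mul_le_mul_left h1 hM

end Final

section Dual

variable {S : Finset Nat.Primes} (ℓS pS : ↥S)
  {M M' : Rep.{0} ℤ GQ} {m m' : ℕ} (C : SubChain M m) (C' : SubChain M' m')
  (hdisc : IsDiscrete (levelS S).sets M) (hdisc' : IsDiscrete (levelS S).sets M')
  (L : ∀ q : ↥S, Submodule ℤ (Hq1 M ((q : Nat.Primes) : ℕ)))
  (L' : ∀ q : ↥S, Submodule ℤ (Hq1 M' ((q : Nat.Primes) : ℕ)))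
  (B0 : AddSubgroup (Mq M ((ℓS : Nat.Primes) : ℕ)))
  (B0' : AddSubgroup (Mq M' ((ℓS : Nat.Primes) : ℕ))) (c : GQ → ℕ)

include hdisc hdisc' in
/-- **the Selmer bound, duality trick, closed form**: `#Sel(M, L) ≤ #M^GQ * #M'^GQ`. -/
theorem card_sel_le_dual_types [Finite M] [Finite M'] (hne : pS ≠ ℓS)
    (hS : ∀ q : ↥S, q = ℓS ∨ q = pS)
    (hLℓ : L ℓS = Lord ((ℓS : Nat.Primes) : ℕ) (Mq M ((ℓS : Nat.Primes) : ℕ)) B0)
    (hL : ∀ q : ↥S, q ≠ ℓS →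
      L q = H1ur ((q : Nat.Primes) : ℕ) (Mq M ((q : Nat.Primes) : ℕ)))
    (hLℓ' : L' ℓS = Lord ((ℓS : Nat.Primes) : ℕ) (Mq M' ((ℓS : Nat.Primes) : ℕ)) B0')
    (hL' : ∀ q : ↥S, q ≠ ℓS →
      L' q = H1ur ((q : Nat.Primes) : ℕ) (Mq M' ((q : Nat.Primes) : ℕ)))
    (hc : ∀ (g : GQ) (ζ : Qbar), ζ ^ ((ℓS : Nat.Primes) : ℕ) = 1 → g ζ = ζ ^ c g)
    (hτ : ((ℓS : Nat.Primes) : ℕ) ≠ 2 → ∃ τ ∈ Iq ((ℓS : Nat.Primes) : ℕ),
      ¬ c (rq ((ℓS : Nat.Primes) : ℕ) τ) ≡ 1 [MOD ((ℓS : Nat.Primes) : ℕ)])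
    (T : TypeData ℓS M m C B0 c) (T' : TypeData ℓS M' m' C' B0' c)
    (hB : Nat.card ↥B0 * Nat.card ↥B0' ≤ Nat.card M)
    (hI : Nat.card M ≤ Nat.card ↥(Ninv ((pS : Nat.Primes) : ℕ) M (⊥ : Submodule ℤ M)) *
      Nat.card ↥(Ninv ((pS : Nat.Primes) : ℕ) M' (⊥ : Submodule ℤ M'))) :
    Finite ↥(Sel S M L) ∧
      Nat.card ↥(Sel S M L) ≤ Nat.card ↥M.ρ.invariants * Nat.card ↥M'.ρ.invariants := by
  obtain ⟨hfin, h1⟩ := card_sel_le_types ℓS pS C hdisc L B0 c hne hS hLℓ hL hc hτ T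
  obtain ⟨hfin', h2⟩ := card_sel_le_types ℓS pS C' hdisc' L' B0' c hne hS hLℓ' hL' hc hτ T'
  refine ⟨hfin, ?_⟩
  haveI := hfin'
  set sM := Nat.card ↥(Sel S M L)
  set sD := Nat.card ↥(Sel S M' L')
  set iM := Nat.card ↥(Ninv ((pS : Nat.Primes) : ℕ) M (⊥ : Submodule ℤ M))
  set iD := Nat.card ↥(Ninv ((pS : Nat.Primes) : ℕ) M' (⊥ : Submodule ℤ M'))
  set hG := Nat.card ↥M.ρ.invariants
  set hD := Nat.card ↥M'.ρ.invariants
  set b := Nat.card ↥B0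
  set b' := Nat.card ↥B0'
  have hsD : 0 < sD := Nat.card_pos
  have hM : 0 < Nat.card M := Nat.card_pos
  have h3 : Nat.card M * (sM * sD) ≤ Nat.card M * (hG * hD) := by
    calc Nat.card M * (sM * sD) ≤ (iM * iD) * (sM * sD) := Nat.mul_le_mul_right _ hI
      _ = (sM * iM) * (sD * iD) := by ring
      _ ≤ (hG * b) * (hD * b') := Nat.mul_le_mul h1 h2
      _ = (b * b') * (hG * hD) := by ring
      _ ≤ Nat.card M * (hG * hD) := Nat.mul_le_mul_right _ hB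
  have h4 : sM * sD ≤ hG * hD := Nat.le_of_mul_le_mul_left h3 hM
  calc sM = sM * 1 := (mul_one _).symm
    _ ≤ sM * sD := Nat.mul_le_mul_left _ hsD
    _ ≤ hG * hD := h4

end Dual

end Fermat.Agent.MZ.SEL.StepTypes8
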