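/-
Programme MZ (S15, Mazur), chapter SEL (helper8): **the Selmer bound with the duality trick — final
one-stop statement.**

`M, M' : Rep ℤ GQ` in perfect Galois-equivariant duality (`P : DualChain8.PerfPair M M'`), `M` with a
chain `C` all of whose steps have order `ℓ` and global type "trivial" or "cyclotomic" (CONST), the
multiplicative part `B0` of `M` at `ℓ` (ORDL: `OrdPeu` for `(M, B0)` and for `(M', B0^⊥)`), `c` a
cyclotomic exponent on `n`-th roots of unity (`n` kills `M`, `ℓ ∣ n`), and the inertia count at `p`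
(`#M ≤ #M^{I_p} * #M'^{I_p}`):

  `Finite Sel(M, L)` and `#Sel(M, L) ≤ #M^GQ * #M'^GQ`     (`card_sel_le_perfPair`)

for `L = Lord ℓ B0` at `ℓ`, unramified at `p` (`S = {ℓ, p}`).  The type data of the dual chain are
derived here (`typeData_dual`).
-/
import Mathlib
import Fermat.Agent.MZ.SEL.StepTypes8
import Fermat.Agent.MZ.SEL.DualChain8
import Fermat.Agent.MZ.SEL.LocalCond8

set_option autoImplicit false
set_option linter.unusedSectionVars false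
set_option linter.style.haveILetI false

open Fermat.Agent.PT.PRO.LevelCoh28 Fermat.Agent.PT.PRO.LevelCohRes28
open Fermat.Agent.PT.GLUE.Objects21
open Fermat.Agent.TW.DEF.Basic1
open Fermat.Agent.TW.LOC.Defs2 (Iq H1ur)
open Fermat.Agent.MZ.LOCL.OrdPeu4
open Fermat.Agent.MZ.SEL.Defect8
open Fermat.Agent.MZ.SEL.ChainOfSub8 Fermat.Agent.MZ.SEL.StepTypes8
open Fermat.Agent.MZ.SEL.DualChain8 Fermat.Agent.MZ.SEL.LocalCond8

attribute [-instance] AddCommGroup.toIntModule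

namespace Fermat.Agent.MZ.SEL.SelDual8

local notation "Qbar" => AlgebraicClosure ℚ

variable {S : Finset Nat.Primes} (ℓS pS : ↥S)
  {M M' : Rep.{0} ℤ GQ} (P : PerfPair M M') {m : ℕ} (C : SubChain M m)
  (B0 : AddSubgroup (Mq M ((ℓS : Nat.Primes) : ℕ))) (c : GQ → ℕ)

/-- the dual of the multiplicative part, as a subgroup of the local module of `M'`. -/
def B0dual : AddSubgroup (Mq M' ((ℓS : Nat.Primes) : ℕ)) := P.annihAdd B0

/-- **the type data of the dual chain.** -/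
theorem typeData_dual [Finite M] (n : ℕ) (hn : ∀ x : M, n • x = 0)
    (hℓn : ((ℓS : Nat.Primes) : ℕ) ∣ n)
    (hcn : ∀ (g : GQ) (ζ : Qbar), ζ ^ n = 1 → g ζ = ζ ^ c g)
    (T : TypeData ℓS M m C B0 c)
    (hOrd' : OrdPeu ((ℓS : Nat.Primes) : ℕ) (Mq M' ((ℓS : Nat.Primes) : ℕ)) (B0dual ℓS P B0)) :
    TypeData ℓS M' m (dualChain P C) (B0dual ℓS P B0) c := by
  have hc : ∀ (g : GQ) (ζ : Qbar), ζ ^ ((ℓS : Nat.Primes) : ℕ) = 1 → g ζ = ζ ^ c g := by
    intro g ζ hζ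
    obtain ⟨d, rfl⟩ := hℓn
    exact hcn g ζ (by rw [pow_mul, hζ, one_pow])
  refine ⟨fun j hj => ?_, fun j hj => ?_, fun τ hτ j hj x _ hx => ?_, hOrd'⟩
  · have hij : (m - 1 - j) + j + 1 = m := by omega
    rw [card_dual_X P C hij]
    exact T.card _ (by omega)
  · have hij : (m - 1 - j) + j + 1 = m := by omega
    have hi : m - 1 - j < m := by omega
    have hk : ∀ v ∈ C.F (m - 1 - j + 1), ((ℓS : Nat.Primes) : ℕ) • v ∈ C.F (m - 1 - j) :=
      fun v hv => nsmul_mem_of_card (T.card _ hi) v hv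
    rcases T.type _ hi with h | h
    · exact Or.inr (dual_cyc_of_trivial P C hij c _ hc hk h)
    · exact Or.inl (dual_trivial_of_cyc P C hij c _ hc hk h)
  · have h1 : M'.ρ (rq ((ℓS : Nat.Primes) : ℕ) τ) x = c (rq ((ℓS : Nat.Primes) : ℕ) τ) • x :=
      annih_cyc P B0 {g | ∃ τ ∈ Iq ((ℓS : Nat.Primes) : ℕ), rq ((ℓS : Nat.Primes) : ℕ) τ = g}
        (by
          rintro _ ⟨τ', hτ', rfl⟩
          exact ⟨τ'⁻¹, (Iq ((ℓS : Nat.Primes) : ℕ)).inv_mem hτ', map_inv _ _⟩)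
        c n hn hcn
        (by
          rintro _ ⟨τ', hτ', rfl⟩ b
          exact T.ord.et τ' hτ' b)
        _ ⟨τ, hτ, rfl⟩ x hx
    rw [h1, sub_self]
    exact Submodule.zero_mem _

variable (hdisc : IsDiscrete (levelS S).sets M) (hdisc' : IsDiscrete (levelS S).sets M')

include hdisc hdisc' in
/-- **the Selmer bound with the duality trick — final statement.** -/
theorem card_sel_le_perfPair [Finite M] (hne : pS ≠ ℓS) (hS : ∀ q : ↥S, q = ℓS ∨ q = pS)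
    (n : ℕ) (hn : ∀ x : M, n • x = 0) (hℓn : ((ℓS : Nat.Primes) : ℕ) ∣ n)
    (hcn : ∀ (g : GQ) (ζ : Qbar), ζ ^ n = 1 → g ζ = ζ ^ c g)
    (hτ : ((ℓS : Nat.Primes) : ℕ) ≠ 2 → ∃ τ ∈ Iq ((ℓS : Nat.Primes) : ℕ),
      ¬ c (rq ((ℓS : Nat.Primes) : ℕ) τ) ≡ 1 [MOD ((ℓS : Nat.Primes) : ℕ)])
    (T : TypeData ℓS M m C B0 c)
    (hOrd' : OrdPeu ((ℓS : Nat.Primes) : ℕ) (Mq M' ((ℓS : Nat.Primes) : ℕ)) (B0dual ℓS P B0))
    (hI : Nat.card M ≤ Nat.card ↥(Ninv ((pS : Nat.Primes) : ℕ) M (⊥ : Submodule ℤ M)) *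
      Nat.card ↥(Ninv ((pS : Nat.Primes) : ℕ) M' (⊥ : Submodule ℤ M'))) :
    Finite ↥(Sel S M (Lstd ℓS B0)) ∧
      Nat.card ↥(Sel S M (Lstd ℓS B0)) ≤
        Nat.card ↥M.ρ.invariants * Nat.card ↥M'.ρ.invariants := by
  haveI : Finite M' := P.finite'
  have hc : ∀ (g : GQ) (ζ : Qbar), ζ ^ ((ℓS : Nat.Primes) : ℕ) = 1 → g ζ = ζ ^ c g := by
    intro g ζ hζ
    obtain ⟨d, rfl⟩ := hℓn
    exact hcn g ζ (by rw [pow_mul, hζ, one_pow])
  exact card_sel_le_dual_types ℓS pS C (dualChain P C) hdisc hdisc' (Lstd ℓS B0)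
    (Lstd ℓS (B0dual ℓS P B0)) B0 (B0dual ℓS P B0) c hne hS (Lstd_self ℓS B0)
    (Lstd_of_ne ℓS B0) (Lstd_self ℓS (B0dual ℓS P B0)) (Lstd_of_ne ℓS (B0dual ℓS P B0)) hc hτ T
    (typeData_dual ℓS P C B0 c n hn hℓn hcn T hOrd')
    (le_of_eq (card_B0_mul_card_annih P B0)) hI

end Fermat.Agent.MZ.SEL.SelDual8
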