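/-
Programme MZ (S15, Mazur), chapter SEL (helper8): **the `SubChain` of a chain of `GQ`-stable subgroups
of `JZero N`**, on helper6's `ORDL/OrdPeuInst6.subRep G hGst` (THE `Rep` of Programme MZ).

`subChainOf F hF0 hFk hmono hst : SubChain (subRep G hGst) k` for `F : ℕ → AddSubgroup (JZero N)` with
`F 0 = ⊥`, `G ≤ F k`, monotone, `GQ`-stable (e.g. the output of `CONST/GrChain9.exists_chain_GP`);
`mem_subChainOf_F : x ∈ (subChainOf …).F i ↔ (x : JZero N) ∈ F i` (rfl), and the dictionary of the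
hypotheses of `StepTypes8.TypeData` in terms of the `F i`.
-/
import Mathlib
import Fermat.Agent.MZ.ORDL.OrdPeuInst6
import Fermat.Agent.MZ.SEL.ChainOfSub8

set_option autoImplicit false
set_option linter.unusedSectionVars false
set_option linter.style.haveILetI false

noncomputable section

open AlgebraicCurve ModularCurve
open Fermat.Agent.PT.PRO.LevelCoh28 Fermat.Agent.PT.PRO.LevelCohRes28
open Fermat.Agent.PT.GLUE.Objects21
open Fermat.Agent.TW.DEF.Basic1
open Fermat.Agent.MZ.ORDL.OrdPeuInst6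
open Fermat.Agent.MZ.SEL.ChainOfSub8

namespace Fermat.Agent.MZ.SEL.SubChainOf8

variable {N : ℕ} [NeZero N] {G : AddSubgroup (JZero N)} {hGst : ∀ σ : GQ, ∀ x ∈ G, σ • x ∈ G}

/-- a chain of `GQ`-stable subgroups of `JZero N` from `⊥` to (at least) `G`, as a `SubChain` of the
representation `subRep G hGst`. -/
def subChainOf {k : ℕ} (F : ℕ → AddSubgroup (JZero N)) (hF0 : F 0 = ⊥) (hFk : G ≤ F k)
    (hmono : ∀ i, F i ≤ F (i + 1)) (hst : ∀ i, ∀ σ : GQ, ∀ x ∈ F i, σ • x ∈ F i) :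
    SubChain (subRep G hGst) k where
  F i := AddSubgroup.toIntSubmodule ((F i).comap G.subtype)
  stable i g x hx := hst i g _ hx
  mono i x hx := hmono i hx
  bot := by
    rw [eq_bot_iff]
    intro x hx
    have h1 : ((x : ↥G) : JZero N) ∈ F 0 := hx
    rw [hF0, AddSubgroup.mem_bot] at h1
    rw [Submodule.mem_bot]
    exact Subtype.ext h1
  top := by
    rw [eq_top_iff]
    intro x _
    exact hFk (x : ↥G).2

variable {k : ℕ} (F : ℕ → AddSubgroup (JZero N)) (hF0 : F 0 = ⊥) (hFk : G ≤ F k)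
  (hmono : ∀ i, F i ≤ F (i + 1)) (hst : ∀ i, ∀ σ : GQ, ∀ x ∈ F i, σ • x ∈ F i)

theorem mem_subChainOf_F (i : ℕ) (x : subRep G hGst) :
    x ∈ (subChainOf (hGst := hGst) F hF0 hFk hmono hst).F i ↔ ((x : ↥G) : JZero N) ∈ F i :=
  Iff.rfl

/-- trivial global type of a step, from the chain in `JZero N`. -/
theorem type_trivial (i : ℕ) (h : ∀ σ : GQ, ∀ v ∈ F (i + 1), σ • v - v ∈ F i) (g : GQ)
    (v : subRep G hGst) (hv : v ∈ (subChainOf (hGst := hGst) F hF0 hFk hmono hst).F (i + 1)) :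
    (subRep G hGst).ρ g v - v ∈ (subChainOf (hGst := hGst) F hF0 hFk hmono hst).F i :=
  h g _ hv

/-- cyclotomic global type of a step, from the chain in `JZero N`. -/
theorem type_cyc (i : ℕ) (c : GQ → ℕ) (h : ∀ σ : GQ, ∀ v ∈ F (i + 1), σ • v - c σ • v ∈ F i)
    (g : GQ) (v : subRep G hGst)
    (hv : v ∈ (subChainOf (hGst := hGst) F hF0 hFk hmono hst).F (i + 1)) :
    (subRep G hGst).ρ g v - c g • v ∈ (subChainOf (hGst := hGst) F hF0 hFk hmono hst).F i := by
  have h1 := h g _ hv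
  rw [mem_subChainOf_F]
  have h2 : (((subRep G hGst).ρ g v - c g • v : subRep G hGst) : JZero N) =
      g • ((v : ↥G) : JZero N) - c g • ((v : ↥G) : JZero N) := by
    rw [AddSubgroup.coe_sub, AddSubgroup.coe_nsmul]
    rfl
  rw [h2]
  exact h1

/-- the order of a step, when `F (i+1) ≤ G`. -/
theorem card_X (i : ℕ) (hle : F (i + 1) ≤ G) :
    Nat.card ((subChainOf (hGst := hGst) F hF0 hFk hmono hst).X i) =
      (F i).relIndex (F (i + 1)) := by
  rw [SubChain.card_X]
  show ((F i).comap G.subtype).relIndex ((F (i + 1)).comap G.subtype) = _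
  rw [AddSubgroup.relIndex_comap, AddSubgroup.map_comap_eq, AddSubgroup.range_subtype,
    inf_eq_right.mpr hle]

end Fermat.Agent.MZ.SEL.SubChainOf8
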