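/-
Programme MZ (S15, Mazur), chapter SEL (helper8): **the `TypeData` instance for `G_P[ℓ^r]`**.

* `cExp ℓ r g` : the exponent of `g ∈ GQ` on the `ℓ^r`-th roots of unity of `ℚ̄` (from the `ℓ`-adic
  cyclotomic character `CycloChar8.cyclo`); `cExp_spec` (the hypothesis `hcn` of
  `SelDual8.card_sel_le_perfPair`), `cExp_modEq` (`≡ ExtCitation.cycloExp ℓ g mod ℓ`),
  `exists_cExp_not_modEq` (the hypothesis `hτ`), `isCycExp_modEq`;
* `typeData_of_chain` : `StepTypes8.TypeData` for `subRep G hGst` with the chain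
  `SubChainOf8.subChainOf F …`, `B0 = OrdPeuInst6.B0 ℓ (ℓ^r) G hGst`, `c = cExp ℓ r`, from a chain of
  `JZero N` of the shape produced by `CONST/GrChain9.exists_chain_GP`;
* `exists_typeData_GP` : the same for `G = GPa P (ℓ^r)` (chain from `exists_chain_GP`).
-/
import Mathlib
import Fermat.Agent.MZ.SEL.SubChainOf8
import Fermat.Agent.MZ.SEL.StepTypes8
import Fermat.Agent.MZ.CONST.GrChain9
import Fermat.Agent.ES.J.CycloChar8
import Fermat.Agent.TW.LOC.StrictOrdCard2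

set_option autoImplicit false
set_option linter.unusedSectionVars false
set_option linter.style.haveILetI false
set_option linter.style.longLine false

noncomputable section

open AlgebraicCurve ModularCurve
open Fermat.Agent.PT.PRO.LevelCoh28 Fermat.Agent.PT.PRO.LevelCohRes28
open Fermat.Agent.PT.GLUE.Objects21
open Fermat.Agent.TW.DEF.Basic1
open Fermat.Agent.TW.LOC.Defs2 (Iq H1ur)
open Fermat.Agent.TW.FLAT.Ordinary7 (IsCycExp exists_isCycExp)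
open Fermat.Agent.MZ.LOCL.OrdPeu4
open Fermat.Agent.MZ.ORDL.OrdPeuInst6 Fermat.Agent.MZ.ORDL.OrdMain6
open Fermat.Agent.MZ.SEL.ChainOfSub8 Fermat.Agent.MZ.SEL.SubChainOf8 Fermat.Agent.MZ.SEL.StepTypes8
open Fermat.Agent.MZ.CONST.GrChain9
open Fermat.Agent.ES.J.CycloChar8 (cyclo cyclo_spec modEq_of_pow_eq_pow)

attribute [-instance] AddCommGroup.toIntModule

namespace Fermat.Agent.MZ.SEL.TypeInst8

local notation "Qbar" => AlgebraicClosure ℚ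

/-! ### the exponent on `ℓ^r`-th roots of unity -/

section CExp

variable (ℓ : ℕ) [Fact ℓ.Prime] (r : ℕ)

/-- the exponent of `g` on the `ℓ^r`-th roots of unity of `ℚ̄`. -/
def cExp (g : GQ) : ℕ := ((cyclo ℓ g : ℤ_[ℓ]).toZModPow r).val

theorem cExp_spec (g : GQ) (ζ : Qbar) (hζ : ζ ^ ℓ ^ r = 1) : g ζ = ζ ^ cExp ℓ r g :=
  cyclo_spec ℓ g ζ hζ

variable {ℓ r}

/-- `cExp ℓ r` reduces modulo `ℓ` to the frozen `cycloExp ℓ`. -/
theorem cExp_modEq (hr : 0 < r) (g : GQ) : cExp ℓ r g ≡ ExtCitation.cycloExp ℓ g [MOD ℓ] := by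
  have hℓ : ℓ.Prime := Fact.out
  haveI : NeZero ℓ := ⟨hℓ.ne_zero⟩
  obtain ⟨ζ, hζ⟩ := HasEnoughRootsOfUnity.exists_primitiveRoot Qbar ℓ
  have h1 : ζ ^ ℓ ^ r = 1 := by
    obtain ⟨d, hd⟩ := dvd_pow_self ℓ hr.ne'
    rw [hd, pow_mul, hζ.pow_eq_one, one_pow]
  have h2 : g ζ = ζ ^ cExp ℓ r g := cExp_spec ℓ r g ζ h1
  have h3 : g ζ = ζ ^ ExtCitation.cycloExp ℓ g :=
    Fermat.Agent.S14.Fields.apply_eq_pow_cycloExp ℓ g hζ.pow_eq_one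
  exact modEq_of_pow_eq_pow hζ hℓ.ne_zero (h2.symm.trans h3)

/-- the mod-`ℓ` cyclotomic character is ramified at `ℓ` (`ℓ` odd): the hypothesis `hτ`. -/
theorem exists_cExp_not_modEq (hr : 0 < r) (hℓ2 : ℓ ≠ 2) :
    ∃ τ ∈ Iq ℓ, ¬ cExp ℓ r (rq ℓ τ) ≡ 1 [MOD ℓ] := by
  have hℓ : ℓ.Prime := Fact.out
  haveI : NeZero ℓ := ⟨hℓ.ne_zero⟩
  obtain ⟨τ, hτ, hne⟩ := Fermat.Agent.TW.LOC.StrictOrdCard2.exists_mem_Iq_chiq_ne_one ℓ hℓ2
  refine ⟨τ, hτ, fun h => hne ?_⟩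
  have h1 : ExtCitation.cycloExp ℓ (rq ℓ τ) ≡ 1 [MOD ℓ] := (cExp_modEq hr (rq ℓ τ)).symm.trans h
  have h2 := (ZMod.natCast_eq_natCast_iff _ _ _).mpr h1
  rw [Nat.cast_one] at h2
  have h3 : ((ExtCitation.cycloChar ℓ (rq ℓ τ) : (ZMod ℓ)ˣ) : ZMod ℓ) = 1 := by
    rw [← h2]
    exact (ZMod.natCast_zmod_val _).symm
  exact Units.ext h3

/-- a cyclotomic exponent of `τ` modulo `ℓ^r` is congruent to `cExp ℓ r (rq ℓ τ)`. -/
theorem isCycExp_modEq (τ : Gq ℓ) (c : ℕ) (hc : IsCycExp (ℓ ^ r) τ c) :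
    c ≡ cExp ℓ r (rq ℓ τ) [MOD ℓ ^ r] := by
  have hℓ : ℓ.Prime := Fact.out
  haveI : NeZero (ℓ ^ r) := ⟨pow_ne_zero r hℓ.ne_zero⟩
  obtain ⟨ζ, hζ⟩ := HasEnoughRootsOfUnity.exists_primitiveRoot Qbar (ℓ ^ r)
  have h1 : rq ℓ τ ζ = ζ ^ cExp ℓ r (rq ℓ τ) := cExp_spec ℓ r _ ζ hζ.pow_eq_one
  have h2 : padicEmbedding ℓ (rq ℓ τ ζ) = τ (padicEmbedding ℓ ζ) :=
    padicEmbedding_localGaloisToGlobal ℓ τ ζ
  have h3 : (padicEmbedding ℓ ζ) ^ ℓ ^ r = 1 := by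
    rw [← map_pow, hζ.pow_eq_one, map_one]
  have h4 : τ (padicEmbedding ℓ ζ) = (padicEmbedding ℓ ζ) ^ c := hc _ h3
  have h5 : ζ ^ c = ζ ^ cExp ℓ r (rq ℓ τ) := by
    apply (padicEmbedding ℓ).toRingHom.injective
    show padicEmbedding ℓ (ζ ^ c) = padicEmbedding ℓ (ζ ^ cExp ℓ r (rq ℓ τ))
    rw [← h1, h2, h4, map_pow]
  exact modEq_of_pow_eq_pow hζ (pow_ne_zero r hℓ.ne_zero) h5

end CExp

/-! ### the `TypeData` instance -/

section Inst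

variable {N : ℕ} [NeZero N] {S : Finset Nat.Primes} (ℓS : ↥S)

/-- `a ≡ b mod ℓ` and `ℓ • x ∈ H` ⇒ `a • x - b • x ∈ H`. -/
theorem nsmul_sub_nsmul_mem {A : Type*} [AddCommGroup A] (H : AddSubgroup A) {ℓ a b : ℕ}
    (hab : a ≡ b [MOD ℓ]) (x : A) (hx : ℓ • x ∈ H) : a • x - b • x ∈ H := by
  have h3 : (ℓ : ℤ) ∣ (b : ℤ) - (a : ℤ) := Nat.modEq_iff_dvd.mp hab
  obtain ⟨e, he⟩ := h3
  have h5 : a • x - b • x = -(e • (ℓ • x)) := by
    rw [← natCast_zsmul x ℓ, ← mul_zsmul, mul_comm, ← he, sub_zsmul, natCast_zsmul, natCast_zsmul]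
    abel
  rw [h5]
  exact H.neg_mem (H.zsmul_mem hx e)

/-- **`TypeData` for `subRep G hGst`** from a chain of `GQ`-stable subgroups of `JZero N` with steps
of index `ℓ` of trivial or (mod `ℓ`) cyclotomic type. -/
theorem typeData_of_chain (r : ℕ) (hr : 0 < r) (G : AddSubgroup (JZero N))
    (hℓN : ¬ ((ℓS : Nat.Primes) : ℕ) ∣ N)
    (hGn : ∀ x ∈ G, ((ℓS : Nat.Primes) : ℕ) ^ r • x = 0) (hGst : ∀ σ : GQ, ∀ x ∈ G, σ • x ∈ G)
    (F : ℕ → AddSubgroup (JZero N)) (k : ℕ) (hF0 : F 0 = ⊥) (hFk : F k = G)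
    (hmono : ∀ i, F i ≤ F (i + 1)) (hst : ∀ i, ∀ σ : GQ, ∀ x ∈ F i, σ • x ∈ F i)
    (hsteps : ∀ i < k, (F i).relIndex (F (i + 1)) = ((ℓS : Nat.Primes) : ℕ) ∧
      ((∀ g : GQ, ∀ v ∈ F (i + 1), g • v - v ∈ F i) ∨
        (∀ g : GQ, ∀ v ∈ F (i + 1),
          g • v - ExtCitation.cycloExp ((ℓS : Nat.Primes) : ℕ) g • v ∈ F i))) :
    TypeData ℓS (subRep G hGst) k (subChainOf (hGst := hGst) F hF0 hFk.ge hmono hst)
      (B0 ((ℓS : Nat.Primes) : ℕ) (((ℓS : Nat.Primes) : ℕ) ^ r) G hGst)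
      (cExp ((ℓS : Nat.Primes) : ℕ) r) := by
  set ℓ : ℕ := ((ℓS : Nat.Primes) : ℕ) with hℓdef
  have hℓ : ℓ.Prime := (ℓS : Nat.Primes).2
  have hmonoLe : ∀ i j, i ≤ j → F i ≤ F j := fun i j hij =>
    monotone_nat_of_le_succ hmono hij
  have hkill : ∀ i < k, ∀ x ∈ F (i + 1), ℓ • x ∈ F i := fun i hi x hx =>
    nsmul_mem_of_relIndex_eq (hsteps i hi).1 x hx
  refine ⟨fun i hi => ?_, fun i hi => ?_, fun τ hτ i hi x hx hxB => ?_, ?_⟩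
  · -- card
    rw [SubChainOf8.card_X F hF0 hFk.ge hmono hst i (hFk ▸ hmonoLe (i + 1) k hi)]
    exact (hsteps i hi).1
  · -- type
    rcases (hsteps i hi).2 with h | h
    · exact Or.inl fun g v hv => type_trivial F hF0 hFk.ge hmono hst i h g v hv
    · refine Or.inr fun g v hv => type_cyc F hF0 hFk.ge hmono hst i (cExp ℓ r) ?_ g v hv
      intro σ w hw
      have h1 := h σ w hw
      have h2 : ExtCitation.cycloExp ℓ σ • w - cExp ℓ r σ • w ∈ F i :=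
        nsmul_sub_nsmul_mem (F i) (cExp_modEq hr σ).symm w (hkill i hi w hw)
      have h3 : σ • w - cExp ℓ r σ • w =
          (σ • w - ExtCitation.cycloExp ℓ σ • w) +
            (ExtCitation.cycloExp ℓ σ • w - cExp ℓ r σ • w) := by abel
      rw [h3]
      exact (F i).add_mem h1 h2
  · -- cyc
    haveI : NeZero (ℓ ^ r) := ⟨pow_ne_zero r hℓ.ne_zero⟩
    obtain ⟨c', hc'⟩ := exists_isCycExp (ℓ ^ r) τ
    have hxc : ((x : ↥G) : JZero N) ∈ cycPart ℓ (ℓ ^ r) G := (mem_B0_iff x).1 hxB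
    have h1 : rq ℓ τ • ((x : ↥G) : JZero N) = c' • ((x : ↥G) : JZero N) := hxc.2 τ hτ c' hc'
    have h2 : c' ≡ cExp ℓ r (rq ℓ τ) [MOD ℓ ^ r] := isCycExp_modEq τ c' hc'
    have h3 : c' • ((x : ↥G) : JZero N) - cExp ℓ r (rq ℓ τ) • ((x : ↥G) : JZero N) ∈
        (⊥ : AddSubgroup (JZero N)) :=
      nsmul_sub_nsmul_mem ⊥ h2 _ (by
        rw [AddSubgroup.mem_bot]
        exact hGn _ (x : ↥G).2)
    rw [AddSubgroup.mem_bot, sub_eq_zero] at h3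
    rw [mem_subChainOf_F]
    have h4 : (((subRep G hGst).ρ (rq ℓ τ) x - cExp ℓ r (rq ℓ τ) • x : subRep G hGst) : JZero N) =
        rq ℓ τ • ((x : ↥G) : JZero N) - cExp ℓ r (rq ℓ τ) • ((x : ↥G) : JZero N) := by
      rw [AddSubgroup.coe_sub, AddSubgroup.coe_nsmul]
      rfl
    rw [h4, h1, h3, sub_self]
    exact (F i).zero_mem
  · -- ord
    have hχ : ∀ (σ : GQ) (ζ : Qbar), ζ ^ ℓ = 1 → σ ζ = ζ ^ (chiZ ℓ σ).val := fun σ ζ hζ => by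
      rw [chiZ_val]
      exact Fermat.Agent.S14.Fields.apply_eq_pow_cycloExp ℓ σ hζ
    have hstep := hstep_of_global (N := N) (chiZ ℓ) hχ r hr F k (fun i hi =>
      ⟨hkill i hi, (hsteps i hi).2⟩)
    exact ordPeu r G hℓN hr hGn hGst F k hF0 hFk hstep

end Inst

/-! ### the concrete case `G = G_P[ℓ^r]` -/

section GP

open Fermat.Agent.MZ.HECKE.RingD5 Fermat.Agent.MZ.HECKE.IdemD5

variable {N : ℕ} [NeZero N] {D : ℕ} {S : Finset Nat.Primes} (ℓS : ↥S) (P : Ideal (R N D))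

theorem nsmul_eq_zero_of_mem_GPa (m : ℕ) : ∀ x ∈ GPa P m, m • x = 0 := fun _ hx => hx.1

/-- **`TypeData` for `G_P[ℓ^r]`** (`P` an Eisenstein ideal of residue characteristic `ℓ`), with the
chain of `CONST/GrChain9.exists_chain_GP`. -/
theorem exists_typeData_GP (hD : D ≠ 0) (hlP : ((((ℓS : Nat.Primes) : ℕ) : ℕ) : R N D) ∈ P)
    (hEis : ∀ (q : Nat.Primes) (hq : ¬ (q : ℕ) ∣ N * D),
      Tq N D q hq - (((q : ℕ) : R N D) + 1) ∈ P)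
    (hℓN : ¬ ((ℓS : Nat.Primes) : ℕ) ∣ N) (r : ℕ) (hr : 0 < r) :
    ∃ (m : ℕ) (C : SubChain (subRep (GPa P (((ℓS : Nat.Primes) : ℕ) ^ r))
        (stable_GPa P (((ℓS : Nat.Primes) : ℕ) ^ r))) m),
      TypeData ℓS (subRep (GPa P (((ℓS : Nat.Primes) : ℕ) ^ r))
        (stable_GPa P (((ℓS : Nat.Primes) : ℕ) ^ r))) m C
        (B0 ((ℓS : Nat.Primes) : ℕ) (((ℓS : Nat.Primes) : ℕ) ^ r)
          (GPa P (((ℓS : Nat.Primes) : ℕ) ^ r)) (stable_GPa P (((ℓS : Nat.Primes) : ℕ) ^ r)))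
        (cExp ((ℓS : Nat.Primes) : ℕ) r) := by
  obtain ⟨m, F, hF0, hFm, hmono, hst, hsteps⟩ :=
    exists_chain_GP P ((ℓS : Nat.Primes) : ℕ) hD hlP hEis r
  exact ⟨m, subChainOf F hF0 hFm.ge hmono hst,
    typeData_of_chain ℓS r hr (GPa P (((ℓS : Nat.Primes) : ℕ) ^ r)) hℓN
      (nsmul_eq_zero_of_mem_GPa P _) (stable_GPa P _) F m hF0 hFm hmono hst hsteps⟩

end GP

end Fermat.Agent.MZ.SEL.TypeInst8
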